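/-
Quadratic-time certified multiplication of truncated integral power series, on top of
`Fermat.Agent.S28.Trunc` (P-GATEWAY, auxiliary level package).
-/
import Mathlib
import Fermat.Agent.S28.Hauptmodul.TruncEngine

set_option autoImplicit false

namespace Fermat.Agent.Gateway.AuxLevel

open Fermat.Agent.S28 Fermat.Agent.S28.Trunc PowerSeries

/-- Pointwise sum of two lists, the shorter one padded with zeros. -/
def addP : List ℤ → List ℤ → List ℤ
  | [], m => m
  | a :: l, [] => a :: l
  | a :: l, b :: m => (a + b) :: addP l m

theorem getD_addP (l m : List ℤ) (n : ℕ) : (addP l m).getD n 0 = l.getD n 0 + m.getD n 0 := by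
  induction l generalizing m n with
  | nil => simp [addP]
  | cons a l ih =>
    cases m with
    | nil => simp [addP]
    | cons b m =>
      cases n with
      | zero => simp [addP]
      | succ n => simpa [addP] using ih m n

/-- Exact product of two coefficient lists (schoolbook multiplication). -/
def mulP : List ℤ → List ℤ → List ℤ
  | [], _ => []
  | a :: l, m => addP (m.map fun b => a * b) (0 :: mulP l m)

theorem getD_map_mul (a : ℤ) (m : List ℤ) (n : ℕ) :
    (m.map fun b => a * b).getD n 0 = a * m.getD n 0 := by
  induction m generalizing n with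
  | nil => simp
  | cons b m ih =>
    cases n with
    | zero => simp
    | succ n => simpa using ih n

theorem getD_mulP (l m : List ℤ) (n : ℕ) :
    (mulP l m).getD n 0 = ∑ i ∈ Finset.range (n + 1), l.getD i 0 * m.getD (n - i) 0 := by
  induction l generalizing n with
  | nil => simp [mulP]
  | cons a l ih =>
    rw [mulP, getD_addP, getD_map_mul, Finset.sum_range_succ']
    cases n with
    | zero => simp
    | succ n =>
      rw [List.getD_cons_succ, ih n, add_comm]
      simp only [List.getD_cons_zero, List.getD_cons_succ, Nat.sub_zero, Nat.add_sub_add_right]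

/-- Truncated product, quadratic time. -/
def mulF (N : ℕ) (l m : List ℤ) : List ℤ :=
  (mulP (l.take (N + 1)) (m.take (N + 1))).take (N + 1)

theorem getD_take_of_lt (l : List ℤ) {k n : ℕ} (h : n < k) : (l.take k).getD n 0 = l.getD n 0 := by
  rw [List.getD_eq_getElem?_getD, List.getD_eq_getElem?_getD, List.getElem?_take_of_lt h]

theorem getD_mulF (N : ℕ) (l m : List ℤ) {n : ℕ} (hn : n ≤ N) :
    (mulF N l m).getD n 0 = mulCoeff l m n := by
  rw [mulF, getD_take_of_lt _ (by omega), getD_mulP, mulCoeff,
    ← List.sum_toFinset _ (List.nodup_range), List.toFinset_range]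
  refine Finset.sum_congr rfl fun i hi => ?_
  rw [Finset.mem_range] at hi
  rw [getD_take_of_lt _ (by omega), getD_take_of_lt _ (by omega)]

theorem Approx.mulF {N : ℕ} {G H : PowerSeries ℤ} {l m : List ℤ} (hG : Approx N G l)
    (hH : Approx N H m) : Approx N (G * H) (mulF N l m) := by
  intro n hn
  rw [getD_mulF N l m hn]
  have h := hG.mul hH n hn
  rwa [mulL, getD_map_range N _ hn] at h

/-- Truncated power, using `mulF`. -/
def powF (N : ℕ) (l : List ℤ) : ℕ → List ℤ
  | 0 => [1]
  | (n + 1) => mulF N (powF N l n) l

theorem Approx.powF {N : ℕ} {G : PowerSeries ℤ} {l : List ℤ} (hG : Approx N G l) (k : ℕ) :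
    Approx N (G ^ k) (powF N l k) := by
  induction k with
  | zero => simpa [AuxLevel.powF] using (Approx.one : Approx N 1 [1])
  | succ k ih => rw [pow_succ]; exact Approx.mulF ih hG

end Fermat.Agent.Gateway.AuxLevel
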