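/-
Integral q-series of modular forms on `Γ₀(N)` for composite `N`: change of level, division by
integers, the weight four series `∑ σ₃(n) qⁿ`, and the Sturm bound with the exact index
(P-GATEWAY, auxiliary level package).
-/
import Mathlib
import Fermat.Agent.S28.Hauptmodul.MFSeries
import Fermat.Agent.S24.CombIndex

set_option autoImplicit false

open UpperHalfPlane ModularForm Complex MatrixGroups CongruenceSubgroup
open scoped ModularForm

namespace Fermat.Agent.Gateway.AuxLevel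

open Fermat.Agent.S28 PowerSeries

/-! ### Change of level -/

theorem Gamma0_le_Gamma0 {d N : ℕ} (h : d ∣ N) : Gamma0 N ≤ Gamma0 d := by
  intro γ hγ
  rw [Gamma0_mem] at hγ ⊢
  obtain ⟨e, rfl⟩ := h
  have := congrArg (ZMod.castHom (dvd_mul_right d e) (ZMod d)) hγ
  simpa using this

theorem isMFSeries_of_dvd {d N : ℕ} {k : ℤ} {G : PowerSeries ℤ} (h : IsMFSeries d k G)
    (hd : d ∣ N) : IsMFSeries N k G := by
  obtain ⟨F, hF⟩ := h
  refine ⟨restrictLevel (Subgroup.map_mono (Gamma0_le_Gamma0 hd)) F, ?_⟩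
  rw [coe_restrictLevel]
  exact hF

/-! ### Division by a nonzero integer -/

theorem isMFSeries_of_C_mul {N : ℕ} {k : ℤ} {G : PowerSeries ℤ} {a : ℤ} (ha : a ≠ 0)
    (h : IsMFSeries N k (C a * G)) : IsMFSeries N k G := by
  obtain ⟨F, hF⟩ := h
  refine ⟨((a : ℂ)⁻¹) • F, ?_⟩
  rw [FunLike.coe_smul, ModularForm.qExpansion_smul one_pos (one_mem_strictPeriods_Gamma0 N), hF,
    map_mul, PowerSeries.map_C, ← PowerSeries.smul_eq_C_mul, smul_smul]
  have : ((a : ℂ)⁻¹) * (Int.castRingHom ℂ) a = 1 := by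
    simp [ha]
  rw [this, one_smul]

theorem isMFSeries_neg {N : ℕ} {k : ℤ} {G : PowerSeries ℤ} (h : IsMFSeries N k G) :
    IsMFSeries N k (-G) := by
  have := h.C_mul (-1)
  simpa using this

/-! ### The series `∑ σ₃(n) qⁿ` -/

/-- The series `∑_{n ≥ 1} σ₃(n) qⁿ`, so that `E₄ = 1 + 240 sig3`. -/
noncomputable def sig3 : PowerSeries ℤ :=
  PowerSeries.mk fun n => if n = 0 then 0 else ∑ d ∈ n.divisors, (d : ℤ) ^ 3

theorem eisenstein4_eq : ModularCurve.eisenstein4 = 1 + C 240 * sig3 := by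
  ext n
  rw [ModularCurve.eisenstein4, coeff_mk, map_add, coeff_C_mul, sig3, coeff_mk, coeff_one]
  split_ifs <;> simp

/-- `E₄(q^d)` as a series of level `N`, for `d ∣ N`. -/
theorem isMFSeries_E4_expand_of_dvd {d N : ℕ} [NeZero d] (hd : d ∣ N) :
    IsMFSeries N 4 (expand d (NeZero.ne d) ModularCurve.eisenstein4) :=
  isMFSeries_of_dvd (isMFSeries_E4_expand d) hd

theorem expand_eisenstein4 (d : ℕ) (hd : d ≠ 0) :
    expand d hd ModularCurve.eisenstein4 = 1 + C 240 * expand d hd sig3 := by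
  rw [eisenstein4_eq, map_add, map_one, map_mul, expand_C]

/-- `σ₃`-series differences are modular: `sig3(q^d) - sig3(q^e)` for `d, e ∣ N`. -/
theorem isMFSeries_sig3_sub {d e N : ℕ} [NeZero d] [NeZero e] (hd : d ∣ N) (he : e ∣ N) :
    IsMFSeries N 4 (expand d (NeZero.ne d) sig3 - expand e (NeZero.ne e) sig3) := by
  have h := (isMFSeries_E4_expand_of_dvd hd).sub (isMFSeries_E4_expand_of_dvd he)
  rw [expand_eisenstein4, expand_eisenstein4] at h
  refine isMFSeries_of_C_mul (a := 240) (by norm_num) (h.of_eq rfl ?_)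
  ring

/-- `sig3(q) - sig3(q^e)` for `e ∣ N`. -/
theorem isMFSeries_sig3_sub_one {e N : ℕ} [NeZero e] (he : e ∣ N) :
    IsMFSeries N 4 (sig3 - expand e (NeZero.ne e) sig3) := by
  have h := (isMFSeries_E4 N).sub (isMFSeries_E4_expand_of_dvd he)
  rw [expand_eisenstein4, eisenstein4_eq] at h
  refine isMFSeries_of_C_mul (a := 240) (by norm_num) (h.of_eq rfl ?_)
  ring

/-! ### The Sturm bound with the exact index -/

theorem isMFSeries_eq_zero_of_index {N : ℕ} [NeZero N] {k : ℤ} {G : PowerSeries ℤ}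
    (h : IsMFSeries N k G) {m : ℕ} (hm : ModularCurve.dedekindPsi N = m)
    (hc : ∀ n : ℕ, n ≤ (k * m).toNat / 12 → coeff n G = 0) : G = 0 := by
  apply h.eq_zero
  rw [Fermat.Agent.S24.Comb.index_Gamma0, hm]
  exact hc

theorem dedekindPsi_four : ModularCurve.dedekindPsi 4 = 6 := by decide +kernel

theorem dedekindPsi_nine : ModularCurve.dedekindPsi 9 = 12 := by decide +kernel

end Fermat.Agent.Gateway.AuxLevel
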