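/-
Certified multiplication of truncated integral power series by Kronecker substitution:
a coefficient list is packed into one integer, the product is a single integer multiplication,
and the coefficients are read off again as balanced digits.  (P-GATEWAY, auxiliary level package.)
-/
import Mathlib
import Fermat.Agent.Gateway.AuxLevel.FastTrunc

set_option autoImplicit false

namespace Fermat.Agent.Gateway.AuxLevel

open Fermat.Agent.S28 Fermat.Agent.S28.Trunc PowerSeries

/-- The value of a coefficient list at `B` (Horner scheme). -/
def evalL (B : ℕ) : List ℤ → ℤ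
  | [] => 0
  | a :: l => a + (B : ℤ) * evalL B l

theorem evalL_addP (B : ℕ) (l m : List ℤ) : evalL B (addP l m) = evalL B l + evalL B m := by
  induction l generalizing m with
  | nil => simp [addP, evalL]
  | cons a l ih =>
    cases m with
    | nil => simp [addP, evalL]
    | cons b m => simp only [addP, evalL, ih]; ring

theorem evalL_map_mul (B : ℕ) (a : ℤ) (m : List ℤ) :
    evalL B (m.map fun b => a * b) = a * evalL B m := by
  induction m with
  | nil => simp [evalL]
  | cons b m ih => simp only [List.map_cons, evalL, ih]; ring

theorem evalL_mulP (B : ℕ) (l m : List ℤ) : evalL B (mulP l m) = evalL B l * evalL B m := by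
  induction l with
  | nil => simp [mulP, evalL]
  | cons a l ih => simp only [mulP, evalL_addP, evalL_map_mul, evalL, ih]; ring

/-- The first `n` balanced digits of `x` in base `B`. -/
def decodeL (B : ℕ) : ℕ → ℤ → List ℤ
  | 0, _ => []
  | (n + 1), x => Int.bmod x B :: decodeL B n ((x - Int.bmod x B) / (B : ℤ))

theorem bmod_add_mul {B : ℕ} {a : ℤ} (ha : 2 * a.natAbs < B) (y : ℤ) :
    Int.bmod (a + (B : ℤ) * y) B = a := by
  rw [Int.add_mul_bmod_self_left]
  apply Int.bmod_eq_of_le <;> omega

theorem getD_decodeL (B : ℕ) (n : ℕ) (p : List ℤ)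
    (hp : ∀ k < n, 2 * (p.getD k 0).natAbs < B) :
    ∀ k < n, (decodeL B n (evalL B p)).getD k 0 = p.getD k 0 := by
  induction n generalizing p with
  | zero => intro k hk; omega
  | succ n ih =>
    have hB : (B : ℤ) ≠ 0 := by
      have := hp 0 (by omega)
      omega
    intro k hk
    cases p with
    | nil =>
      have h0 : Int.bmod 0 B = 0 := by simp
      cases k with
      | zero => simp [decodeL, evalL]
      | succ k =>
        have := ih [] (by intro j _; have := hp 0 (by omega); simpa using (by omega : 0 < B)) k
          (by omega)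
        simpa [decodeL, evalL, h0] using this
    | cons a t =>
      have ha : 2 * a.natAbs < B := by simpa using hp 0 (by omega)
      have h1 : Int.bmod (evalL B (a :: t)) B = a := by rw [evalL]; exact bmod_add_mul ha _
      have h2 : (evalL B (a :: t) - a) / (B : ℤ) = evalL B t := by
        rw [evalL, add_sub_cancel_left, Int.mul_ediv_cancel_left _ hB]
      cases k with
      | zero => simp [decodeL, h1]
      | succ k =>
        rw [decodeL, h1, h2, List.getD_cons_succ, List.getD_cons_succ]
        exact ih t (fun j hj => by simpa using hp (j + 1) (by omega)) k (by omega)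

/-- The largest absolute value of an entry. -/
def maxAbs : List ℤ → ℕ
  | [] => 0
  | a :: l => max a.natAbs (maxAbs l)

theorem natAbs_getD_le (l : List ℤ) (k : ℕ) : (l.getD k 0).natAbs ≤ maxAbs l := by
  induction l generalizing k with
  | nil => simp [maxAbs]
  | cons a l ih =>
    cases k with
    | zero => simp [maxAbs]
    | succ k => rw [List.getD_cons_succ, maxAbs]; exact (ih k).trans (le_max_right _ _)

theorem natAbs_getD_mulP_le (l m : List ℤ) (k : ℕ) :
    ((mulP l m).getD k 0).natAbs ≤ (k + 1) * (maxAbs l * maxAbs m) := by
  rw [getD_mulP]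
  have h : ∀ s : Finset ℕ, (∑ i ∈ s, l.getD i 0 * m.getD (k - i) 0).natAbs ≤
      s.card * (maxAbs l * maxAbs m) := by
    intro s
    induction s using Finset.induction_on with
    | empty => simp
    | insert i s hi ih =>
      rw [Finset.sum_insert hi, Finset.card_insert_of_notMem hi]
      refine (Int.natAbs_add_le _ _).trans ?_
      rw [Int.natAbs_mul, add_mul, one_mul, add_comm]
      exact add_le_add ih (Nat.mul_le_mul (natAbs_getD_le l i) (natAbs_getD_le m _))
  simpa using h (Finset.range (k + 1))

/-- Truncated product via Kronecker substitution. -/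
def mulK (N : ℕ) (l m : List ℤ) : List ℤ :=
  let l' := l.take (N + 1)
  let m' := m.take (N + 1)
  let B := 2 * ((N + 1) * (maxAbs l' * maxAbs m')) + 1
  decodeL B (N + 1) (evalL B l' * evalL B m')

theorem getD_mulK (N : ℕ) (l m : List ℤ) {n : ℕ} (hn : n ≤ N) :
    (mulK N l m).getD n 0 = mulCoeff l m n := by
  rw [← getD_mulF N l m hn, mulF, getD_take_of_lt _ (by omega), mulK]
  rw [← evalL_mulP]
  apply getD_decodeL _ _ _ _ n (by omega)
  intro k hk
  have h := natAbs_getD_mulP_le (l.take (N + 1)) (m.take (N + 1)) k
  have h2 : (k + 1) * (maxAbs (l.take (N + 1)) * maxAbs (m.take (N + 1))) ≤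
      (N + 1) * (maxAbs (l.take (N + 1)) * maxAbs (m.take (N + 1))) :=
    Nat.mul_le_mul_right _ (by omega)
  omega

theorem Approx.mulK {N : ℕ} {G H : PowerSeries ℤ} {l m : List ℤ} (hG : Approx N G l)
    (hH : Approx N H m) : Approx N (G * H) (mulK N l m) := by
  intro n hn
  rw [getD_mulK N l m hn]
  have h := hG.mul hH n hn
  rwa [mulL, getD_map_range N _ hn] at h

/-- Truncated power, using `mulK`. -/
def powK (N : ℕ) (l : List ℤ) : ℕ → List ℤ
  | 0 => [1]
  | (n + 1) => mulK N (powK N l n) l

theorem Approx.powK {N : ℕ} {G : PowerSeries ℤ} {l : List ℤ} (hG : Approx N G l) (k : ℕ) :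
    Approx N (G ^ k) (powK N l k) := by
  induction k with
  | zero => simpa [AuxLevel.powK] using (Approx.one : Approx N 1 [1])
  | succ k ih => rw [pow_succ]; exact Approx.mulK ih hG

end Fermat.Agent.Gateway.AuxLevel

namespace Fermat.Agent.Gateway.AuxLevel

open Fermat.Agent.S28 Fermat.Agent.S28.Trunc PowerSeries

/-! ### Forcing evaluation

The kernel evaluates lazily; the following identity functions force their argument to a numeral
before it is passed on, which keeps intermediate coefficient lists in evaluated form. -/

/-- Continuation-passing identity on `ℕ` which forces its argument. -/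
def forceNat {α : Sort*} (k : ℕ) (f : ℕ → α) : α :=
  match k with
  | 0 => f 0
  | (k' + 1) => f (k' + 1)

theorem forceNat_eq {α : Sort*} (k : ℕ) (f : ℕ → α) : forceNat k f = f k := by
  cases k <;> rfl

/-- Continuation-passing identity on `ℤ` which forces its argument. -/
def forceInt {α : Sort*} (x : ℤ) (f : ℤ → α) : α :=
  match x with
  | Int.ofNat k => forceNat k fun k' => f (Int.ofNat k')
  | Int.negSucc k => forceNat k fun k' => f (Int.negSucc k')

theorem forceInt_eq {α : Sort*} (x : ℤ) (f : ℤ → α) : forceInt x f = f x := by
  cases x <;> simp [forceInt, forceNat_eq]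

/-- Continuation-passing identity on lists which forces all entries. -/
def forceList {α : Sort*} : List ℤ → (List ℤ → α) → α
  | [], f => f []
  | a :: l, f => forceInt a fun a' => forceList l fun l' => f (a' :: l')

theorem forceList_eq {α : Sort*} (l : List ℤ) (f : List ℤ → α) : forceList l f = f l := by
  induction l generalizing f with
  | nil => rfl
  | cons a l ih => simp [forceList, forceInt_eq, ih]

/-- The identity on coefficient lists, forcing all entries. -/
def strict (l : List ℤ) : List ℤ := forceList l id

theorem strict_eq (l : List ℤ) : strict l = l := forceList_eq l id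

theorem Approx.strict {N : ℕ} {G : PowerSeries ℤ} {l : List ℤ} (hG : Approx N G l) :
    Approx N G (strict l) := by
  rw [strict_eq]; exact hG

/-- Strict truncated product. -/
def mulS (N : ℕ) (l m : List ℤ) : List ℤ := strict (mulK N l m)

theorem Approx.mulS {N : ℕ} {G H : PowerSeries ℤ} {l m : List ℤ} (hG : Approx N G l)
    (hH : Approx N H m) : Approx N (G * H) (mulS N l m) :=
  Approx.strict (Approx.mulK hG hH)

/-- Strict truncated power. -/
def powS (N : ℕ) (l : List ℤ) : ℕ → List ℤ
  | 0 => [1]
  | (n + 1) => mulS N (powS N l n) l

theorem Approx.powS {N : ℕ} {G : PowerSeries ℤ} {l : List ℤ} (hG : Approx N G l) (k : ℕ) :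
    Approx N (G ^ k) (powS N l k) := by
  induction k with
  | zero => simpa [AuxLevel.powS] using (Approx.one : Approx N 1 [1])
  | succ k ih => rw [pow_succ]; exact Approx.mulS ih hG

end Fermat.Agent.Gateway.AuxLevel
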