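/-
The Hauptmodul of `X₀(4)` with its three relations to `j(q)`, `j(q²)`, `j(q⁴)`
(P-GATEWAY, auxiliary level package).

With `f = ∑ (σ₃(n) - σ₃(n/2)) qⁿ = (E₄(q) - E₄(q²))/240` and `g = f(q²)` (weight four forms on
`Γ₀(4)`), the function `x = f/g = q⁻¹ + 8 + 20 q - 62 q³ + ⋯` is a Hauptmodul of `X₀(4)`
(`x = (η(q)/η(q⁴))⁸ + 16`), and
`j(q) x (x-16)⁴ = (x²+224x+256)³`, `j(q²) x² (x-16)² = (x²-16x+256)³`,
`j(q⁴) x (x-16) = (x²-16x+16)³`.
-/
import Mathlib
import Fermat.Agent.S28.Hauptmodul.H2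
import Fermat.Agent.Gateway.AuxLevel.Forms
import Fermat.Agent.Gateway.AuxLevel.Kronecker

set_option autoImplicit false

namespace Fermat.Agent.Gateway.AuxLevel

open PowerSeries ModularCurve Fermat.Agent.S28 Fermat.Agent.S28.Trunc
open Fermat.Agent.S28.H2 (DeltaS deltaBridge)

/-! ### Coefficient lists of the base series -/

/-- coefficient list of `sig3` -/
def sig3L (N : ℕ) : List ℤ := (List.range (N + 1)).map fun n => if n = 0 then 0 else sigma3 n

theorem approx_sig3 (N : ℕ) : Approx N sig3 (sig3L N) := by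
  intro n hn
  rw [sig3L, getD_map_range N _ hn, sig3, coeff_mk]
  split_ifs with h
  · rfl
  · rw [sigma3_eq n h]

/-- coefficient list of the discriminant series -/
def deltaL (N : ℕ) : List ℤ := shiftL N 1 (powK N (etaL N) 24)

theorem approx_DeltaS (N : ℕ) : Approx N DeltaS (deltaL N) := by
  rw [DeltaS, dedekindEtaUnit]
  exact Approx.X_mul (Approx.powK (approx_etaProd N) 24)

namespace L4

/-! ### The two weight four forms -/

/-- `f = (E₄(q) - E₄(q²))/240`. -/
noncomputable def f4 : PowerSeries ℤ := sig3 - expand 2 two_ne_zero sig3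

/-- `g = (E₄(q²) - E₄(q⁴))/240 = f(q²)`. -/
noncomputable def g4 : PowerSeries ℤ := expand 2 two_ne_zero sig3 - expand 4 four_ne_zero sig3

theorem isMFSeries_f4 : IsMFSeries 4 4 f4 :=
  isMFSeries_sig3_sub_one (e := 2) (N := 4) ⟨2, rfl⟩

theorem isMFSeries_g4 : IsMFSeries 4 4 g4 :=
  isMFSeries_sig3_sub (d := 2) (e := 4) (N := 4) ⟨2, rfl⟩ dvd_rfl

theorem g4_eq : g4 = expand 2 two_ne_zero f4 := by
  have h : expand 4 four_ne_zero sig3 = expand 2 two_ne_zero (expand 2 two_ne_zero sig3) :=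
    expand_mul 2 two_ne_zero 2 two_ne_zero sig3
  rw [g4, f4, map_sub, h]

/-- `Δ(q²)` -/
noncomputable def Delta2 : PowerSeries ℤ := expand 2 two_ne_zero DeltaS

/-- `Δ(q⁴)` -/
noncomputable def Delta4 : PowerSeries ℤ := expand 4 four_ne_zero DeltaS

/-- `E₄(q²)` -/
noncomputable def E4_2 : PowerSeries ℤ := expand 2 two_ne_zero eisenstein4

/-- `E₄(q⁴)` -/
noncomputable def E4_4 : PowerSeries ℤ := expand 4 four_ne_zero eisenstein4

theorem isMFSeries_Delta1 : IsMFSeries 4 12 DeltaS := isMFSeries_Delta deltaBridge 4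

theorem isMFSeries_Delta2 : IsMFSeries 4 12 Delta2 :=
  isMFSeries_of_dvd (isMFSeries_Delta_expand deltaBridge 2) ⟨2, rfl⟩

theorem isMFSeries_Delta4 : IsMFSeries 4 12 Delta4 := isMFSeries_Delta_expand deltaBridge 4

theorem isMFSeries_E4_1 : IsMFSeries 4 4 eisenstein4 := isMFSeries_E4 4

theorem isMFSeries_E4_2 : IsMFSeries 4 4 E4_2 :=
  isMFSeries_E4_expand_of_dvd (d := 2) (N := 4) ⟨2, rfl⟩

theorem isMFSeries_E4_4 : IsMFSeries 4 4 E4_4 :=
  isMFSeries_E4_expand_of_dvd (d := 4) (N := 4) dvd_rfl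

/-! ### The three identities as weight 36 forms -/

/-- `E₄³ f g (f-16g)⁴ - Δ (f²+224fg+256g²)³` -/
noncomputable def GA : PowerSeries ℤ :=
  eisenstein4 ^ 3 * (f4 * g4 * (f4 - C 16 * g4) ^ 4) -
    DeltaS * (f4 * f4 + C 224 * (f4 * g4) + C 256 * (g4 * g4)) ^ 3

/-- `E₄(q²)³ f² g² (f-16g)² - Δ(q²) (f²-16fg+256g²)³` -/
noncomputable def GB : PowerSeries ℤ :=
  E4_2 ^ 3 * (f4 * f4 * (g4 * g4) * (f4 - C 16 * g4) ^ 2) -
    Delta2 * (f4 * f4 - C 16 * (f4 * g4) + C 256 * (g4 * g4)) ^ 3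

/-- `E₄(q⁴)³ f (f-16g) g⁴ - Δ(q⁴) (f²-16fg+16g²)³` -/
noncomputable def GC : PowerSeries ℤ :=
  E4_4 ^ 3 * (f4 * (f4 - C 16 * g4) * g4 ^ 4) -
    Delta4 * (f4 * f4 - C 16 * (f4 * g4) + C 16 * (g4 * g4)) ^ 3

theorem isMFSeries_quad (a b : ℤ) :
    IsMFSeries 4 8 (f4 * f4 + C a * (f4 * g4) + C b * (g4 * g4)) :=
  (((isMFSeries_f4.mul isMFSeries_f4).add ((isMFSeries_f4.mul isMFSeries_g4).C_mul a)).add
    ((isMFSeries_g4.mul isMFSeries_g4).C_mul b)).of_eq (by norm_num) rfl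

theorem isMFSeries_quad' (a b : ℤ) :
    IsMFSeries 4 8 (f4 * f4 - C a * (f4 * g4) + C b * (g4 * g4)) :=
  (((isMFSeries_f4.mul isMFSeries_f4).sub ((isMFSeries_f4.mul isMFSeries_g4).C_mul a)).add
    ((isMFSeries_g4.mul isMFSeries_g4).C_mul b)).of_eq (by norm_num) rfl

theorem isMFSeries_lin : IsMFSeries 4 4 (f4 - C 16 * g4) :=
  isMFSeries_f4.sub (isMFSeries_g4.C_mul 16)

theorem isMFSeries_GA : IsMFSeries 4 36 GA := by
  unfold GA
  refine IsMFSeries.sub ?_ ?_
  · exact ((isMFSeries_E4_1.pow 3).mul ((isMFSeries_f4.mul isMFSeries_g4).mul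
      (isMFSeries_lin.pow 4))).of_eq (by norm_num) rfl
  · exact (isMFSeries_Delta1.mul ((isMFSeries_quad 224 256).pow 3)).of_eq (by norm_num) rfl

theorem isMFSeries_GB : IsMFSeries 4 36 GB := by
  unfold GB
  refine IsMFSeries.sub ?_ ?_
  · exact ((isMFSeries_E4_2.pow 3).mul (((isMFSeries_f4.mul isMFSeries_f4).mul
      (isMFSeries_g4.mul isMFSeries_g4)).mul (isMFSeries_lin.pow 2))).of_eq (by norm_num) rfl
  · exact (isMFSeries_Delta2.mul ((isMFSeries_quad' 16 256).pow 3)).of_eq (by norm_num) rfl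

theorem isMFSeries_GC : IsMFSeries 4 36 GC := by
  unfold GC
  refine IsMFSeries.sub ?_ ?_
  · exact ((isMFSeries_E4_4.pow 3).mul ((isMFSeries_f4.mul isMFSeries_lin).mul
      (isMFSeries_g4.pow 4))).of_eq (by norm_num) rfl
  · exact (isMFSeries_Delta4.mul ((isMFSeries_quad' 16 16).pow 3)).of_eq (by norm_num) rfl

/-! ### Coefficient computations -/

/-- coefficient list of `f4` -/
def fL : List ℤ := subL 18 (sig3L 18) (expandL 18 2 (sig3L 18))

/-- coefficient list of `g4` -/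
def gL : List ℤ := subL 18 (expandL 18 2 (sig3L 18)) (expandL 18 4 (sig3L 18))

theorem approx_f4 : Approx 18 f4 fL :=
  (approx_sig3 18).sub ((approx_sig3 18).expand 2 two_ne_zero)

theorem approx_g4 : Approx 18 g4 gL :=
  ((approx_sig3 18).expand 2 two_ne_zero).sub ((approx_sig3 18).expand 4 four_ne_zero)

theorem approx_lin : Approx 18 (f4 - C 16 * g4) (subL 18 fL (smulL 18 16 gL)) :=
  approx_f4.sub (approx_g4.C_mul 16)

theorem approx_quad (a b : ℤ) : Approx 18 (f4 * f4 + C a * (f4 * g4) + C b * (g4 * g4))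
    (addL 18 (addL 18 (mulK 18 fL fL) (smulL 18 a (mulK 18 fL gL))) (smulL 18 b (mulK 18 gL gL))) :=
  ((Approx.mulK approx_f4 approx_f4).add ((Approx.mulK approx_f4 approx_g4).C_mul a)).add
    ((Approx.mulK approx_g4 approx_g4).C_mul b)

theorem approx_quad' (a b : ℤ) : Approx 18 (f4 * f4 - C a * (f4 * g4) + C b * (g4 * g4))
    (addL 18 (subL 18 (mulK 18 fL fL) (smulL 18 a (mulK 18 fL gL))) (smulL 18 b (mulK 18 gL gL))) :=
  ((Approx.mulK approx_f4 approx_f4).sub ((Approx.mulK approx_f4 approx_g4).C_mul a)).add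
    ((Approx.mulK approx_g4 approx_g4).C_mul b)

set_option maxRecDepth 100000 in
theorem coeff_GA {n : ℕ} (hn : n ≤ 18) : coeff n GA = 0 := by
  have h : Approx 18 GA _ :=
    (Approx.mulK (Approx.powK (approx_eisenstein4 18) 3)
      (Approx.mulK (Approx.mulK approx_f4 approx_g4) (Approx.powK approx_lin 4))).sub
    (Approx.mulK (approx_DeltaS 18) (Approx.powK (approx_quad 224 256) 3))
  exact h.eq_zero (by decide +kernel) n hn

set_option maxRecDepth 100000 in
theorem coeff_GB {n : ℕ} (hn : n ≤ 18) : coeff n GB = 0 := by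
  have h : Approx 18 GB _ :=
    (Approx.mulK (Approx.powK ((approx_eisenstein4 18).expand 2 two_ne_zero) 3)
      (Approx.mulK (Approx.mulK (Approx.mulK approx_f4 approx_f4) (Approx.mulK approx_g4 approx_g4))
        (Approx.powK approx_lin 2))).sub
    (Approx.mulK ((approx_DeltaS 18).expand 2 two_ne_zero) (Approx.powK (approx_quad' 16 256) 3))
  exact h.eq_zero (by decide +kernel) n hn

set_option maxRecDepth 100000 in
theorem coeff_GC {n : ℕ} (hn : n ≤ 18) : coeff n GC = 0 := by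
  have h : Approx 18 GC _ :=
    (Approx.mulK (Approx.powK ((approx_eisenstein4 18).expand 4 four_ne_zero) 3)
      (Approx.mulK (Approx.mulK approx_f4 approx_lin) (Approx.powK approx_g4 4))).sub
    (Approx.mulK ((approx_DeltaS 18).expand 4 four_ne_zero) (Approx.powK (approx_quad' 16 16) 3))
  exact h.eq_zero (by decide +kernel) n hn

/-! ### The Sturm bound -/

theorem sturm_four {G : PowerSeries ℤ} (h : IsMFSeries 4 36 G)
    (hc : ∀ n : ℕ, n ≤ 18 → coeff n G = 0) : G = 0 := by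
  apply isMFSeries_eq_zero_of_index h dedekindPsi_four
  intro n hn
  exact hc n (by
    have h18 : ((36 : ℤ) * ((6 : ℕ) : ℤ)).toNat / 12 = 18 := by decide
    omega)

theorem GA_eq_zero : GA = 0 := sturm_four isMFSeries_GA fun _ hn => coeff_GA hn

theorem GB_eq_zero : GB = 0 := sturm_four isMFSeries_GB fun _ hn => coeff_GB hn

theorem GC_eq_zero : GC = 0 := sturm_four isMFSeries_GC fun _ hn => coeff_GC hn

end L4

end Fermat.Agent.Gateway.AuxLevel
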