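/-
The Hauptmodul `x₄ = q⁻¹ u₄` of `X₀(4)` as a Laurent series with integer coefficients and its
relations to `j(q)`, `j(q²)`, `j(q⁴)` (P-GATEWAY, auxiliary level package).
-/
import Mathlib
import Fermat.Agent.Gateway.AuxLevel.Level4

set_option autoImplicit false

namespace Fermat.Agent.Gateway.AuxLevel

open PowerSeries ModularCurve Fermat.Agent.S28 Fermat.Agent.S28.Trunc
open Fermat.Agent.S28.H2 (DeltaS qInv qInv_mul_X jqModC_int)

/-! ### Generalities -/

/-- Remove the factor `X` from a power series without constant term. -/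
noncomputable def divX (f : PowerSeries ℤ) : PowerSeries ℤ := PowerSeries.mk fun n => coeff (n + 1) f

theorem X_mul_divX {f : PowerSeries ℤ} (h : coeff 0 f = 0) : X * divX f = f := by
  ext n
  cases n with
  | zero => rw [coeff_zero_X_mul, h]
  | succ n => rw [coeff_succ_X_mul, divX, coeff_mk]

theorem constantCoeff_divX (f : PowerSeries ℤ) : constantCoeff (divX f) = coeff 1 f := by
  rw [← coeff_zero_eq_constantCoeff_apply, divX, coeff_mk]

theorem expand_jNum_eq (d : ℕ) (hd : d ≠ 0) :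
    expand d hd jNum * expand d hd dedekindEtaUnit = expand d hd eisenstein4 ^ 3 := by
  rw [← map_mul, ← map_pow, jNum, mul_assoc, mul_comm dedekindEtaUnitInv, dedekindEtaUnit_mul_inv,
    mul_one]

namespace L4

/-! ### The unit `u₄` -/

theorem coeff_zero_f4 : coeff 0 f4 = 0 := by
  rw [approx_f4 0 (by norm_num)]; decide +kernel

theorem coeff_one_f4 : coeff 1 f4 = 1 := by
  rw [approx_f4 1 (by norm_num)]; decide +kernel

/-- `f = q f₁`. -/
noncomputable def f1 : PowerSeries ℤ := divX f4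

theorem f4_eq : f4 = X * f1 := (X_mul_divX coeff_zero_f4).symm

theorem constantCoeff_f1 : constantCoeff f1 = 1 := by
  rw [f1, constantCoeff_divX, coeff_one_f4]

/-- `f₁(q²)`. -/
noncomputable def f1' : PowerSeries ℤ := expand 2 two_ne_zero f1

theorem g4_eq' : g4 = X ^ 2 * f1' := by
  rw [g4_eq, f4_eq, map_mul, expand_X, f1']

theorem constantCoeff_f1' : constantCoeff f1' = 1 := by
  rw [f1', constantCoeff_expand, constantCoeff_f1]

/-- The inverse of `f₁(q²)`. -/
noncomputable def v4 : PowerSeries ℤ := f1'.invOfUnit 1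

theorem f1'_mul_v4 : f1' * v4 = 1 :=
  PowerSeries.mul_invOfUnit _ _ (by rw [constantCoeff_f1']; rfl)

/-- The unit part of the Hauptmodul: `x₄ = q⁻¹ u₄`, `u₄ = 1 + 8 q + 20 q² - 62 q⁴ + ⋯`. -/
noncomputable def u4 : PowerSeries ℤ := f1 * v4

theorem constantCoeff_u4 : constantCoeff u4 = 1 := by
  have h := congrArg constantCoeff f1'_mul_v4
  rw [map_mul, constantCoeff_f1', one_mul, map_one] at h
  rw [u4, map_mul, constantCoeff_f1, h, one_mul]

/-! ### The relations in power series form -/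

theorem coreA : eisenstein4 ^ 3 * (f1 * f1' * (f1 - C 16 * X * f1') ^ 4) =
    dedekindEtaUnit * (f1 * f1 + C 224 * X * (f1 * f1') + C 256 * X ^ 2 * (f1' * f1')) ^ 3 := by
  have h := GA_eq_zero
  rw [GA, sub_eq_zero, f4_eq, g4_eq', DeltaS] at h
  apply X_pow_mul_cancel (k := 7)
  linear_combination h

theorem coreB : E4_2 ^ 3 * (f1 * f1 * (f1' * f1') * (f1 - C 16 * X * f1') ^ 2) =
    expand 2 two_ne_zero dedekindEtaUnit *
      (f1 * f1 - C 16 * X * (f1 * f1') + C 256 * X ^ 2 * (f1' * f1')) ^ 3 := by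
  have h := GB_eq_zero
  rw [GB, sub_eq_zero, f4_eq, g4_eq', Delta2, DeltaS, map_mul, expand_X] at h
  apply X_pow_mul_cancel (k := 8)
  linear_combination h

theorem coreC : E4_4 ^ 3 * (f1 * (f1 - C 16 * X * f1') * f1' ^ 4) =
    expand 4 four_ne_zero dedekindEtaUnit *
      (f1 * f1 - C 16 * X * (f1 * f1') + C 16 * X ^ 2 * (f1' * f1')) ^ 3 := by
  have h := GC_eq_zero
  rw [GC, sub_eq_zero, f4_eq, g4_eq', Delta4, DeltaS, map_mul, expand_X] at h
  apply X_pow_mul_cancel (k := 10)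
  linear_combination h

theorem unit_ne_zero {w : PowerSeries ℤ} (h : constantCoeff w = 1) : w ≠ 0 := by
  intro h0
  rw [h0, map_zero] at h
  exact zero_ne_one h

theorem f1'_mul_u4 : f1' * u4 = f1 := by
  rw [u4, mul_left_comm, f1'_mul_v4, mul_one]

theorem eta_mul_jNum : dedekindEtaUnit * jNum = eisenstein4 ^ 3 := by
  have h := expand_jNum_eq 1 one_ne_zero
  simp only [expand_one_apply] at h
  rw [mul_comm, h]

theorem eta2_mul_jNum : expand 2 two_ne_zero dedekindEtaUnit * expand 2 two_ne_zero jNum =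
    E4_2 ^ 3 := by
  rw [mul_comm, expand_jNum_eq, E4_2]

theorem eta4_mul_jNum : expand 4 four_ne_zero dedekindEtaUnit * expand 4 four_ne_zero jNum =
    E4_4 ^ 3 := by
  rw [mul_comm, expand_jNum_eq, E4_4]

theorem constantCoeff_expand_eta (d : ℕ) (hd : d ≠ 0) :
    constantCoeff (expand d hd dedekindEtaUnit) = 1 := by
  rw [constantCoeff_expand, constantCoeff_dedekindEtaUnit]

/-- `j(q) x (x - 16)⁴ = (x² + 224 x + 256)³` in power series form (`x = q⁻¹ u`). -/
theorem jNum_u4 :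
    jNum * (u4 * (u4 - C 16 * X) ^ 4) = (u4 ^ 2 + C 224 * X * u4 + C 256 * X ^ 2) ^ 3 := by
  have hu := f1'_mul_u4
  have hne : dedekindEtaUnit * f1' ^ 6 ≠ 0 :=
    mul_ne_zero (unit_ne_zero constantCoeff_dedekindEtaUnit)
      (pow_ne_zero _ (unit_ne_zero constantCoeff_f1'))
  apply mul_left_cancel₀ hne
  calc dedekindEtaUnit * f1' ^ 6 * (jNum * (u4 * (u4 - C 16 * X) ^ 4))
      = (dedekindEtaUnit * jNum) * ((f1' * u4) * f1' * ((f1' * u4) - C 16 * X * f1') ^ 4) := by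
        ring
    _ = eisenstein4 ^ 3 * (f1 * f1' * (f1 - C 16 * X * f1') ^ 4) := by rw [eta_mul_jNum, hu]
    _ = dedekindEtaUnit * (f1 * f1 + C 224 * X * (f1 * f1') + C 256 * X ^ 2 * (f1' * f1')) ^ 3 :=
        coreA
    _ = dedekindEtaUnit * ((f1' * u4) * (f1' * u4) + C 224 * X * ((f1' * u4) * f1') +
          C 256 * X ^ 2 * (f1' * f1')) ^ 3 := by rw [hu]
    _ = dedekindEtaUnit * f1' ^ 6 * ((u4 ^ 2 + C 224 * X * u4 + C 256 * X ^ 2) ^ 3) := by ring

/-- `j(q²) x² (x - 16)² = (x² - 16 x + 256)³` in power series form. -/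
theorem jNum2_u4 :
    expand 2 two_ne_zero jNum * (u4 ^ 2 * (u4 - C 16 * X) ^ 2) =
      (u4 ^ 2 - C 16 * X * u4 + C 256 * X ^ 2) ^ 3 := by
  have hu := f1'_mul_u4
  have hne : expand 2 two_ne_zero dedekindEtaUnit * f1' ^ 6 ≠ 0 :=
    mul_ne_zero (unit_ne_zero (constantCoeff_expand_eta 2 two_ne_zero))
      (pow_ne_zero _ (unit_ne_zero constantCoeff_f1'))
  apply mul_left_cancel₀ hne
  calc expand 2 two_ne_zero dedekindEtaUnit * f1' ^ 6 *
        (expand 2 two_ne_zero jNum * (u4 ^ 2 * (u4 - C 16 * X) ^ 2))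
      = (expand 2 two_ne_zero dedekindEtaUnit * expand 2 two_ne_zero jNum) *
          ((f1' * u4) * (f1' * u4) * (f1' * f1') * ((f1' * u4) - C 16 * X * f1') ^ 2) := by ring
    _ = E4_2 ^ 3 * (f1 * f1 * (f1' * f1') * (f1 - C 16 * X * f1') ^ 2) := by
        rw [eta2_mul_jNum, hu]
    _ = expand 2 two_ne_zero dedekindEtaUnit *
          (f1 * f1 - C 16 * X * (f1 * f1') + C 256 * X ^ 2 * (f1' * f1')) ^ 3 := coreB
    _ = expand 2 two_ne_zero dedekindEtaUnit * ((f1' * u4) * (f1' * u4) -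
          C 16 * X * ((f1' * u4) * f1') + C 256 * X ^ 2 * (f1' * f1')) ^ 3 := by rw [hu]
    _ = expand 2 two_ne_zero dedekindEtaUnit * f1' ^ 6 *
          ((u4 ^ 2 - C 16 * X * u4 + C 256 * X ^ 2) ^ 3) := by ring

/-- `j(q⁴) x (x - 16) = (x² - 16 x + 16)³` in power series form. -/
theorem jNum4_u4 :
    expand 4 four_ne_zero jNum * (u4 * (u4 - C 16 * X)) =
      (u4 ^ 2 - C 16 * X * u4 + C 16 * X ^ 2) ^ 3 := by
  have hu := f1'_mul_u4
  have hne : expand 4 four_ne_zero dedekindEtaUnit * f1' ^ 6 ≠ 0 :=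
    mul_ne_zero (unit_ne_zero (constantCoeff_expand_eta 4 four_ne_zero))
      (pow_ne_zero _ (unit_ne_zero constantCoeff_f1'))
  apply mul_left_cancel₀ hne
  calc expand 4 four_ne_zero dedekindEtaUnit * f1' ^ 6 *
        (expand 4 four_ne_zero jNum * (u4 * (u4 - C 16 * X)))
      = (expand 4 four_ne_zero dedekindEtaUnit * expand 4 four_ne_zero jNum) *
          ((f1' * u4) * ((f1' * u4) - C 16 * X * f1') * f1' ^ 4) := by ring
    _ = E4_4 ^ 3 * (f1 * (f1 - C 16 * X * f1') * f1' ^ 4) := by rw [eta4_mul_jNum, hu]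
    _ = expand 4 four_ne_zero dedekindEtaUnit *
          (f1 * f1 - C 16 * X * (f1 * f1') + C 16 * X ^ 2 * (f1' * f1')) ^ 3 := coreC
    _ = expand 4 four_ne_zero dedekindEtaUnit * ((f1' * u4) * (f1' * u4) -
          C 16 * X * ((f1' * u4) * f1') + C 16 * X ^ 2 * (f1' * f1')) ^ 3 := by rw [hu]
    _ = expand 4 four_ne_zero dedekindEtaUnit * f1' ^ 6 *
          ((u4 ^ 2 - C 16 * X * u4 + C 16 * X ^ 2) ^ 3) := by ring

end L4

/-! ### Laurent series forms -/

/-- The embedding of integral power series into integral Laurent series. -/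
noncomputable abbrev ι : PowerSeries ℤ →+* LaurentSeries ℤ := HahnSeries.ofPowerSeries ℤ ℤ

theorem qInv_mul_sub (u : PowerSeries ℤ) (a : ℤ) :
    qInv * ι (u - C a * X) = qInv * ι u - HahnSeries.C a := by
  rw [map_sub, map_mul, mul_sub, HahnSeries.ofPowerSeries_C, mul_left_comm, qInv_mul_X, mul_one]

theorem qInv_sq_mul_quad (u : PowerSeries ℤ) (a b : ℤ) :
    qInv ^ 2 * ι (u ^ 2 + C a * X * u + C b * X ^ 2) =
      (qInv * ι u) ^ 2 + HahnSeries.C a * (qInv * ι u) + HahnSeries.C b := by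
  have hX := qInv_mul_X
  simp only [map_add, map_mul, map_pow, HahnSeries.ofPowerSeries_C]
  linear_combination (HahnSeries.C a * qInv * ι u + HahnSeries.C b * (qInv * ι X + 1)) * hX

theorem qInv_sq_mul_quad' (u : PowerSeries ℤ) (a b : ℤ) :
    qInv ^ 2 * ι (u ^ 2 - C a * X * u + C b * X ^ 2) =
      (qInv * ι u) ^ 2 - HahnSeries.C a * (qInv * ι u) + HahnSeries.C b := by
  have hX := qInv_mul_X
  simp only [map_add, map_sub, map_mul, map_pow, HahnSeries.ofPowerSeries_C]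
  linear_combination (-(HahnSeries.C a * qInv * ι u) + HahnSeries.C b * (qInv * ι X + 1)) * hX

theorem qExpand_qInv_pow (d : ℕ) [NeZero d] : qExpand ℤ d qInv = qInv ^ d := by
  rw [qInv, qExpand_single, HahnSeries.single_pow]
  simp

theorem qExpand_jqModC_int (d : ℕ) [NeZero d] :
    qExpand ℤ d (jqModC ℤ) = qInv ^ d * ι (expand d (NeZero.ne d) jNum) := by
  rw [jqModC_int, map_mul, qExpand_qInv_pow, Fermat.Agent.S28.H2.qExpand_ofPowerSeries]

namespace L4

/-- The Hauptmodul `x₄ = q⁻¹ + 8 + 20 q - 62 q³ + ⋯` of `X₀(4)`. -/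
noncomputable def x4 : LaurentSeries ℤ := qInv * ι u4

/-- `j(q) x (x - 16)⁴ = (x² + 224 x + 256)³`. -/
theorem jq_x4 : jqModC ℤ * (x4 * (x4 - HahnSeries.C 16) ^ 4) =
    (x4 ^ 2 + HahnSeries.C 224 * x4 + HahnSeries.C 256) ^ 3 := by
  have h := congrArg (fun w => qInv ^ 6 * ι w) jNum_u4
  simp only [map_mul, map_pow] at h
  rw [x4, ← qInv_mul_sub, ← qInv_sq_mul_quad, jqModC_int]
  linear_combination h

/-- `j(q²) x² (x - 16)² = (x² - 16 x + 256)³`. -/
theorem jq2_x4 : qExpand ℤ 2 (jqModC ℤ) * (x4 ^ 2 * (x4 - HahnSeries.C 16) ^ 2) =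
    (x4 ^ 2 - HahnSeries.C 16 * x4 + HahnSeries.C 256) ^ 3 := by
  have h := congrArg (fun w => qInv ^ 6 * ι w) jNum2_u4
  simp only [map_mul, map_pow] at h
  rw [x4, ← qInv_mul_sub, ← qInv_sq_mul_quad', qExpand_jqModC_int]
  linear_combination h

/-- `j(q⁴) x (x - 16) = (x² - 16 x + 16)³`. -/
theorem jq4_x4 : qExpand ℤ 4 (jqModC ℤ) * (x4 * (x4 - HahnSeries.C 16)) =
    (x4 ^ 2 - HahnSeries.C 16 * x4 + HahnSeries.C 16) ^ 3 := by
  have h := congrArg (fun w => qInv ^ 6 * ι w) jNum4_u4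
  simp only [map_mul, map_pow] at h
  rw [x4, ← qInv_mul_sub, ← qInv_sq_mul_quad', qExpand_jqModC_int]
  linear_combination h

end L4

end Fermat.Agent.Gateway.AuxLevel
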