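/-
Expansions of the Hauptmodul `x₄` of `X₀(4)` at the three cusps of the `x`-line
(`x = ∞, 0, 16`, of ramification `1, 1, 4` over the `j`-line):
`J(x₄(X)) = j(X)`, `J(256/x₄(X)) = j(X)`, `J(16 + 256/(x₄(X) - 16)) = j(X⁴)`, where
`J(x) = (x² + 224 x + 256)³ / (x (x - 16)⁴)` (P-GATEWAY, auxiliary level package).
-/
import Mathlib
import Fermat.Agent.Gateway.AuxLevel.Level4Haupt

set_option autoImplicit false

namespace Fermat.Agent.Gateway.AuxLevel

open PowerSeries ModularCurve Fermat.Agent.S28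
open Fermat.Agent.S28.H2 (qInv qInv_mul_X jqModC_int)

theorem C_ofNat_eq (n : ℕ) [n.AtLeastTwo] :
    (HahnSeries.C (OfNat.ofNat n : ℤ) : LaurentSeries ℤ) = OfNat.ofNat n :=
  map_ofNat (HahnSeries.C (Γ := ℤ) (R := ℤ)) n

theorem qInv_mul_ι_ne_zero {u : PowerSeries ℤ} (hu : constantCoeff u = 1) : qInv * ι u ≠ 0 := by
  intro h
  have h2 := congrArg (fun w => ι X * w) h
  simp only [mul_zero] at h2
  rw [← mul_assoc, mul_comm (ι X), qInv_mul_X, one_mul] at h2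
  have h3 : u = 0 := by
    apply HahnSeries.ofPowerSeries_injective (Γ := ℤ) (R := ℤ)
    rw [map_zero]; exact h2
  rw [h3, map_zero] at hu
  exact zero_ne_one hu

namespace L4

/-! ### The relations with numerals -/

theorem jq_x4' : jqModC ℤ * (x4 * (x4 - 16) ^ 4) = (x4 ^ 2 + 224 * x4 + 256) ^ 3 := by
  have h := jq_x4
  rwa [C_ofNat_eq, C_ofNat_eq, C_ofNat_eq] at h

theorem jq2_x4' : qExpand ℤ 2 (jqModC ℤ) * (x4 ^ 2 * (x4 - 16) ^ 2) =
    (x4 ^ 2 - 16 * x4 + 256) ^ 3 := by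
  have h := jq2_x4
  rwa [C_ofNat_eq, C_ofNat_eq] at h

theorem jq4_x4' : qExpand ℤ 4 (jqModC ℤ) * (x4 * (x4 - 16)) = (x4 ^ 2 - 16 * x4 + 16) ^ 3 := by
  have h := jq4_x4
  rwa [C_ofNat_eq] at h

theorem x4_ne_zero : x4 ≠ 0 := qInv_mul_ι_ne_zero constantCoeff_u4

theorem constantCoeff_u4_sub : constantCoeff (u4 - C 16 * X) = 1 := by
  rw [map_sub, constantCoeff_u4, map_mul, constantCoeff_X, mul_zero, sub_zero]

theorem x4_sub_eq : x4 - 16 = qInv * ι (u4 - C 16 * X) := by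
  rw [qInv_mul_sub, C_ofNat_eq, x4]

theorem x4_sub_ne_zero : x4 - 16 ≠ 0 := by
  rw [x4_sub_eq]; exact qInv_mul_ι_ne_zero constantCoeff_u4_sub

/-! ### The cusp `x = 0` -/

/-- The inverse of `u₄`. -/
noncomputable def u4inv : PowerSeries ℤ := u4.invOfUnit 1

theorem u4_mul_inv : u4 * u4inv = 1 :=
  PowerSeries.mul_invOfUnit _ _ (by rw [constantCoeff_u4]; rfl)

/-- The local parameter at the cusp `x = 0`: `σ₀ = 256 X / u₄(X) = 256/x₄(X)`. -/
noncomputable def sigma0 : PowerSeries ℤ := C 256 * X * u4inv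

theorem coeff_one_sigma0 : coeff 1 sigma0 = 256 := by
  have h : constantCoeff u4inv = 1 := by
    have := congrArg constantCoeff u4_mul_inv
    rwa [map_mul, constantCoeff_u4, one_mul, map_one] at this
  rw [sigma0, mul_assoc, coeff_C_mul, coeff_succ_X_mul, coeff_zero_eq_constantCoeff_apply, h,
    mul_one]

theorem constantCoeff_sigma0 : constantCoeff sigma0 = 0 := by
  rw [sigma0, map_mul, map_mul, constantCoeff_X, mul_zero, zero_mul]

theorem x4_mul_sigma0 : x4 * ι sigma0 = 256 := by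
  have h := congrArg ι u4_mul_inv
  simp only [map_mul, map_one] at h
  have hX := qInv_mul_X
  rw [x4, sigma0]
  simp only [map_mul, HahnSeries.ofPowerSeries_C]
  rw [show (HahnSeries.C (256 : ℤ) : LaurentSeries ℤ) = 256 from C_ofNat_eq 256]
  linear_combination (256 * (qInv * ι X)) * h + (256 : LaurentSeries ℤ) * hX

/-- `J(σ₀(X)) = j(X)`: the expansion of the `x`-line at the cusp `x = 0` (width one). -/
theorem jq_sigma0 : jqModC ℤ * (ι sigma0 * (ι sigma0 - 16) ^ 4) =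
    ((ι sigma0) ^ 2 + 224 * ι sigma0 + 256) ^ 3 := by
  have hx := x4_mul_sigma0
  have hne : x4 ^ 6 ≠ 0 := pow_ne_zero _ x4_ne_zero
  apply mul_left_cancel₀ hne
  calc x4 ^ 6 * (jqModC ℤ * (ι sigma0 * (ι sigma0 - 16) ^ 4))
      = jqModC ℤ * ((x4 * ι sigma0) * ((x4 * ι sigma0) - 16 * x4) ^ 4 * x4) := by ring
    _ = 256 ^ 3 * (jqModC ℤ * (x4 * (x4 - 16) ^ 4)) := by rw [hx]; ring
    _ = 256 ^ 3 * (x4 ^ 2 + 224 * x4 + 256) ^ 3 := by rw [jq_x4']
    _ = ((x4 * ι sigma0) ^ 2 + 224 * ((x4 * ι sigma0) * x4) + 256 * x4 ^ 2) ^ 3 := by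
        rw [hx]; ring
    _ = x4 ^ 6 * ((ι sigma0) ^ 2 + 224 * ι sigma0 + 256) ^ 3 := by ring

/-! ### The cusp `x = 16` -/

/-- The inverse of `u₄ - 16 X`. -/
noncomputable def t4inv : PowerSeries ℤ := (u4 - C 16 * X).invOfUnit 1

theorem t4_mul_inv : (u4 - C 16 * X) * t4inv = 1 :=
  PowerSeries.mul_invOfUnit _ _ (by rw [constantCoeff_u4_sub]; rfl)

/-- The local parameter at the cusp `x = 16`: `σ₁₆ = 256 X / (u₄(X) - 16 X) = 256/(x₄(X) - 16)`. -/
noncomputable def sigma16 : PowerSeries ℤ := C 256 * X * t4inv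

theorem coeff_one_sigma16 : coeff 1 sigma16 = 256 := by
  have h : constantCoeff t4inv = 1 := by
    have := congrArg constantCoeff t4_mul_inv
    rwa [map_mul, constantCoeff_u4_sub, one_mul, map_one] at this
  rw [sigma16, mul_assoc, coeff_C_mul, coeff_succ_X_mul, coeff_zero_eq_constantCoeff_apply, h,
    mul_one]

theorem constantCoeff_sigma16 : constantCoeff sigma16 = 0 := by
  rw [sigma16, map_mul, map_mul, constantCoeff_X, mul_zero, zero_mul]

theorem x4_sub_mul_sigma16 : (x4 - 16) * ι sigma16 = 256 := by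
  have h := congrArg ι t4_mul_inv
  simp only [map_mul, map_one] at h
  have hX := qInv_mul_X
  rw [x4_sub_eq, sigma16]
  simp only [map_mul, HahnSeries.ofPowerSeries_C]
  rw [show (HahnSeries.C (256 : ℤ) : LaurentSeries ℤ) = 256 from C_ofNat_eq 256]
  linear_combination (256 * (qInv * ι X)) * h + (256 : LaurentSeries ℤ) * hX

/-- `J(16 + σ₁₆(X)) = j(X⁴)`: the expansion of the `x`-line at the cusp `x = 16` (width four). -/
theorem jq4_sigma16 :
    qExpand ℤ 4 (jqModC ℤ) * ((16 + ι sigma16) * ((16 + ι sigma16) - 16) ^ 4) =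
      ((16 + ι sigma16) ^ 2 + 224 * (16 + ι sigma16) + 256) ^ 3 := by
  have hx := x4_sub_mul_sigma16
  have hne : (x4 - 16) ^ 6 ≠ 0 := pow_ne_zero _ x4_sub_ne_zero
  apply mul_left_cancel₀ hne
  have h4 := jq4_x4'
  calc (x4 - 16) ^ 6 * (qExpand ℤ 4 (jqModC ℤ) *
        ((16 + ι sigma16) * ((16 + ι sigma16) - 16) ^ 4))
      = qExpand ℤ 4 (jqModC ℤ) * ((16 * (x4 - 16) + (x4 - 16) * ι sigma16) *
          ((x4 - 16) * ι sigma16) ^ 4 * (x4 - 16)) := by ring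
    _ = 4096 ^ 3 * (qExpand ℤ 4 (jqModC ℤ) * (x4 * (x4 - 16))) := by rw [hx]; ring
    _ = 4096 ^ 3 * (x4 ^ 2 - 16 * x4 + 16) ^ 3 := by rw [h4]
    _ = (((x4 - 16) * ι sigma16) ^ 2 + 256 * (((x4 - 16) * ι sigma16) * (x4 - 16)) +
          4096 * (x4 - 16) ^ 2) ^ 3 := by rw [hx]; ring
    _ = (x4 - 16) ^ 6 * ((16 + ι sigma16) ^ 2 + 224 * (16 + ι sigma16) + 256) ^ 3 := by ring

end L4

end Fermat.Agent.Gateway.AuxLevel
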