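/-
Expansions of the Hauptmodul `y₉` of `X₀(9)` at the four cusps of the `y`-line
(`y = ∞, 3, 3ω, 3ω²`, of ramification `1, 9, 1, 1` over the `j`-line):
`J(y₉(X)) = j(X)`, `J(3 + 27/(y₉(X) - 3)) = j(X⁹)`, and, for every root `a` of `y² + 3 y + 9`
(over any commutative ring), `J(a + 27/(y₉(X) + 3 + a)) = j(X)`, where
`J(y) = (y + 6)³ (y³ + 234 y² + 756 y + 2160)³ / ((y - 3)⁸ (y³ - 27))`
(P-GATEWAY, auxiliary level package).
-/
import Mathlib
import Fermat.Agent.Gateway.AuxLevel.Level9Haupt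
import Fermat.Agent.Gateway.AuxLevel.Level4Cusps
import Fermat.Prelude.Def_ModularCurve_X0ModL

set_option autoImplicit false

namespace Fermat.Agent.Gateway.AuxLevel

open PowerSeries ModularCurve Fermat.Agent.S28
open Fermat.Agent.S28.H2 (qInv qInv_mul_X jqModC_int)

/-! ### Two polynomial identities: the deck transformation `y ↦ (a y + 18)/(y + 3 + a)` -/

set_option maxHeartbeats 1000000 in
theorem deck9_den {L : Type*} [CommRing L] (y a : L) (ha : a ^ 2 + 3 * a + 9 = 0) :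
    ((a * y + 18) - 3 * (y + 3 + a)) ^ 8 * ((a * y + 18) ^ 3 - 27 * (y + 3 + a) ^ 3) *
        (y + 3 + a) =
      3 ^ 18 * ((y - 3) ^ 8 * (y ^ 3 - 27)) := by
  linear_combination ((1)*y^12*a^9 + (-27)*y^12*a^8 + (324)*y^12*a^7 + (-2268)*y^12*a^6 + (10206)*y^12*a^5
      + (-30618)*y^12*a^4 + (61236)*y^12*a^3 + (-78732)*y^12*a^2 + (59049)*y^12*a + (-19683)*y^12
      + (1)*y^11*a^10 + (-48)*y^11*a^9 + (945)*y^11*a^8 + (-10611)*y^11*a^7 + (77274)*y^11*a^6
      + (-385641)*y^11*a^5 + (1318761)*y^11*a^4 + (-2768742)*y^11*a^3 + (1220346)*y^11*a^2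
      + (13561587)*y^11*a + (-42810525)*y^11 + (-24)*y^10*a^10 + (882)*y^10*a^9 + (-15390)*y^10*a^8
      + (167184)*y^10*a^7 + (-1242216)*y^10*a^6 + (6499764)*y^10*a^5 + (-23383404)*y^10*a^4
      + (49916088)*y^10*a^3 + (-8030664)*y^10*a^2 + (-341421318)*y^10*a + (1032767010)*y^10
      + (252)*y^9*a^10 + (-8964)*y^9*a^9 + (153576)*y^9*a^8 + (-1659204)*y^9*a^7 + (12369672)*y^9*a^6
      + (-65216340)*y^9*a^5 + (236432196)*y^9*a^4 + (-505931832)*y^9*a^3 + (60938568)*y^9*a^2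
      + (3602461392)*y^9*a + (-10849899456)*y^9 + (-1539)*y^8*a^10 + (58563)*y^8*a^9
      + (-1041012)*y^8*a^8 + (11370213)*y^8*a^7 + (-84203874)*y^8*a^6 + (437257845)*y^8*a^5
      + (-1560842217)*y^8*a^4 + (3323632014)*y^8*a^3 + (-672804306)*y^8*a^2 + (-21775263534)*y^8*a
      + (66186725022)*y^8 + (6318)*y^7*a^10 + (-268272)*y^7*a^9 + (5025726)*y^7*a^8
      + (-55702890)*y^7*a^7 + (408855276)*y^7*a^6 + (-2079351486)*y^7*a^5 + (7260546942)*y^7*a^4
      + (-15350141844)*y^7*a^3 + (4955155884)*y^7*a^2 + (87748349274)*y^7*a + (-271165644486)*y^7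
      + (-20412)*y^6*a^10 + (918540)*y^6*a^9 + (-17635968)*y^6*a^8 + (196751268)*y^6*a^7
      + (-1438433640)*y^6*a^6 + (7246729476)*y^6*a^5 + (-25043625684)*y^6*a^4 + (52765714008)*y^6*a^3
      + (-20088469800)*y^6*a^2 + (-280435038408)*y^6*a + (875053744488)*y^6 + (61236)*y^5*a^10
      + (-2466936)*y^5*a^9 + (45113436)*y^5*a^8 + (-496720188)*y^5*a^7 + (3660565608)*y^5*a^6
      + (-18793879524)*y^5*a^5 + (66291950340)*y^5*a^4 + (-140619288600)*y^5*a^3
      + (37536740712)*y^5*a^2 + (858351616740)*y^5*a + (-2630843400636)*y^5 + (-170586)*y^4*a^10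
      + (5294727)*y^4*a^9 + (-83081943)*y^4*a^8 + (872626122)*y^4*a^7 + (-6619629096)*y^4*a^6
      + (36254905020)*y^4*a^5 + (-136372012128)*y^4*a^4 + (295128319176)*y^4*a^3
      + (19629304776)*y^4*a^2 + (-2484269315631)*y^4*a + (7359827029533)*y^4 + (373977)*y^3*a^10
      + (-8817984)*y^3*a^9 + (106819641)*y^3*a^8 + (-1009206459)*y^3*a^7 + (8185254282)*y^3*a^6
      + (-51010364385)*y^3*a^5 + (213554782881)*y^3*a^4 + (-476182827702)*y^3*a^3
      + (-262671091542)*y^3*a^2 + (5611010942187)*y^3*a + (-16189914814821)*y^3 + (-551124)*y^2*a^10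
      + (10510722)*y^2*a^9 + (-90344970)*y^2*a^8 + (682370244)*y^2*a^7 + (-6428310336)*y^2*a^6
      + (49819405104)*y^2*a^5 + (-238651021224)*y^2*a^4 + (549620533728)*y^2*a^3
      + (582680415456)*y^2*a^2 + (-8415547862058)*y^2*a + (23907718376190)*y^2 + (472392)*y*a^10
      + (-7794468)*y*a^9 + (44641044)*y*a^8 + (-191318760)*y*a^7 + (2754990144)*y*a^6
      + (-30304891584)*y*a^5 + (167365651248)*y*a^4 + (-396718580736)*y*a^3 + (-595077871104)*y*a^2
      + (7285054875156)*y*a + (-20516239415484)*y + (-177147)*a^10 + (2657205)*a^9 + (-9565938)*a^8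
      + (-14348907)*a^7 + (-430467210)*a^6 + (8652390921)*a^5 + (-54626288949)*a^4 + (132497807238)*a^3
      + (244074908070)*a^2 + (-2747586107988)*a + (7698819957408)) * ha

set_option maxHeartbeats 1000000 in
theorem deck9_num {L : Type*} [CommRing L] (y a : L) (ha : a ^ 2 + 3 * a + 9 = 0) :
    ((a * y + 18) + 6 * (y + 3 + a)) ^ 3 * ((a * y + 18) ^ 3 +
        234 * (a * y + 18) ^ 2 * (y + 3 + a) +
        756 * (a * y + 18) * (y + 3 + a) ^ 2 + 2160 * (y + 3 + a) ^ 3) ^ 3 =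
      3 ^ 18 * ((y + 6) ^ 3 * (y ^ 3 + 234 * y ^ 2 + 756 * y + 2160) ^ 3) := by
  linear_combination ((1)*y^12*a^10 + (717)*y^12*a^9 + (177120)*y^12*a^8 + (16416675)*y^12*a^7 + (346081815)*y^12*a^6
      + (3435747840)*y^12*a^5 + (20024913393)*y^12*a^4 + (75839786541)*y^12*a^3
      + (189662238720)*y^12*a^2 + (294283072107)*y^12*a + (241821657279)*y^12 + (720)*y^11*a^10
      + (358776)*y^11*a^9 + (50998896)*y^11*a^8 + (1616338800)*y^11*a^7 + (25310448432)*y^11*a^6
      + (236686447872)*y^11*a^5 + (1414384163280)*y^11*a^4 + (5521741904016)*y^11*a^3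
      + (13970770430976)*y^11*a^2 + (21458893163760)*y^11*a + (15424160946480)*y^11
      + (179280)*y^10*a^10 + (51543864)*y^10*a^9 + (2597094576)*y^10*a^8 + (61155693360)*y^10*a^7
      + (849563944560)*y^10*a^6 + (7625989078272)*y^10*a^5 + (45749612919888)*y^10*a^4
      + (183237237332496)*y^10*a^3 + (472388432495616)*y^10*a^2 + (708797937618288)*y^10*a
      + (460573767802800)*y^10 + (16954488)*y^9*a^10 + (1721701008)*y^9*a^9 + (64093178448)*y^9*a^8
      + (1318386988008)*y^9*a^7 + (17183316159432)*y^9*a^6 + (150421680840960)*y^9*a^5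
      + (902332122092280)*y^9*a^4 + (3669176314106136)*y^9*a^3 + (9617936432246784)*y^9*a^2
      + (14294076391118376)*y^9*a + (8106971683468680)*y^9 + (396925920)*y^8*a^10
      + (29427677136)*y^8*a^9 + (964549511136)*y^8*a^8 + (18556818101856)*y^8*a^7
      + (233502811956576)*y^8*a^6 + (2014729054018560)*y^8*a^5 + (12078841497011424)*y^8*a^4
      + (49525996663948896)*y^8*a^3 + (131296379912782848)*y^8*a^2 + (194577342292117152)*y^8*a
      + (97972784559053856)*y^8 + (4621743360)*y^7*a^10 + (313299612288)*y^7*a^9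
      + (9743587625088)*y^7*a^8 + (181786652825472)*y^7*a^7 + (2249196605702784)*y^7*a^6
      + (19265023245146112)*y^7*a^5 + (115450209235922688)*y^7*a^4 + (475409029946934528)*y^7*a^3
      + (1267609667355942912)*y^7*a^2 + (1875521020888053504)*y^7*a + (885066227208260352)*y^7
      + (33446893248)*y^6*a^10 + (2251896863040)*y^6*a^9 + (69216943027392)*y^6*a^8
      + (1280329109200512)*y^6*a^7 + (15760614151828224)*y^6*a^6 + (134683243984396800)*y^6*a^5
      + (807084366054012864)*y^6*a^4 + (3328230314820219840)*y^6*a^3 + (8887588022100427776)*y^6*a^2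
      + (13137939014429639232)*y^6*a + (6104490688989129024)*y^6 + (166836257280)*y^5*a^10
      + (11394563652864)*y^5*a^9 + (353434760522496)*y^5*a^8 + (6567112453508352)*y^5*a^7
      + (81012832435922688)*y^5*a^6 + (693002357471674368)*y^5*a^5 + (4153510044503502336)*y^5*a^4
      + (17117698682211549696)*y^5*a^3 + (45667053396939202560)*y^5*a^2 + (67520665166702556672)*y^5*a
      + (31721181126852460032)*y^5 + (597405818880)*y^4*a^10 + (41473236155904)*y^4*a^9
      + (1304050299934464)*y^4*a^8 + (24461044448189184)*y^4*a^7 + (303464357333754624)*y^4*a^6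
      + (2602346168285084160)*y^4*a^5 + (15597820540188158976)*y^4*a^4 + (64187162708975138304)*y^4*a^3
      + (170947578484265720832)*y^4*a^2 + (252943140545185056768)*y^4*a + (121091381978260598784)*y^4
      + (1545827867136)*y^3*a^10 + (108429397991424)*y^3*a^9 + (3435897726319104)*y^3*a^8
      + (64886914753933824)*y^3*a^7 + (808616628207332352)*y^3*a^6 + (6947199175070891520)*y^3*a^5
      + (41635628735034235392)*y^3*a^4 + (171149434716683381760)*y^3*a^3
      + (455301377613400200192)*y^3*a^2 + (674044444947189708288)*y^3*a + (326785356815046317568)*y^3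
      + (2831631022080)*y^2*a^10 + (197042881250304)*y^2*a^9 + (6221850150168576)*y^2*a^8
      + (117111692365286400)*y^2*a^7 + (1456040502203074560)*y^2*a^6 + (12497989558179105792)*y^2*a^5
      + (74908266736816908288)*y^2*a^4 + (308079950965350276096)*y^2*a^3
      + (820034756444804253696)*y^2*a^2 + (1213807262154651998208)*y^2*a + (584438390535629629440)*y^2
      + (3374012620800)*y*a^10 + (229280483450880)*y*a^9 + (7042695178033152)*y*a^8
      + (129775992685314048)*y*a^7 + (1592402199647975424)*y*a^6 + (13589697336505509888)*y*a^5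
      + (81454211390485831680)*y*a^4 + (336179619680873306112)*y*a^3 + (898135649284454903808)*y*a^2
      + (1326732549988621860864)*y*a + (614162037472797155328)*y + (2176782336000)*a^10
      + (132566044262400)*a^9 + (3797331481681920)*a^8 + (66946172339515392)*a^7
      + (800517794700976128)*a^6 + (6752085182279479296)*a^5 + (40437512239425896448)*a^4
      + (168045111161226547200)*a^3 + (453196748647767711744)*a^2 + (667957353136730947584)*a
      + (274334592822367813632)) * ha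

/-- Homogenisation of the denominator of `J₉`. -/
theorem homog9_den {L : Type*} [CommRing L] (e B : L) :
    B ^ 12 * ((e - 3) ^ 8 * (e ^ 3 - 27)) =
      (e * B - 3 * B) ^ 8 * ((e * B) ^ 3 - 27 * B ^ 3) * B := by ring

/-- Homogenisation of the numerator of `J₉`. -/
theorem homog9_num {L : Type*} [CommRing L] (e B : L) :
    B ^ 12 * ((e + 6) ^ 3 * (e ^ 3 + 234 * e ^ 2 + 756 * e + 2160) ^ 3) =
      (e * B + 6 * B) ^ 3 * ((e * B) ^ 3 + 234 * (e * B) ^ 2 * B + 756 * (e * B) * B ^ 2 +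
        2160 * B ^ 3) ^ 3 := by ring

namespace L9

/-! ### The relations with numerals -/

theorem jq_y9' : jqModC ℤ * ((y9 - 3) ^ 8 * (y9 ^ 3 - 27)) =
    (y9 + 6) ^ 3 * (y9 ^ 3 + 234 * y9 ^ 2 + 756 * y9 + 2160) ^ 3 := by
  have h := jq_y9
  rwa [C_ofNat_eq, C_ofNat_eq, C_ofNat_eq, C_ofNat_eq, C_ofNat_eq, C_ofNat_eq] at h

theorem jq3_y9' : qExpand ℤ 3 (jqModC ℤ) * (y9 ^ 3 - 27) ^ 3 = y9 ^ 3 * (y9 ^ 3 + 216) ^ 3 := by
  have h := jq3_y9
  rwa [C_ofNat_eq, C_ofNat_eq] at h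

theorem jq9_y9' : qExpand ℤ 9 (jqModC ℤ) * (y9 ^ 3 - 27) = y9 ^ 3 * (y9 ^ 3 - 24) ^ 3 := by
  have h := jq9_y9
  rwa [C_ofNat_eq, C_ofNat_eq] at h

theorem y9_ne_zero : y9 ≠ 0 := qInv_mul_ι_ne_zero constantCoeff_u9

theorem constantCoeff_u9_sub : constantCoeff (u9 - C 3 * X) = 1 := by
  rw [map_sub, constantCoeff_u9, map_mul, constantCoeff_X, mul_zero, sub_zero]

theorem y9_sub_eq : y9 - 3 = qInv * ι (u9 - C 3 * X) := by
  rw [qInv_mul_sub, C_ofNat_eq, y9]

theorem y9_sub_ne_zero : y9 - 3 ≠ 0 := by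
  rw [y9_sub_eq]; exact qInv_mul_ι_ne_zero constantCoeff_u9_sub

/-! ### The cusp `y = 3` -/

/-- The inverse of `u₉ - 3 X`. -/
noncomputable def t9inv : PowerSeries ℤ := (u9 - C 3 * X).invOfUnit 1

theorem t9_mul_inv : (u9 - C 3 * X) * t9inv = 1 :=
  PowerSeries.mul_invOfUnit _ _ (by rw [constantCoeff_u9_sub]; rfl)

/-- The local parameter at the cusp `y = 3`: `τ₃ = 27 X / (u₉(X) - 3 X) = 27/(y₉(X) - 3)`. -/
noncomputable def tau3 : PowerSeries ℤ := C 27 * X * t9inv

theorem coeff_one_tau3 : coeff 1 tau3 = 27 := by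
  have h : constantCoeff t9inv = 1 := by
    have := congrArg constantCoeff t9_mul_inv
    rwa [map_mul, constantCoeff_u9_sub, one_mul, map_one] at this
  rw [tau3, mul_assoc, coeff_C_mul, coeff_succ_X_mul, coeff_zero_eq_constantCoeff_apply, h,
    mul_one]

theorem constantCoeff_tau3 : constantCoeff tau3 = 0 := by
  rw [tau3, map_mul, map_mul, constantCoeff_X, mul_zero, zero_mul]

theorem y9_sub_mul_tau3 : (y9 - 3) * ι tau3 = 27 := by
  have h := congrArg ι t9_mul_inv
  simp only [map_mul, map_one] at h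
  have hX := qInv_mul_X
  rw [y9_sub_eq, tau3]
  simp only [map_mul, HahnSeries.ofPowerSeries_C]
  rw [show (HahnSeries.C (27 : ℤ) : LaurentSeries ℤ) = 27 from C_ofNat_eq 27]
  linear_combination (27 * (qInv * ι X)) * h + (27 : LaurentSeries ℤ) * hX

/-- `J(3 + τ₃(X)) = j(X⁹)`: the expansion of the `y`-line at the cusp `y = 3` (width nine). -/
theorem jq9_tau3 :
    qExpand ℤ 9 (jqModC ℤ) * (((3 + ι tau3) - 3) ^ 8 * ((3 + ι tau3) ^ 3 - 27)) =
      ((3 + ι tau3) + 6) ^ 3 * ((3 + ι tau3) ^ 3 + 234 * (3 + ι tau3) ^ 2 +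
        756 * (3 + ι tau3) + 2160) ^ 3 := by
  have hx := y9_sub_mul_tau3
  have hne : (y9 - 3) ^ 12 ≠ 0 := pow_ne_zero _ y9_sub_ne_zero
  apply mul_left_cancel₀ hne
  have h9 := jq9_y9'
  calc (y9 - 3) ^ 12 * (qExpand ℤ 9 (jqModC ℤ) *
        (((3 + ι tau3) - 3) ^ 8 * ((3 + ι tau3) ^ 3 - 27)))
      = qExpand ℤ 9 (jqModC ℤ) * (((y9 - 3) * ι tau3) ^ 8 *
          ((3 * (y9 - 3) + (y9 - 3) * ι tau3) ^ 3 - 27 * (y9 - 3) ^ 3) * (y9 - 3)) := by ring
    _ = 3 ^ 30 * (qExpand ℤ 9 (jqModC ℤ) * (y9 ^ 3 - 27)) := by rw [hx]; ring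
    _ = 3 ^ 30 * (y9 ^ 3 * (y9 ^ 3 - 24) ^ 3) := by rw [h9]
    _ = (3 * (y9 - 3) + (y9 - 3) * ι tau3 + 6 * (y9 - 3)) ^ 3 *
          ((3 * (y9 - 3) + (y9 - 3) * ι tau3) ^ 3 +
            234 * (3 * (y9 - 3) + (y9 - 3) * ι tau3) ^ 2 * (y9 - 3) +
            756 * (3 * (y9 - 3) + (y9 - 3) * ι tau3) * (y9 - 3) ^ 2 +
            2160 * (y9 - 3) ^ 3) ^ 3 := by rw [hx]; ring
    _ = (y9 - 3) ^ 12 * (((3 + ι tau3) + 6) ^ 3 * ((3 + ι tau3) ^ 3 + 234 * (3 + ι tau3) ^ 2 +
        756 * (3 + ι tau3) + 2160) ^ 3) := by ring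

end L9

/-! ### Base change to an arbitrary commutative ring, and the cusps `y² + 3 y + 9 = 0` -/

section BaseChange

variable (R : Type*) [CommRing R]

/-- `q⁻¹` as a Laurent series over `R`. -/
noncomputable def qInvR : LaurentSeries R := HahnSeries.single (-1 : ℤ) (1 : R)

/-- The inclusion of power series in Laurent series over `R`. -/
noncomputable abbrev ιR : PowerSeries R →+* LaurentSeries R := HahnSeries.ofPowerSeries ℤ R

theorem qInvR_mul_X : qInvR R * ιR R X = 1 := by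
  rw [qInvR, HahnSeries.ofPowerSeries_X, HahnSeries.single_mul_single]
  simp

theorem coeffMap_qInv : coeffMap (Int.castRingHom R) qInv = qInvR R := by
  rw [qInv, coeffMap_single, map_one, qInvR]

namespace L9

/-- `u₉` over `R`. -/
noncomputable def u9R : PowerSeries R := u9.map (Int.castRingHom R)

/-- `y₉` over `R`. -/
noncomputable def y9R : LaurentSeries R := coeffMap (Int.castRingHom R) y9

theorem y9R_eq : y9R R = qInvR R * ιR R (u9R R) := by
  rw [y9R, y9, map_mul, coeffMap_qInv, coeffMap_ofPowerSeries, u9R]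

theorem constantCoeff_u9R : constantCoeff (u9R R) = 1 := by
  rw [u9R, ← coeff_zero_eq_constantCoeff_apply, coeff_map, coeff_zero_eq_constantCoeff_apply,
    constantCoeff_u9, map_one]

/-- `j · (y₉ - 3)⁸ (y₉³ - 27) = (y₉ + 6)³ (y₉³ + 234 y₉² + 756 y₉ + 2160)³` over `R`. -/
theorem jq_y9R : jqModC R * ((y9R R - 3) ^ 8 * ((y9R R) ^ 3 - 27)) =
    (y9R R + 6) ^ 3 * ((y9R R) ^ 3 + 234 * (y9R R) ^ 2 + 756 * y9R R + 2160) ^ 3 := by
  have h := congrArg (coeffMap (Int.castRingHom R)) jq_y9'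
  simpa only [map_mul, map_pow, map_sub, map_add, map_ofNat, coeffMap_jqModC, y9R] using h

variable {R}

/-- The inverse of `u₉ + (3 + a) X`. -/
noncomputable def sinv (a : R) : PowerSeries R := (u9R R + C (3 + a) * X).invOfUnit 1

theorem constantCoeff_u9R_add (a : R) : constantCoeff (u9R R + C (3 + a) * X) = 1 := by
  rw [map_add, constantCoeff_u9R, map_mul, constantCoeff_X, mul_zero, add_zero]

theorem s_mul_inv (a : R) : (u9R R + C (3 + a) * X) * sinv a = 1 :=
  PowerSeries.mul_invOfUnit _ _ (by rw [constantCoeff_u9R_add]; rfl)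

/-- The expansion at the cusp `y = a` (`a² + 3 a + 9 = 0`, i.e. `a = 3ω` or `3ω²`):
`τ_a = a + 27 X / (u₉(X) + (3 + a) X) = a + 27 / (y₉(X) + 3 + a)`. -/
noncomputable def taua (a : R) : PowerSeries R := C a + C 27 * X * sinv a

theorem constantCoeff_taua (a : R) : constantCoeff (taua a) = a := by
  rw [taua, map_add, map_mul, map_mul, constantCoeff_X, mul_zero, zero_mul, add_zero,
    constantCoeff_C]

theorem coeff_one_taua (a : R) : coeff 1 (taua a) = 27 := by
  have h : constantCoeff (sinv a) = 1 := by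
    have := congrArg constantCoeff (s_mul_inv a)
    rwa [map_mul, constantCoeff_u9R_add, one_mul, map_one] at this
  rw [taua, map_add, coeff_C, if_neg one_ne_zero, zero_add, mul_assoc, coeff_C_mul,
    coeff_succ_X_mul, coeff_zero_eq_constantCoeff_apply, h, mul_one]

theorem y9R_add_mul (a : R) :
    (y9R R + 3 + HahnSeries.C a) * ιR R (X * sinv a) = 1 := by
  have h := congrArg (ιR R) (s_mul_inv a)
  simp only [map_mul, map_one, map_add, HahnSeries.ofPowerSeries_C] at h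
  have hX := qInvR_mul_X R
  have h3 : (HahnSeries.C (3 : R) : LaurentSeries R) = 3 :=
    map_ofNat (HahnSeries.C (Γ := ℤ) (R := R)) 3
  rw [h3] at h
  rw [y9R_eq, map_mul]
  linear_combination (qInvR R * ιR R X) * h +
    (1 - (3 + HahnSeries.C a) * ιR R X * ιR R (sinv a)) * hX

/-- `J(τ_a(X)) = j(X)`: the expansion of the `y`-line at the cusps `y = a`, `a² + 3 a + 9 = 0`
(width one). -/
theorem jq_taua {a : R} (ha : a ^ 2 + 3 * a + 9 = 0) :
    jqModC R * ((ιR R (taua a) - 3) ^ 8 * ((ιR R (taua a)) ^ 3 - 27)) =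
      (ιR R (taua a) + 6) ^ 3 * ((ιR R (taua a)) ^ 3 + 234 * (ιR R (taua a)) ^ 2 +
        756 * ιR R (taua a) + 2160) ^ 3 := by
  set y := y9R R with hy
  set aL : LaurentSeries R := HahnSeries.C a with haL'
  set Bi := ιR R (X * sinv a) with hBi
  have hB : (y + 3 + aL) * Bi = 1 := y9R_add_mul a
  have haL : aL ^ 2 + 3 * aL + 9 = 0 := by
    have := congrArg (HahnSeries.C (Γ := ℤ) (R := R)) ha
    simpa only [map_add, map_mul, map_pow, map_ofNat, map_zero] using this
  have h27 : (HahnSeries.C (27 : R) : LaurentSeries R) = 27 :=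
    map_ofNat (HahnSeries.C (Γ := ℤ) (R := R)) 27
  have he : ιR R (taua a) = aL + 27 * Bi := by
    rw [taua, map_add, HahnSeries.ofPowerSeries_C, mul_assoc, map_mul,
      HahnSeries.ofPowerSeries_C, h27]
  rw [he]
  set e := aL + 27 * Bi with he'
  have heB : e * (y + 3 + aL) = aL * y + 18 := by
    rw [he']
    linear_combination (27 : LaurentSeries R) * hB + haL
  have hjq := jq_y9R R
  rw [← hy] at hjq
  have key : (y + 3 + aL) ^ 12 * (jqModC R * ((e - 3) ^ 8 * (e ^ 3 - 27))) =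
      (y + 3 + aL) ^ 12 * ((e + 6) ^ 3 * (e ^ 3 + 234 * e ^ 2 + 756 * e + 2160) ^ 3) := by
    rw [mul_left_comm, homog9_den, homog9_num, heB, deck9_den y aL haL, deck9_num y aL haL,
      ← hjq]
    ring
  have hB12 : Bi ^ 12 * (y + 3 + aL) ^ 12 = 1 := by
    rw [← mul_pow, mul_comm, hB, one_pow]
  calc jqModC R * ((e - 3) ^ 8 * (e ^ 3 - 27))
      = Bi ^ 12 * ((y + 3 + aL) ^ 12 * (jqModC R * ((e - 3) ^ 8 * (e ^ 3 - 27)))) := by
        rw [← mul_assoc (Bi ^ 12), hB12, one_mul]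
    _ = Bi ^ 12 * ((y + 3 + aL) ^ 12 *
          ((e + 6) ^ 3 * (e ^ 3 + 234 * e ^ 2 + 756 * e + 2160) ^ 3)) := by rw [key]
    _ = (e + 6) ^ 3 * (e ^ 3 + 234 * e ^ 2 + 756 * e + 2160) ^ 3 := by
        rw [← mul_assoc (Bi ^ 12), hB12, one_mul]

end L9

end BaseChange

end Fermat.Agent.Gateway.AuxLevel
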