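/-
The Hauptmoduln `x₄`, `y₉` (with coefficients in `Kbar = AlgebraicClosure ℚ`) lie in the function
fields of `X₀(4)`, `X₀(9)`, and these function fields are `Kbar(x₄)`, `Kbar(y₉)`.

The proof is a degree count: `j(q^d) ∈ Kbar(x)` for all `d ∣ N` by the explicit relations, `x` is a
root of a polynomial of degree `ψ(N)` over `Kbar(j)`, and `[F_N : Kbar(j)] = ψ(N)` by P-S24
(P-GATEWAY, auxiliary level package).
-/
import Mathlib
import Fermat.Agent.S24.Main
import Fermat.Agent.S24.EmbedTheta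
import Fermat.Agent.S24.HDeg
import Fermat.Agent.Gateway.AuxLevel.Level9Cusps

set_option autoImplicit false

open ModularCurve IntermediateField CongruenceSubgroup Polynomial
open Fermat.Agent.S24 Fermat.Agent.S24.Setup
open scoped MatrixGroups

namespace Fermat.Agent.Gateway.AuxLevel

/-- The degree of the function field of `X₀(N)` over `Kbar(j)` (from P-S24). -/
theorem finrank_FF (N : ℕ) [NeZero N] :
    FiniteDimensional Kbar⟮jF N⟯ (FF N) ∧
      Module.finrank Kbar⟮jF N⟯ (FF N) = (Gamma0 N).index := by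
  have hdeg := EmbedTheta.hdeg_of N
    (fun θ hfix hgr hper a hq => HDeg.exists_poly N θ hfix hgr hper a hq)
  have halg : ∀ g ∈ genSetF N, IsAlgebraic Kbar⟮jF N⟯ g := by
    intro g hg
    obtain ⟨p, hp0, -, hpa⟩ := hdeg g (Algebra.subset_adjoin hg)
    exact ⟨p, hp0, hpa⟩
  have hgen := GenRing.exists_div N halg
  obtain ⟨D, hD⟩ := Embed.exists_embData' N
  obtain ⟨hfd, hfr, -⟩ := Conj.finrank_and_norm D hgen hdeg
  exact ⟨hfd, hfr⟩

theorem jK_eq (d : ℕ) [NeZero d] : jK d = qExpand Kbar d (jqModC Kbar) := by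
  rw [jK, coeffEmb, coeffMap_qExpand, ← jqModC_rat, coeffMap_jqModC]

/-- The function fields are monotone in the level (for divisibility). -/
theorem FF_mono {N M : ℕ} [NeZero N] [NeZero M] (h : N ∣ M) :
    modularFunctionFieldBar N ≤ modularFunctionFieldBar M := by
  rw [← GenRing.adjoin_genSet N, adjoin_le_iff]
  rintro y ⟨d, hd0, hd, rfl⟩
  exact jK_mem M (hd.trans h)

section Criterion

variable (N : ℕ) [NeZero N]

set_option synthInstance.maxHeartbeats 400000 in
set_option maxHeartbeats 1000000 in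
/-- **Membership criterion.** If `j · Q(x) = P(x)` with `deg Q < deg P ≤ [SL₂(ℤ) : Γ₀(N)]` and all
the generators `j(q^d)`, `d ∣ N`, of the function field of `X₀(N)` lie in `K(x)`, then `x` lies
in the function field of `X₀(N)`. -/
theorem mem_FF_of_relation (x : LaurentSeries Kbar) (P Q : Kbar[X])
    (hPQ : Q.natDegree < P.natDegree) (hP : P.natDegree ≤ (Gamma0 N).index)
    (hj : jK 1 * aeval x Q = aeval x P)
    (hgens : ∀ (d : ℕ) [NeZero d], d ∣ N → jK d ∈ Kbar⟮x⟯) :
    x ∈ modularFunctionFieldBar N := by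
  obtain ⟨hfd, hfr⟩ := finrank_FF N
  set E := Kbar⟮jF N⟯ with hE
  let jE : E := ⟨jF N, mem_adjoin_simple_self Kbar (jF N)⟩
  let p : E[X] := P.map (algebraMap Kbar E) - C jE * Q.map (algebraMap Kbar E)
  have hinj : Function.Injective (algebraMap Kbar E) := (algebraMap Kbar E).injective
  have hdQ : (C jE * Q.map (algebraMap Kbar E)).natDegree < P.natDegree :=
    lt_of_le_of_lt (natDegree_C_mul_le _ _) (by rwa [natDegree_map_eq_of_injective hinj])
  have hp_deg : p.natDegree = P.natDegree := by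
    rw [natDegree_sub_eq_left_of_natDegree_lt, natDegree_map_eq_of_injective hinj]
    rwa [natDegree_map_eq_of_injective hinj]
  have hp_ne : p ≠ 0 := by
    intro h0
    rw [h0, natDegree_zero] at hp_deg
    omega
  have hp_root : aeval x p = 0 := by
    have h1 : aeval x (P.map (algebraMap Kbar E)) = aeval x P := aeval_map_algebraMap _ _ _
    have h2 : aeval x (Q.map (algebraMap Kbar E)) = aeval x Q := aeval_map_algebraMap _ _ _
    have h3 : aeval x (C jE) = jK 1 := by
      rw [aeval_C]; rfl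
    rw [map_sub, map_mul, h1, h2, h3, hj, sub_self]
  have hint : IsIntegral E x := IsAlgebraic.isIntegral ⟨p, hp_ne, hp_root⟩
  have hfin : Module.finrank E E⟮x⟯ ≤ (Gamma0 N).index := by
    rw [adjoin.finrank hint]
    exact le_trans (natDegree_le_natDegree (minpoly.degree_le_of_ne_zero E x hp_ne hp_root))
      (hp_deg ▸ hP)
  have : FiniteDimensional E E⟮x⟯ := adjoin.finiteDimensional hint
  -- the function field sits inside `K(x) ⊆ E(x)`
  have hst := IsScalarTower.of_algebraMap_eq (R := Kbar) (S := E) (A := LaurentSeries Kbar)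
    (fun _ => rfl)
  have h1 : Kbar⟮x⟯ ≤ (E⟮x⟯).restrictScalars Kbar := by
    rw [adjoin_le_iff]
    rintro y hy
    rw [Set.mem_singleton_iff] at hy
    rw [hy]
    exact mem_adjoin_simple_self E x
  have h2 : modularFunctionFieldBar N ≤ Kbar⟮x⟯ := by
    rw [← GenRing.adjoin_genSet, adjoin_le_iff]
    rintro y ⟨d, hd0, hd, rfl⟩
    exact hgens d hd
  have hsub : ∀ f : FF N, ((f : FF N) : LaurentSeries Kbar) ∈ E⟮x⟯ := fun f => h1 (h2 f.2)
  let φ : FF N →ₗ[E] LaurentSeries Kbar :=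
    (IsScalarTower.toAlgHom E (FF N) (LaurentSeries Kbar)).toLinearMap
  have hφ_inj : Function.Injective φ := fun a b hab => Subtype.ext hab
  have hR : Module.finrank E (LinearMap.range φ) = (Gamma0 N).index := by
    rw [LinearMap.finrank_range_of_inj hφ_inj, hfr]
  have hle : LinearMap.range φ ≤ (E⟮x⟯).toSubalgebra.toSubmodule := by
    rintro y ⟨f, rfl⟩
    exact hsub f
  have heq := Submodule.eq_of_le_of_finrank_le hle (by rw [hR]; exact hfin)
  have hx : x ∈ LinearMap.range φ := by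
    rw [heq]; exact mem_adjoin_simple_self E x
  obtain ⟨f, hf⟩ := hx
  rw [← hf]
  exact f.2

/-- If moreover all generators lie in `K(x)` (which is part of the hypotheses), the function field
of `X₀(N)` is `K(x)`. -/
theorem FF_eq_adjoin_of_relation (x : LaurentSeries Kbar) (P Q : Kbar[X])
    (hPQ : Q.natDegree < P.natDegree) (hP : P.natDegree ≤ (Gamma0 N).index)
    (hj : jK 1 * aeval x Q = aeval x P)
    (hgens : ∀ (d : ℕ) [NeZero d], d ∣ N → jK d ∈ Kbar⟮x⟯) :
    modularFunctionFieldBar N = Kbar⟮x⟯ := by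
  apply le_antisymm
  · rw [← GenRing.adjoin_genSet, adjoin_le_iff]
    rintro y ⟨d, hd0, hd, rfl⟩
    exact hgens d hd
  · rw [adjoin_le_iff]
    rintro y hy
    rw [Set.mem_singleton_iff] at hy
    rw [hy]
    exact mem_FF_of_relation N x P Q hPQ hP hj hgens

end Criterion

/-- A quotient `n/d` of elements of `K(x)` satisfying `g · d = n`, `d ≠ 0`, lies in `K(x)`. -/
theorem mem_adjoin_of_mul_eq {x g n d : LaurentSeries Kbar} (hn : n ∈ Kbar⟮x⟯) (hd : d ∈ Kbar⟮x⟯)
    (hd0 : d ≠ 0) (h : g * d = n) : g ∈ Kbar⟮x⟯ := by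
  have : g = n / d := by rw [eq_div_iff hd0, h]
  rw [this]
  exact div_mem hn hd

theorem intCast_injective_Kbar : Function.Injective (Int.castRingHom Kbar) :=
  Int.cast_injective

theorem coeffMap_inj {R S : Type*} [CommRing R] [CommRing S] {φ : R →+* S}
    (hφ : Function.Injective φ) : Function.Injective (coeffMap φ) := by
  intro x y h
  ext n
  apply hφ
  have := congrArg (fun z => HahnSeries.coeff z n) h
  simpa using this

theorem ofNat_mem_adjoin (x : LaurentSeries Kbar) (n : ℕ) [n.AtLeastTwo] :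
    (OfNat.ofNat n : LaurentSeries Kbar) ∈ Kbar⟮x⟯ := by
  rw [← map_ofNat (algebraMap Kbar (LaurentSeries Kbar)) n]
  exact IntermediateField.algebraMap_mem _ _

open PowerSeries in
theorem qInv_pow_mul_ι_ne_zero (k : ℕ) {u : PowerSeries ℤ} (hu : constantCoeff u = 1) :
    Fermat.Agent.S28.H2.qInv ^ k * ι u ≠ 0 := by
  intro h
  have h2 := congrArg (fun w => (ι PowerSeries.X) ^ k * w) h
  simp only [mul_zero] at h2
  rw [← mul_assoc, ← mul_pow, mul_comm (ι PowerSeries.X), Fermat.Agent.S28.H2.qInv_mul_X, one_pow,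
    one_mul] at h2
  have h3 : u = 0 := by
    apply HahnSeries.ofPowerSeries_injective (Γ := ℤ) (R := ℤ)
    rw [map_zero]; exact h2
  rw [h3, map_zero] at hu
  exact zero_ne_one hu

/-! ### Level 4 -/

namespace L4

/-- The Hauptmodul `x₄` with coefficients in `Kbar`. -/
noncomputable def x4K : LaurentSeries Kbar := coeffMap (Int.castRingHom Kbar) x4

theorem jq_x4K : jK 1 * (x4K * (x4K - 16) ^ 4) = (x4K ^ 2 + 224 * x4K + 256) ^ 3 := by
  have h := congrArg (coeffMap (Int.castRingHom Kbar)) jq_x4'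
  rw [jK_eq, qExpand_one_apply]
  simpa only [map_mul, map_pow, map_sub, map_add, map_ofNat, coeffMap_jqModC, x4K] using h

theorem jq2_x4K : jK 2 * (x4K ^ 2 * (x4K - 16) ^ 2) = (x4K ^ 2 - 16 * x4K + 256) ^ 3 := by
  have h := congrArg (coeffMap (Int.castRingHom Kbar)) jq2_x4'
  rw [jK_eq]
  simpa only [map_mul, map_pow, map_sub, map_add, map_ofNat, coeffMap_jqModC, coeffMap_qExpand,
    x4K] using h

theorem jq4_x4K : jK 4 * (x4K * (x4K - 16)) = (x4K ^ 2 - 16 * x4K + 16) ^ 3 := by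
  have h := congrArg (coeffMap (Int.castRingHom Kbar)) jq4_x4'
  rw [jK_eq]
  simpa only [map_mul, map_pow, map_sub, map_add, map_ofNat, coeffMap_jqModC, coeffMap_qExpand,
    x4K] using h

theorem x4K_ne_zero : x4K ≠ 0 := by
  intro h
  apply x4_ne_zero
  apply coeffMap_inj intCast_injective_Kbar
  rw [map_zero]; exact h

theorem x4K_sub_ne_zero : x4K - 16 ≠ 0 := by
  intro h
  apply x4_sub_ne_zero
  apply coeffMap_inj intCast_injective_Kbar
  rw [map_zero, map_sub, map_ofNat]; exact h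

theorem index_four : (Gamma0 4).index = 6 := by
  rw [Fermat.Agent.S24.Comb.index_Gamma0, dedekindPsi_four]

/-- The numerator of `j` as a function of `x₄`. -/
noncomputable def P4 : Kbar[X] := (X ^ 2 + C 224 * X + C 256) ^ 3

/-- The denominator of `j` as a function of `x₄` (the cusp polynomial). -/
noncomputable def Q4 : Kbar[X] := X * (X - C 16) ^ 4

theorem natDegree_P4 : P4.natDegree = 6 := by
  rw [P4]; compute_degree!

theorem natDegree_Q4 : Q4.natDegree = 5 := by
  rw [Q4]; compute_degree!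

theorem aeval_P4 (x : LaurentSeries Kbar) : aeval x P4 = (x ^ 2 + 224 * x + 256) ^ 3 := by
  have h1 : (algebraMap Kbar (LaurentSeries Kbar)) 224 = 224 := map_ofNat _ 224
  have h2 : (algebraMap Kbar (LaurentSeries Kbar)) 256 = 256 := map_ofNat _ 256
  simp only [P4, map_pow, map_add, map_mul, aeval_X, aeval_C, h1, h2]

theorem aeval_Q4 (x : LaurentSeries Kbar) : aeval x Q4 = x * (x - 16) ^ 4 := by
  have h1 : (algebraMap Kbar (LaurentSeries Kbar)) 16 = 16 := map_ofNat _ 16
  simp only [Q4, map_pow, map_sub, map_mul, aeval_X, aeval_C, h1]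

theorem gens_x4K (d : ℕ) [NeZero d] (hd : d ∣ 4) : jK d ∈ Kbar⟮x4K⟯ := by
  have hx : x4K ∈ Kbar⟮x4K⟯ := mem_adjoin_simple_self Kbar x4K
  have h16 := ofNat_mem_adjoin x4K 16
  have h224 := ofNat_mem_adjoin x4K 224
  have h256 := ofNat_mem_adjoin x4K 256
  have hd' : d ∈ Nat.divisors 4 := Nat.mem_divisors.mpr ⟨hd, by norm_num⟩
  have hdiv : Nat.divisors 4 = {1, 2, 4} := by decide
  rw [hdiv] at hd'
  simp only [Finset.mem_insert, Finset.mem_singleton] at hd'
  rcases hd' with rfl | rfl | rfl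
  · exact mem_adjoin_of_mul_eq
      (pow_mem (add_mem (add_mem (pow_mem hx 2) (mul_mem h224 hx)) h256) 3)
      (mul_mem hx (pow_mem (sub_mem hx h16) 4))
      (mul_ne_zero x4K_ne_zero (pow_ne_zero _ x4K_sub_ne_zero)) jq_x4K
  · exact mem_adjoin_of_mul_eq
      (pow_mem (add_mem (sub_mem (pow_mem hx 2) (mul_mem h16 hx)) h256) 3)
      (mul_mem (pow_mem hx 2) (pow_mem (sub_mem hx h16) 2))
      (mul_ne_zero (pow_ne_zero _ x4K_ne_zero) (pow_ne_zero _ x4K_sub_ne_zero)) jq2_x4K
  · exact mem_adjoin_of_mul_eq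
      (pow_mem (add_mem (sub_mem (pow_mem hx 2) (mul_mem h16 hx)) h16) 3)
      (mul_mem hx (sub_mem hx h16))
      (mul_ne_zero x4K_ne_zero x4K_sub_ne_zero) jq4_x4K

theorem rel_x4K : jK 1 * aeval x4K Q4 = aeval x4K P4 := by
  rw [aeval_P4, aeval_Q4, jq_x4K]

/-- **`x₄` lies in the function field of `X₀(4)`.** -/
theorem x4K_mem : x4K ∈ modularFunctionFieldBar 4 :=
  mem_FF_of_relation 4 x4K P4 Q4 (by rw [natDegree_P4, natDegree_Q4]; norm_num)
    (by rw [natDegree_P4, index_four]) rel_x4K (fun d _ hd => gens_x4K d hd)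

/-- **The function field of `X₀(4)` is `Kbar(x₄)`.** -/
theorem FF_four_eq : modularFunctionFieldBar 4 = Kbar⟮x4K⟯ :=
  FF_eq_adjoin_of_relation 4 x4K P4 Q4 (by rw [natDegree_P4, natDegree_Q4]; norm_num)
    (by rw [natDegree_P4, index_four]) rel_x4K (fun d _ hd => gens_x4K d hd)

theorem x4K_mem_of_dvd {M : ℕ} [NeZero M] (h : 4 ∣ M) : x4K ∈ modularFunctionFieldBar M :=
  FF_mono h x4K_mem

end L4

/-! ### Level 9 -/

namespace L9

/-- The Hauptmodul `y₉` with coefficients in `Kbar`. -/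
noncomputable def y9K : LaurentSeries Kbar := coeffMap (Int.castRingHom Kbar) y9

theorem y9K_eq : y9K = y9R Kbar := rfl

theorem jq_y9K : jK 1 * ((y9K - 3) ^ 8 * (y9K ^ 3 - 27)) =
    (y9K + 6) ^ 3 * (y9K ^ 3 + 234 * y9K ^ 2 + 756 * y9K + 2160) ^ 3 := by
  rw [jK_eq, qExpand_one_apply]
  exact jq_y9R Kbar

theorem jq3_y9K : jK 3 * (y9K ^ 3 - 27) ^ 3 = y9K ^ 3 * (y9K ^ 3 + 216) ^ 3 := by
  have h := congrArg (coeffMap (Int.castRingHom Kbar)) jq3_y9'
  rw [jK_eq]
  simpa only [map_mul, map_pow, map_sub, map_add, map_ofNat, coeffMap_jqModC, coeffMap_qExpand,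
    y9K] using h

theorem jq9_y9K : jK 9 * (y9K ^ 3 - 27) = y9K ^ 3 * (y9K ^ 3 - 24) ^ 3 := by
  have h := congrArg (coeffMap (Int.castRingHom Kbar)) jq9_y9'
  rw [jK_eq]
  simpa only [map_mul, map_pow, map_sub, map_add, map_ofNat, coeffMap_jqModC, coeffMap_qExpand,
    y9K] using h

open PowerSeries in
theorem y9_cube_sub_ne_zero : y9 ^ 3 - 27 ≠ 0 := by
  have h := qInv_cube_mul_sub u9 27
  rw [C_ofNat_eq] at h
  rw [y9, ← h]
  apply qInv_pow_mul_ι_ne_zero
  rw [map_sub, map_pow, constantCoeff_u9, one_pow, map_mul, map_pow, constantCoeff_X,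
    zero_pow (by norm_num), mul_zero, sub_zero]

theorem y9K_sub_ne_zero : y9K - 3 ≠ 0 := by
  intro h
  apply y9_sub_ne_zero
  apply coeffMap_inj intCast_injective_Kbar
  rw [map_zero, map_sub, map_ofNat]; exact h

theorem y9K_cube_sub_ne_zero : y9K ^ 3 - 27 ≠ 0 := by
  intro h
  apply y9_cube_sub_ne_zero
  apply coeffMap_inj intCast_injective_Kbar
  rw [map_zero, map_sub, map_pow, map_ofNat]; exact h

theorem index_nine : (Gamma0 9).index = 12 := by
  rw [Fermat.Agent.S24.Comb.index_Gamma0, dedekindPsi_nine]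

/-- The numerator of `j` as a function of `y₉`. -/
noncomputable def P9 : Kbar[X] := (X + C 6) ^ 3 * (X ^ 3 + C 234 * X ^ 2 + C 756 * X + C 2160) ^ 3

/-- The denominator of `j` as a function of `y₉` (the cusp polynomial). -/
noncomputable def Q9 : Kbar[X] := (X - C 3) ^ 8 * (X ^ 3 - C 27)

theorem natDegree_P9 : P9.natDegree = 12 := by
  rw [P9]; compute_degree!

theorem natDegree_Q9 : Q9.natDegree = 11 := by
  rw [Q9]; compute_degree!

theorem aeval_P9 (x : LaurentSeries Kbar) :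
    aeval x P9 = (x + 6) ^ 3 * (x ^ 3 + 234 * x ^ 2 + 756 * x + 2160) ^ 3 := by
  have h1 : (algebraMap Kbar (LaurentSeries Kbar)) 6 = 6 := map_ofNat _ 6
  have h2 : (algebraMap Kbar (LaurentSeries Kbar)) 234 = 234 := map_ofNat _ 234
  have h3 : (algebraMap Kbar (LaurentSeries Kbar)) 756 = 756 := map_ofNat _ 756
  have h4 : (algebraMap Kbar (LaurentSeries Kbar)) 2160 = 2160 := map_ofNat _ 2160
  simp only [P9, map_pow, map_add, map_mul, aeval_X, aeval_C, h1, h2, h3, h4]

theorem aeval_Q9 (x : LaurentSeries Kbar) : aeval x Q9 = (x - 3) ^ 8 * (x ^ 3 - 27) := by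
  have h1 : (algebraMap Kbar (LaurentSeries Kbar)) 3 = 3 := map_ofNat _ 3
  have h2 : (algebraMap Kbar (LaurentSeries Kbar)) 27 = 27 := map_ofNat _ 27
  simp only [Q9, map_pow, map_sub, map_mul, aeval_X, aeval_C, h1, h2]

theorem gens_y9K (d : ℕ) [NeZero d] (hd : d ∣ 9) : jK d ∈ Kbar⟮y9K⟯ := by
  have hx : y9K ∈ Kbar⟮y9K⟯ := mem_adjoin_simple_self Kbar y9K
  have h3 := ofNat_mem_adjoin y9K 3
  have h6 := ofNat_mem_adjoin y9K 6
  have h24 := ofNat_mem_adjoin y9K 24
  have h27 := ofNat_mem_adjoin y9K 27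
  have h216 := ofNat_mem_adjoin y9K 216
  have h234 := ofNat_mem_adjoin y9K 234
  have h756 := ofNat_mem_adjoin y9K 756
  have h2160 := ofNat_mem_adjoin y9K 2160
  have hd' : d ∈ Nat.divisors 9 := Nat.mem_divisors.mpr ⟨hd, by norm_num⟩
  have hdiv : Nat.divisors 9 = {1, 3, 9} := by decide
  rw [hdiv] at hd'
  simp only [Finset.mem_insert, Finset.mem_singleton] at hd'
  rcases hd' with rfl | rfl | rfl
  · exact mem_adjoin_of_mul_eq
      (mul_mem (pow_mem (add_mem hx h6) 3)
        (pow_mem (add_mem (add_mem (add_mem (pow_mem hx 3) (mul_mem h234 (pow_mem hx 2)))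
          (mul_mem h756 hx)) h2160) 3))
      (mul_mem (pow_mem (sub_mem hx h3) 8) (sub_mem (pow_mem hx 3) h27))
      (mul_ne_zero (pow_ne_zero _ y9K_sub_ne_zero) y9K_cube_sub_ne_zero) jq_y9K
  · exact mem_adjoin_of_mul_eq
      (mul_mem (pow_mem hx 3) (pow_mem (add_mem (pow_mem hx 3) h216) 3))
      (pow_mem (sub_mem (pow_mem hx 3) h27) 3)
      (pow_ne_zero _ y9K_cube_sub_ne_zero) jq3_y9K
  · exact mem_adjoin_of_mul_eq
      (mul_mem (pow_mem hx 3) (pow_mem (sub_mem (pow_mem hx 3) h24) 3))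
      (sub_mem (pow_mem hx 3) h27)
      y9K_cube_sub_ne_zero jq9_y9K

theorem rel_y9K : jK 1 * aeval y9K Q9 = aeval y9K P9 := by
  rw [aeval_P9, aeval_Q9, jq_y9K]

/-- **`y₉` lies in the function field of `X₀(9)`.** -/
theorem y9K_mem : y9K ∈ modularFunctionFieldBar 9 :=
  mem_FF_of_relation 9 y9K P9 Q9 (by rw [natDegree_P9, natDegree_Q9]; norm_num)
    (by rw [natDegree_P9, index_nine]) rel_y9K (fun d _ hd => gens_y9K d hd)

/-- **The function field of `X₀(9)` is `Kbar(y₉)`.** -/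
theorem FF_nine_eq : modularFunctionFieldBar 9 = Kbar⟮y9K⟯ :=
  FF_eq_adjoin_of_relation 9 y9K P9 Q9 (by rw [natDegree_P9, natDegree_Q9]; norm_num)
    (by rw [natDegree_P9, index_nine]) rel_y9K (fun d _ hd => gens_y9K d hd)

theorem y9K_mem_of_dvd {M : ℕ} [NeZero M] (h : 9 ∣ M) : y9K ∈ modularFunctionFieldBar M :=
  FF_mono h y9K_mem

end L9

end Fermat.Agent.Gateway.AuxLevel
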