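/-
The shifted level-9 Hauptmodul `z₉ := y₉ - 3 = q⁻¹ ∏ (1 - qⁿ)³ / (1 - q⁹ⁿ)³` (P-GATEWAY auxiliary
level package, requested by P-S34 WP3-inst for residue characteristic `2`).

`z₉` has its zero at the cusp of width `9` (`y₉ = 3`) and its pole at `∞`, and integral `q`-expansion
`q⁻¹ (1 + ⋯)`; the two remaining cusps are the roots of `z² + 9 z + 27`.  The three relations of
`Level9Cusps` rewritten in `z`:

* `j(q)  · z⁹ (z² + 9 z + 27)   = (z + 9)³ (z³ + 243 z² + 2187 z + 6561)³`,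
* `j(q³) · z³ (z² + 9 z + 27)³  = (z + 3)³ (z³ + 9 z² + 27 z + 243)³`,
* `j(q⁹) · z  (z² + 9 z + 27)   = (z + 3)³ (z³ + 9 z² + 27 z + 3)³`,

over `ℤ`, over any commutative ring, and membership of `z₉` in the modular function fields
`modularFunctionFieldBar N` (over `ℚ̄`) and `Fk k N` (`k` algebraically closed, `9 ∣ N`,
`N` invertible in `k`).
-/
import Mathlib
import Fermat.Agent.Gateway.AuxLevel.Membership
import Fermat.Agent.Gateway.AuxLevel.MembershipFk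

set_option autoImplicit false

open ModularCurve IntermediateField Polynomial
open Fermat.Agent.Gateway.GoodRed.ConjFamily (Fk jFk)

namespace Fermat.Agent.Gateway.AuxLevel

namespace L9

/-! ### Over `ℤ` -/

/-- The shifted level-9 Hauptmodul `z₉ = y₉ - 3`. -/
noncomputable def z9 : LaurentSeries ℤ := y9 - 3

theorem y9_eq_z9_add : y9 = z9 + 3 := by rw [z9, sub_add_cancel]

theorem z9_eq : z9 = Fermat.Agent.S28.H2.qInv * ι (u9 - PowerSeries.C 3 * PowerSeries.X) :=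
  y9_sub_eq

theorem z9_ne_zero : z9 ≠ 0 := y9_sub_ne_zero

theorem jq_z9 : jqModC ℤ * (z9 ^ 9 * (z9 ^ 2 + 9 * z9 + 27)) =
    (z9 + 9) ^ 3 * (z9 ^ 3 + 243 * z9 ^ 2 + 2187 * z9 + 6561) ^ 3 := by
  have h := jq_y9'
  rw [y9_eq_z9_add] at h
  linear_combination h

theorem jq3_z9 : qExpand ℤ 3 (jqModC ℤ) * (z9 ^ 3 * (z9 ^ 2 + 9 * z9 + 27) ^ 3) =
    (z9 + 3) ^ 3 * (z9 ^ 3 + 9 * z9 ^ 2 + 27 * z9 + 243) ^ 3 := by
  have h := jq3_y9'
  rw [y9_eq_z9_add] at h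
  linear_combination h

theorem jq9_z9 : qExpand ℤ 9 (jqModC ℤ) * (z9 * (z9 ^ 2 + 9 * z9 + 27)) =
    (z9 + 3) ^ 3 * (z9 ^ 3 + 9 * z9 ^ 2 + 27 * z9 + 3) ^ 3 := by
  have h := jq9_y9'
  rw [y9_eq_z9_add] at h
  linear_combination h

/-! ### Over a commutative ring -/

section BaseChange

variable (R : Type*) [CommRing R]

/-- `z₉` over `R`. -/
noncomputable def z9R : LaurentSeries R := coeffMap (Int.castRingHom R) z9

theorem z9R_eq_y9R_sub : z9R R = y9R R - 3 := by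
  rw [z9R, z9, map_sub, map_ofNat, y9R]

theorem y9R_eq_z9R_add : y9R R = z9R R + 3 := by rw [z9R_eq_y9R_sub, sub_add_cancel]

/-- The unit power series `v₉ = u₉ - 3 q` with `z₉ = q⁻¹ v₉`, over `R`. -/
noncomputable def v9R : PowerSeries R :=
  (u9 - PowerSeries.C 3 * PowerSeries.X).map (Int.castRingHom R)

theorem constantCoeff_v9R : PowerSeries.constantCoeff (v9R R) = 1 := by
  rw [v9R, ← PowerSeries.coeff_zero_eq_constantCoeff_apply, PowerSeries.coeff_map,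
    PowerSeries.coeff_zero_eq_constantCoeff_apply, constantCoeff_u9_sub, map_one]

theorem z9R_eq : z9R R = qInvR R * ιR R (v9R R) := by
  rw [z9R, z9_eq, map_mul, coeffMap_qInv, coeffMap_ofPowerSeries, v9R]

theorem z9R_ne_zero [Nontrivial R] : z9R R ≠ 0 := by
  have h := coeffMap_qInv_pow_mul_ne_zero R 1 constantCoeff_u9_sub
  rwa [pow_one, ← z9_eq] at h

theorem jq_z9R : jqModC R * (z9R R ^ 9 * (z9R R ^ 2 + 9 * z9R R + 27)) =
    (z9R R + 9) ^ 3 * (z9R R ^ 3 + 243 * z9R R ^ 2 + 2187 * z9R R + 6561) ^ 3 := by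
  have h := congrArg (coeffMap (Int.castRingHom R)) jq_z9
  simpa only [map_mul, map_pow, map_sub, map_add, map_ofNat, coeffMap_jqModC, z9R] using h

theorem jq3_z9R : qExpand R 3 (jqModC R) * (z9R R ^ 3 * (z9R R ^ 2 + 9 * z9R R + 27) ^ 3) =
    (z9R R + 3) ^ 3 * (z9R R ^ 3 + 9 * z9R R ^ 2 + 27 * z9R R + 243) ^ 3 := by
  have h := congrArg (coeffMap (Int.castRingHom R)) jq3_z9
  simpa only [map_mul, map_pow, map_sub, map_add, map_ofNat, coeffMap_jqModC,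
    coeffMap_qExpand, z9R] using h

theorem jq9_z9R : qExpand R 9 (jqModC R) * (z9R R * (z9R R ^ 2 + 9 * z9R R + 27)) =
    (z9R R + 3) ^ 3 * (z9R R ^ 3 + 9 * z9R R ^ 2 + 27 * z9R R + 3) ^ 3 := by
  have h := congrArg (coeffMap (Int.castRingHom R)) jq9_z9
  simpa only [map_mul, map_pow, map_sub, map_add, map_ofNat, coeffMap_jqModC,
    coeffMap_qExpand, z9R] using h

/-- `z² + 9 z + 27 = (y³ - 27) / (y - 3)` does not vanish. -/
theorem z9R_quad_ne_zero [Nontrivial R] : z9R R ^ 2 + 9 * z9R R + 27 ≠ 0 := by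
  -- `q² (z² + 9 z + 27) = v² + 9 q v + 27 q²`, a power series with constant term `1`
  intro h
  have h2 : ιR R (v9R R ^ 2 + PowerSeries.C 9 * PowerSeries.X * v9R R +
      PowerSeries.C 27 * PowerSeries.X ^ 2) = 0 := by
    have e : ιR R (v9R R ^ 2 + PowerSeries.C 9 * PowerSeries.X * v9R R +
        PowerSeries.C 27 * PowerSeries.X ^ 2) =
        ιR R PowerSeries.X ^ 2 * (z9R R ^ 2 + 9 * z9R R + 27) := by
      have hX := qInvR_mul_X R
      have hC9 : ιR R (PowerSeries.C 9) = 9 := by rw [map_ofNat, map_ofNat]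
      have hC27 : ιR R (PowerSeries.C 27) = 27 := by rw [map_ofNat, map_ofNat]
      rw [z9R_eq, map_add, map_add, map_mul, map_mul, map_mul, map_pow, map_pow, hC9, hC27]
      linear_combination (-(ιR R (v9R R)) ^ 2 * (1 + qInvR R * ιR R PowerSeries.X)
        - 9 * ιR R PowerSeries.X * ιR R (v9R R)) * hX
    rw [e, h, mul_zero]
  have h3 : v9R R ^ 2 + PowerSeries.C 9 * PowerSeries.X * v9R R +
      PowerSeries.C 27 * PowerSeries.X ^ 2 = 0 := by
    apply HahnSeries.ofPowerSeries_injective (Γ := ℤ) (R := R)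
    rw [map_zero]; exact h2
  have h4 := congrArg PowerSeries.constantCoeff h3
  simp only [map_add, map_mul, map_pow, constantCoeff_v9R, PowerSeries.constantCoeff_X,
    PowerSeries.constantCoeff_C, one_pow, mul_zero, zero_mul, add_zero, map_zero] at h4
  simp at h4

end BaseChange

/-! ### Membership over `ℚ̄` -/

section Kbar

open Fermat.Agent.S24 Fermat.Agent.S24.Setup

/-- `z₉` over `ℚ̄`. -/
noncomputable def z9K : LaurentSeries Kbar := coeffMap (Int.castRingHom Kbar) z9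

theorem z9K_eq : z9K = z9R Kbar := rfl

theorem z9K_eq_y9K_sub : z9K = y9K - 3 := z9R_eq_y9R_sub Kbar

theorem z9K_ne_zero : z9K ≠ 0 := z9R_ne_zero Kbar

theorem jq_z9K : jK 1 * (z9K ^ 9 * (z9K ^ 2 + 9 * z9K + 27)) =
    (z9K + 9) ^ 3 * (z9K ^ 3 + 243 * z9K ^ 2 + 2187 * z9K + 6561) ^ 3 := by
  have h := jq_y9K
  rw [show y9K = z9K + 3 by rw [z9K_eq_y9K_sub, sub_add_cancel]] at h
  linear_combination h

theorem jq3_z9K : jK 3 * (z9K ^ 3 * (z9K ^ 2 + 9 * z9K + 27) ^ 3) =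
    (z9K + 3) ^ 3 * (z9K ^ 3 + 9 * z9K ^ 2 + 27 * z9K + 243) ^ 3 := by
  have h := jq3_y9K
  rw [show y9K = z9K + 3 by rw [z9K_eq_y9K_sub, sub_add_cancel]] at h
  linear_combination h

theorem jq9_z9K : jK 9 * (z9K * (z9K ^ 2 + 9 * z9K + 27)) =
    (z9K + 3) ^ 3 * (z9K ^ 3 + 9 * z9K ^ 2 + 27 * z9K + 3) ^ 3 := by
  have h := jq9_y9K
  rw [show y9K = z9K + 3 by rw [z9K_eq_y9K_sub, sub_add_cancel]] at h
  linear_combination h

/-- **`z₉ ∈ modularFunctionFieldBar M`** for `9 ∣ M`. -/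
theorem z9K_mem_of_dvd {M : ℕ} [NeZero M] (h : 9 ∣ M) : z9K ∈ modularFunctionFieldBar M := by
  rw [z9K_eq_y9K_sub]
  exact sub_mem (y9K_mem_of_dvd h) (ofNat_mem _ 3)

theorem adjoin_z9K : Kbar⟮z9K⟯ = Kbar⟮y9K⟯ := by
  apply le_antisymm
  · rw [adjoin_simple_le_iff, z9K_eq_y9K_sub]
    exact sub_mem (mem_adjoin_simple_self Kbar y9K) (ofNat_mem _ 3)
  · rw [adjoin_simple_le_iff, show y9K = z9K + 3 by rw [z9K_eq_y9K_sub, sub_add_cancel]]
    exact add_mem (mem_adjoin_simple_self Kbar z9K) (ofNat_mem _ 3)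

/-- `modularFunctionFieldBar 9 = ℚ̄(z₉)`. -/
theorem FF_nine_eq_z : modularFunctionFieldBar 9 = Kbar⟮z9K⟯ := by
  rw [adjoin_z9K, FF_nine_eq]

end Kbar

/-! ### Membership over an algebraically closed field in which the level is invertible -/

section Fk

variable (k : Type) [Field k]

/-- `z₉` over `k` (`= z9R k`). -/
noncomputable def z9k : LaurentSeries k := coeffMap (Int.castRingHom k) z9

theorem z9k_eq : z9k k = z9R k := rfl

theorem z9k_eq_y9k_sub : z9k k = y9k k - 3 := z9R_eq_y9R_sub k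

theorem y9k_eq_z9k_add : y9k k = z9k k + 3 := by rw [z9k_eq_y9k_sub, sub_add_cancel]

theorem z9k_ne_zero : z9k k ≠ 0 := z9R_ne_zero k

theorem z9k_quad_ne_zero : z9k k ^ 2 + 9 * z9k k + 27 ≠ 0 := z9R_quad_ne_zero k

theorem jq_z9k : jqModC k * (z9k k ^ 9 * (z9k k ^ 2 + 9 * z9k k + 27)) =
    (z9k k + 9) ^ 3 * (z9k k ^ 3 + 243 * z9k k ^ 2 + 2187 * z9k k + 6561) ^ 3 := jq_z9R k

theorem jq3_z9k : qExpand k 3 (jqModC k) * (z9k k ^ 3 * (z9k k ^ 2 + 9 * z9k k + 27) ^ 3) =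
    (z9k k + 3) ^ 3 * (z9k k ^ 3 + 9 * z9k k ^ 2 + 27 * z9k k + 243) ^ 3 := jq3_z9R k

theorem jq9_z9k : qExpand k 9 (jqModC k) * (z9k k * (z9k k ^ 2 + 9 * z9k k + 27)) =
    (z9k k + 3) ^ 3 * (z9k k ^ 3 + 9 * z9k k ^ 2 + 27 * z9k k + 3) ^ 3 := jq9_z9R k

variable {k}
variable [IsAlgClosed k]

/-- **`z₉ ∈ Fk k N`** for `9 ∣ N`, `N` invertible in `k`. -/
theorem z9k_mem {N : ℕ} (h9N : 9 ∣ N) (hNk : (N : k) ≠ 0) : z9k k ∈ Fk k N := by
  rw [z9k_eq_y9k_sub]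
  exact sub_mem (y9k_mem h9N hNk) (ofNat_mem _ 3)

/-- The shifted Hauptmodul as an element of `Fk k N`. -/
noncomputable def zFk {N : ℕ} (h9N : 9 ∣ N) (hNk : (N : k) ≠ 0) : Fk k N :=
  ⟨z9k k, z9k_mem h9N hNk⟩

theorem coe_zFk {N : ℕ} (h9N : 9 ∣ N) (hNk : (N : k) ≠ 0) :
    ((zFk h9N hNk : Fk k N) : LaurentSeries k) = z9k k := rfl

theorem zFk_eq {N : ℕ} (h9N : 9 ∣ N) (hNk : (N : k) ≠ 0) :
    zFk h9N hNk = tFk h9N hNk - 3 := by
  apply Subtype.ext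
  rw [coe_zFk, z9k_eq_y9k_sub]
  rfl

end Fk

end L9

end Fermat.Agent.Gateway.AuxLevel
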