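/-
Integrality of the Hauptmoduln over `k[j]`, `k[j(q^d)]` (P-GATEWAY, auxiliary level package;
consumer: P-S34 WP3-inst, cusp analysis).  Everything is deduced from the explicit relations
`j · Q(x) = P(x)` of `Level4Cusps`, `Shifted9`: `x₄`, `x₄⁻¹`, `(x₄ - 16)⁻¹` (resp. `z₉`, `z₉⁻¹`,
`(z₉² + 9 z₉ + 27)⁻¹`) are integral over `k[j]`, `k[j(q²)]`, `k[j(q⁴)]` (resp. `k[j]`, `k[j(q³)]`,
`k[j(q⁹)]`) as soon as `2` (resp. `3`) is invertible: the Hauptmoduln and the cusp functions are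
units of the integral closure of `k[j]`.
-/
import Mathlib
import Fermat.Agent.Gateway.AuxLevel.Shifted9

set_option autoImplicit false

open Polynomial ModularCurve
open Fermat.Agent.Gateway.GoodRed.ConjFamily (Fk jFk jdFk)

namespace Fermat.Agent.Gateway.AuxLevel

/-! ### Generic lemmas -/

section Generic

variable {k E : Type*} [CommRing k] [CommRing E] [Algebra k E]

/-- From a relation `j · Q(x) = P(x)` with `P` monic, `deg Q < deg P`: a monic polynomial over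
`k[j]` with root `x` and constant coefficient `P(0) - j Q(0)`. -/
theorem exists_monic_of_rel [Nontrivial E] {j x : E} (P Q : k[X]) (hP : P.Monic)
    (hdeg : Q.natDegree < P.natDegree) (h : j * aeval x Q = aeval x P) :
    ∃ p : (Algebra.adjoin k {j})[X], p.Monic ∧ eval₂ (algebraMap (Algebra.adjoin k {j}) E) x p = 0 ∧
      algebraMap (Algebra.adjoin k {j}) E (p.coeff 0) =
        algebraMap k E (P.coeff 0) - j * algebraMap k E (Q.coeff 0) := by
  set B := Algebra.adjoin k {j} with hB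
  let jB : B := ⟨j, Algebra.subset_adjoin (Set.mem_singleton j)⟩
  let f : k →+* B := algebraMap k B
  have hPm : (P.map f).Monic := hP.map f
  have hPdeg : (P.map f).natDegree = P.natDegree := hP.natDegree_map f
  have hQdeg : (C jB * Q.map f).natDegree < (P.map f).natDegree := by
    rw [hPdeg]
    exact lt_of_le_of_lt ((natDegree_C_mul_le _ _).trans natDegree_map_le) hdeg
  have hQdeg' : (C jB * Q.map f).degree < (P.map f).degree :=
    degree_lt_degree hQdeg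
  refine ⟨P.map f - C jB * Q.map f, hPm.sub_of_left hQdeg', ?_, ?_⟩
  · have hcomp : (algebraMap B E).comp f = algebraMap k E := by
      ext a; rfl
    rw [eval₂_sub, eval₂_mul, eval₂_C, eval₂_map, eval₂_map, hcomp, ← aeval_def, ← aeval_def]
    show aeval x P - j * aeval x Q = 0
    rw [h, sub_self]
  · rw [coeff_sub, coeff_C_mul, coeff_map, coeff_map, map_sub, map_mul]
    rfl

/-- `j · Q(x) = P(x)`, `P` monic, `deg Q < deg P` ⟹ `x` is integral over `k[j]`. -/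
theorem isIntegral_adjoin_of_rel {j x : E} (P Q : k[X]) (hP : P.Monic)
    (hdeg : Q.natDegree < P.natDegree) (h : j * aeval x Q = aeval x P) :
    IsIntegral (Algebra.adjoin k {j}) x := by
  cases subsingleton_or_nontrivial E with
  | inl hs => rw [Subsingleton.elim x 0]; exact isIntegral_zero
  | inr hn =>
    obtain ⟨p, hp, hroot, -⟩ := exists_monic_of_rel P Q hP hdeg h
    exact ⟨p, hp, hroot⟩

/-- A root `x` of a monic polynomial with unit constant coefficient has an integral inverse. -/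
theorem isIntegral_inv_of_monic_root {B : Type*} [CommRing B] [Algebra B E] {x s : E}
    (hxs : x * s = 1) (p : B[X]) (hroot : eval₂ (algebraMap B E) x p = 0)
    (hu : IsUnit (p.coeff 0)) : IsIntegral B s := by
  cases subsingleton_or_nontrivial E with
  | inl hs => rw [Subsingleton.elim s 0]; exact isIntegral_zero
  | inr hn =>
    have : Nontrivial B := (algebraMap B E).domain_nontrivial
    have hc0 : p.coeff 0 ≠ 0 := hu.ne_zero
    obtain ⟨c, hc⟩ := hu.exists_left_inv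
    let _ : Invertible x := ⟨s, by rw [mul_comm]; exact hxs, hxs⟩
    have hs : s = ⅟x := rfl
    have hrev : eval₂ (algebraMap B E) s p.reverse = 0 := by
      rw [hs, eval₂_reverse_eq_zero_iff]; exact hroot
    have hlc : p.reverse.leadingCoeff = p.coeff 0 := by
      rw [reverse_leadingCoeff, trailingCoeff_eq_coeff_zero hc0]
    refine ⟨C c * p.reverse, monic_C_mul_of_mul_leadingCoeff_eq_one (by rw [hlc, hc]), ?_⟩
    rw [eval₂_mul, hrev, mul_zero]

/-- `j · Q(x) = P(x)`, `P` monic, `deg Q < deg P`, `Q(0) = 0`, `P(0)` a unit, `x s = 1` ⟹ `s` is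
integral over `k[j]`. -/
theorem isIntegral_adjoin_inv_of_rel {j x s : E} (P Q : k[X]) (hP : P.Monic)
    (hdeg : Q.natDegree < P.natDegree) (hQ0 : Q.coeff 0 = 0) (hP0 : IsUnit (P.coeff 0))
    (hxs : x * s = 1) (h : j * aeval x Q = aeval x P) :
    IsIntegral (Algebra.adjoin k {j}) s := by
  cases subsingleton_or_nontrivial E with
  | inl hs => rw [Subsingleton.elim s 0]; exact isIntegral_zero
  | inr hn =>
    obtain ⟨p, hp, hroot, hp0⟩ := exists_monic_of_rel P Q hP hdeg h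
    refine isIntegral_inv_of_monic_root hxs p hroot ?_
    rw [hQ0, map_zero, mul_zero, sub_zero] at hp0
    have h1 : p.coeff 0 = algebraMap k (Algebra.adjoin k {j}) (P.coeff 0) := by
      apply Subtype.ext
      exact hp0
    rw [h1]
    exact hP0.map _

end Generic

/-! ### The two shapes of relations -/

section Shapes

variable {k E : Type*} [CommRing k] [CommRing E] [Algebra k E]

/-- Relations of the shape `j · xᵐ (x + d)ⁿ = (x² + a x + b)³`, `m + n < 6`. -/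
theorem isIntegral_of_quadCube {j x : E} (a b d : k) (m n : ℕ) (hmn : m + n < 6)
    (h : j * (x ^ m * (x + algebraMap k E d) ^ n) =
      (x ^ 2 + algebraMap k E a * x + algebraMap k E b) ^ 3) :
    IsIntegral (Algebra.adjoin k {j}) x := by
  cases subsingleton_or_nontrivial E with
  | inl hs => rw [Subsingleton.elim x 0]; exact isIntegral_zero
  | inr hn =>
    have : Nontrivial k := (algebraMap k E).domain_nontrivial
    refine isIntegral_adjoin_of_rel (k := k) ((X ^ 2 + C a * X + C b) ^ 3) (X ^ m * (X + C d) ^ n)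
      (by monicity!) ?_ ?_
    · have h1 : ((X ^ 2 + C a * X + C b : k[X]) ^ 3).natDegree = 6 := by compute_degree!
      have h2 : ((X : k[X]) ^ m * (X + C d) ^ n).natDegree ≤ m + n := by compute_degree
      omega
    · simpa only [map_mul, map_pow, map_add, aeval_X, aeval_C] using h

/-- Relations of the shape `j · xᵐ (x + d)ⁿ = (x² + a x + b)³`, `0 < m`, `m + n < 6`, `b` a unit:
the inverse of `x` is integral over `k[j]`. -/
theorem isIntegral_inv_of_quadCube {j x s : E} (a b d : k) (m n : ℕ) (hm : 0 < m)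
    (hmn : m + n < 6) (hb : IsUnit b) (hxs : x * s = 1)
    (h : j * (x ^ m * (x + algebraMap k E d) ^ n) =
      (x ^ 2 + algebraMap k E a * x + algebraMap k E b) ^ 3) :
    IsIntegral (Algebra.adjoin k {j}) s := by
  cases subsingleton_or_nontrivial E with
  | inl hs => rw [Subsingleton.elim s 0]; exact isIntegral_zero
  | inr hn =>
    have : Nontrivial k := (algebraMap k E).domain_nontrivial
    refine isIntegral_adjoin_inv_of_rel (k := k) ((X ^ 2 + C a * X + C b) ^ 3)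
      (X ^ m * (X + C d) ^ n) (by monicity!) ?_ ?_ ?_ hxs ?_
    · have h1 : ((X ^ 2 + C a * X + C b : k[X]) ^ 3).natDegree = 6 := by compute_degree!
      have h2 : ((X : k[X]) ^ m * (X + C d) ^ n).natDegree ≤ m + n := by compute_degree
      omega
    · rw [coeff_zero_eq_eval_zero, eval_mul, eval_pow, eval_X, zero_pow hm.ne', zero_mul]
    · rw [coeff_zero_eq_eval_zero]
      simp only [eval_pow, eval_add, eval_mul, eval_X, eval_C]
      rw [zero_pow two_ne_zero, mul_zero, zero_add, zero_add]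
      exact hb.pow 3
    · simpa only [map_mul, map_pow, map_add, aeval_X, aeval_C] using h

/-- Relations of the shape `j · xᵐ (x² + 9x + 27)ⁿ = (x + a)³ (x³ + b x² + c x + d)³`,
`m + 2n < 12`. -/
theorem isIntegral_of_linCubicCube {j x : E} (a b c d : k) (m n : ℕ) (hmn : m + n * 2 < 12)
    (h : j * (x ^ m * (x ^ 2 + 9 * x + 27) ^ n) =
      (x + algebraMap k E a) ^ 3 *
        (x ^ 3 + algebraMap k E b * x ^ 2 + algebraMap k E c * x + algebraMap k E d) ^ 3) :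
    IsIntegral (Algebra.adjoin k {j}) x := by
  cases subsingleton_or_nontrivial E with
  | inl hs => rw [Subsingleton.elim x 0]; exact isIntegral_zero
  | inr hn =>
    have : Nontrivial k := (algebraMap k E).domain_nontrivial
    refine isIntegral_adjoin_of_rel (k := k)
      ((X + C a) ^ 3 * (X ^ 3 + C b * X ^ 2 + C c * X + C d) ^ 3)
      (X ^ m * (X ^ 2 + C 9 * X + C 27) ^ n) (by monicity!) ?_ ?_
    · have h1 : ((X + C a : k[X]) ^ 3 * (X ^ 3 + C b * X ^ 2 + C c * X + C d) ^ 3).natDegree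
          = 12 := by compute_degree!
      have h2 : ((X : k[X]) ^ m * (X ^ 2 + C 9 * X + C 27) ^ n).natDegree ≤ m + n * 2 := by
        compute_degree
      omega
    · have h9 : algebraMap k E 9 = 9 := map_ofNat _ 9
      have h27 : algebraMap k E 27 = 27 := map_ofNat _ 27
      simpa only [map_mul, map_pow, map_add, aeval_X, aeval_C, h9, h27] using h

/-- Relations of the shape `j · xᵐ (x² + 9x + 27)ⁿ = (x + a)³ (x³ + b x² + c x + d)³`, `0 < m`,
`m + 2n < 12`, `a`, `d` units: the inverse of `x` is integral over `k[j]`. -/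
theorem isIntegral_inv_of_linCubicCube {j x s : E} (a b c d : k) (m n : ℕ) (hm : 0 < m)
    (hmn : m + n * 2 < 12) (ha : IsUnit a) (hd : IsUnit d) (hxs : x * s = 1)
    (h : j * (x ^ m * (x ^ 2 + 9 * x + 27) ^ n) =
      (x + algebraMap k E a) ^ 3 *
        (x ^ 3 + algebraMap k E b * x ^ 2 + algebraMap k E c * x + algebraMap k E d) ^ 3) :
    IsIntegral (Algebra.adjoin k {j}) s := by
  cases subsingleton_or_nontrivial E with
  | inl hs => rw [Subsingleton.elim s 0]; exact isIntegral_zero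
  | inr hn =>
    have : Nontrivial k := (algebraMap k E).domain_nontrivial
    refine isIntegral_adjoin_inv_of_rel (k := k)
      ((X + C a) ^ 3 * (X ^ 3 + C b * X ^ 2 + C c * X + C d) ^ 3)
      (X ^ m * (X ^ 2 + C 9 * X + C 27) ^ n) (by monicity!) ?_ ?_ ?_ hxs ?_
    · have h1 : ((X + C a : k[X]) ^ 3 * (X ^ 3 + C b * X ^ 2 + C c * X + C d) ^ 3).natDegree
          = 12 := by compute_degree!
      have h2 : ((X : k[X]) ^ m * (X ^ 2 + C 9 * X + C 27) ^ n).natDegree ≤ m + n * 2 := by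
        compute_degree
      omega
    · rw [coeff_zero_eq_eval_zero, eval_mul, eval_pow, eval_X, zero_pow hm.ne', zero_mul]
    · rw [coeff_zero_eq_eval_zero]
      simp only [eval_pow, eval_add, eval_mul, eval_X, eval_C]
      rw [zero_pow two_ne_zero, zero_pow three_ne_zero, mul_zero, mul_zero, zero_add, zero_add,
        zero_add, zero_add]
      exact (ha.pow 3).mul (hd.pow 3)
    · have h9 : algebraMap k E 9 = 9 := map_ofNat _ 9
      have h27 : algebraMap k E 27 = 27 := map_ofNat _ 27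
      simpa only [map_mul, map_pow, map_add, aeval_X, aeval_C, h9, h27] using h

/-- Constants are integral over `k[j]`. -/
theorem isIntegral_adjoin_algebraMap (j : E) (c : k) :
    IsIntegral (Algebra.adjoin k {j}) (algebraMap k E c) := by
  have : algebraMap k E c =
      algebraMap (Algebra.adjoin k {j}) E (algebraMap k (Algebra.adjoin k {j}) c) := rfl
  rw [this]
  exact isIntegral_algebraMap

/-- The generator `j` is integral over `k[j]`. -/
theorem isIntegral_adjoin_self (j : E) : IsIntegral (Algebra.adjoin k {j}) j := by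
  have : j = algebraMap (Algebra.adjoin k {j}) E
      ⟨j, Algebra.subset_adjoin (Set.mem_singleton j)⟩ := rfl
  rw [this]
  exact isIntegral_algebraMap

/-- If `c` is a unit of `k` and `cⁿ r` is integral over `k[j]`, so is `r`. -/
theorem isIntegral_of_pow_mul {j r : E} {c : k} (hc : IsUnit c) (n : ℕ)
    (h : IsIntegral (Algebra.adjoin k {j}) (algebraMap k E c ^ n * r)) :
    IsIntegral (Algebra.adjoin k {j}) r := by
  obtain ⟨u, hu⟩ := hc.exists_left_inv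
  have h1 : r = algebraMap k E (u ^ n) * (algebraMap k E c ^ n * r) := by
    rw [← mul_assoc, ← map_pow, ← map_mul, ← mul_pow, hu, one_pow, map_one, one_mul]
  rw [h1]
  exact (isIntegral_adjoin_algebraMap j _).mul h

end Shapes

/-! ### Level 4: abstract statements -/

namespace L4

section Abstract

variable {k E : Type*} [CommRing k] [CommRing E] [Algebra k E] {j x : E}

theorem isUnit_256 (h2 : IsUnit (2 : k)) : IsUnit (256 : k) := by
  have := h2.pow 8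
  norm_num at this
  exact this

theorem isUnit_16 (h2 : IsUnit (2 : k)) : IsUnit (16 : k) := by
  have := h2.pow 4
  norm_num at this
  exact this

theorem isUnit_4096 (h2 : IsUnit (2 : k)) : IsUnit (4096 : k) := by
  have := h2.pow 12
  norm_num at this
  exact this

/-- `x` is integral over `k[j]`. -/
theorem isIntegral_of_jq (h : j * (x * (x - 16) ^ 4) = (x ^ 2 + 224 * x + 256) ^ 3) :
    IsIntegral (Algebra.adjoin k {j}) x := by
  refine isIntegral_of_quadCube (k := k) 224 256 (-16) 1 4 (by norm_num) ?_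
  rw [map_neg, map_ofNat, map_ofNat, map_ofNat, pow_one, ← sub_eq_add_neg]
  exact h

/-- `x⁻¹` is integral over `k[j]` (`2` invertible). -/
theorem isIntegral_inv_of_jq (h2 : IsUnit (2 : k)) {s : E} (hxs : x * s = 1)
    (h : j * (x * (x - 16) ^ 4) = (x ^ 2 + 224 * x + 256) ^ 3) :
    IsIntegral (Algebra.adjoin k {j}) s := by
  refine isIntegral_inv_of_quadCube (k := k) 224 256 (-16) 1 4 (by norm_num) (by norm_num)
    (isUnit_256 h2) hxs ?_
  rw [map_neg, map_ofNat, map_ofNat, map_ofNat, pow_one, ← sub_eq_add_neg]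
  exact h

/-- `x - 16` is integral over `k[j]`. -/
theorem isIntegral_sub_of_jq (h : j * (x * (x - 16) ^ 4) = (x ^ 2 + 224 * x + 256) ^ 3) :
    IsIntegral (Algebra.adjoin k {j}) (x - 16) := by
  refine isIntegral_of_quadCube (k := k) 256 4096 16 4 1 (by norm_num) ?_
  rw [map_ofNat, map_ofNat, map_ofNat]
  linear_combination h

/-- `(x - 16)⁻¹` is integral over `k[j]` (`2` invertible). -/
theorem isIntegral_sub_inv_of_jq (h2 : IsUnit (2 : k)) {r : E} (hxr : (x - 16) * r = 1)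
    (h : j * (x * (x - 16) ^ 4) = (x ^ 2 + 224 * x + 256) ^ 3) :
    IsIntegral (Algebra.adjoin k {j}) r := by
  refine isIntegral_inv_of_quadCube (k := k) 256 4096 16 4 1 (by norm_num) (by norm_num)
    (isUnit_4096 h2) hxr ?_
  rw [map_ofNat, map_ofNat, map_ofNat]
  linear_combination h

/-- `x` is integral over `k[j(q²)]`. -/
theorem isIntegral_of_jq2 (h : j * (x ^ 2 * (x - 16) ^ 2) = (x ^ 2 - 16 * x + 256) ^ 3) :
    IsIntegral (Algebra.adjoin k {j}) x := by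
  refine isIntegral_of_quadCube (k := k) (-16) 256 (-16) 2 2 (by norm_num) ?_
  rw [map_neg, map_ofNat, map_ofNat]
  linear_combination h

/-- `x⁻¹` is integral over `k[j(q²)]` (`2` invertible). -/
theorem isIntegral_inv_of_jq2 (h2 : IsUnit (2 : k)) {s : E} (hxs : x * s = 1)
    (h : j * (x ^ 2 * (x - 16) ^ 2) = (x ^ 2 - 16 * x + 256) ^ 3) :
    IsIntegral (Algebra.adjoin k {j}) s := by
  refine isIntegral_inv_of_quadCube (k := k) (-16) 256 (-16) 2 2 (by norm_num) (by norm_num)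
    (isUnit_256 h2) hxs ?_
  rw [map_neg, map_ofNat, map_ofNat]
  linear_combination h

/-- `(x - 16)⁻¹` is integral over `k[j(q²)]` (`2` invertible). -/
theorem isIntegral_sub_inv_of_jq2 (h2 : IsUnit (2 : k)) {r : E} (hxr : (x - 16) * r = 1)
    (h : j * (x ^ 2 * (x - 16) ^ 2) = (x ^ 2 - 16 * x + 256) ^ 3) :
    IsIntegral (Algebra.adjoin k {j}) r := by
  refine isIntegral_inv_of_quadCube (k := k) 16 256 16 2 2 (by norm_num) (by norm_num)
    (isUnit_256 h2) hxr ?_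
  rw [map_ofNat, map_ofNat]
  linear_combination h

/-- `x` is integral over `k[j(q⁴)]`. -/
theorem isIntegral_of_jq4 (h : j * (x * (x - 16)) = (x ^ 2 - 16 * x + 16) ^ 3) :
    IsIntegral (Algebra.adjoin k {j}) x := by
  refine isIntegral_of_quadCube (k := k) (-16) 16 (-16) 1 1 (by norm_num) ?_
  rw [map_neg, map_ofNat]
  linear_combination h

/-- `x⁻¹` is integral over `k[j(q⁴)]` (`2` invertible). -/
theorem isIntegral_inv_of_jq4 (h2 : IsUnit (2 : k)) {s : E} (hxs : x * s = 1)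
    (h : j * (x * (x - 16)) = (x ^ 2 - 16 * x + 16) ^ 3) :
    IsIntegral (Algebra.adjoin k {j}) s := by
  refine isIntegral_inv_of_quadCube (k := k) (-16) 16 (-16) 1 1 (by norm_num) (by norm_num)
    (isUnit_16 h2) hxs ?_
  rw [map_neg, map_ofNat]
  linear_combination h

/-- `(x - 16)⁻¹` is integral over `k[j(q⁴)]` (`2` invertible). -/
theorem isIntegral_sub_inv_of_jq4 (h2 : IsUnit (2 : k)) {r : E} (hxr : (x - 16) * r = 1)
    (h : j * (x * (x - 16)) = (x ^ 2 - 16 * x + 16) ^ 3) :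
    IsIntegral (Algebra.adjoin k {j}) r := by
  refine isIntegral_inv_of_quadCube (k := k) 16 16 16 1 1 (by norm_num) (by norm_num)
    (isUnit_16 h2) hxr ?_
  rw [map_ofNat]
  linear_combination h

end Abstract

end L4

/-! ### Level 9: abstract statements -/

namespace L9

section Abstract

variable {k E : Type*} [CommRing k] [CommRing E] [Algebra k E] {j z : E}

theorem isUnit_9 (h3 : IsUnit (3 : k)) : IsUnit (9 : k) := by
  have := h3.pow 2
  norm_num at this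
  exact this

theorem isUnit_243 (h3 : IsUnit (3 : k)) : IsUnit (243 : k) := by
  have := h3.pow 5
  norm_num at this
  exact this

theorem isUnit_6561 (h3 : IsUnit (3 : k)) : IsUnit (6561 : k) := by
  have := h3.pow 8
  norm_num at this
  exact this

/-- `z` is integral over `k[j]`. -/
theorem isIntegral_of_jq
    (h : j * (z ^ 9 * (z ^ 2 + 9 * z + 27)) =
      (z + 9) ^ 3 * (z ^ 3 + 243 * z ^ 2 + 2187 * z + 6561) ^ 3) :
    IsIntegral (Algebra.adjoin k {j}) z := by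
  refine isIntegral_of_linCubicCube (k := k) 9 243 2187 6561 9 1 (by norm_num) ?_
  rw [map_ofNat, map_ofNat, map_ofNat, map_ofNat, pow_one]
  exact h

/-- `z⁻¹` is integral over `k[j]` (`3` invertible). -/
theorem isIntegral_inv_of_jq (h3 : IsUnit (3 : k)) {s : E} (hzs : z * s = 1)
    (h : j * (z ^ 9 * (z ^ 2 + 9 * z + 27)) =
      (z + 9) ^ 3 * (z ^ 3 + 243 * z ^ 2 + 2187 * z + 6561) ^ 3) :
    IsIntegral (Algebra.adjoin k {j}) s := by
  refine isIntegral_inv_of_linCubicCube (k := k) 9 243 2187 6561 9 1 (by norm_num) (by norm_num)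
    (isUnit_9 h3) (isUnit_6561 h3) hzs ?_
  rw [map_ofNat, map_ofNat, map_ofNat, map_ofNat, pow_one]
  exact h

/-- `z` is integral over `k[j(q³)]`. -/
theorem isIntegral_of_jq3
    (h : j * (z ^ 3 * (z ^ 2 + 9 * z + 27) ^ 3) =
      (z + 3) ^ 3 * (z ^ 3 + 9 * z ^ 2 + 27 * z + 243) ^ 3) :
    IsIntegral (Algebra.adjoin k {j}) z := by
  refine isIntegral_of_linCubicCube (k := k) 3 9 27 243 3 3 (by norm_num) ?_
  rw [map_ofNat, map_ofNat, map_ofNat, map_ofNat]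
  exact h

/-- `z⁻¹` is integral over `k[j(q³)]` (`3` invertible). -/
theorem isIntegral_inv_of_jq3 (h3 : IsUnit (3 : k)) {s : E} (hzs : z * s = 1)
    (h : j * (z ^ 3 * (z ^ 2 + 9 * z + 27) ^ 3) =
      (z + 3) ^ 3 * (z ^ 3 + 9 * z ^ 2 + 27 * z + 243) ^ 3) :
    IsIntegral (Algebra.adjoin k {j}) s := by
  refine isIntegral_inv_of_linCubicCube (k := k) 3 9 27 243 3 3 (by norm_num) (by norm_num)
    h3 (isUnit_243 h3) hzs ?_
  rw [map_ofNat, map_ofNat, map_ofNat, map_ofNat]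
  exact h

/-- `z` is integral over `k[j(q⁹)]`. -/
theorem isIntegral_of_jq9
    (h : j * (z * (z ^ 2 + 9 * z + 27)) = (z + 3) ^ 3 * (z ^ 3 + 9 * z ^ 2 + 27 * z + 3) ^ 3) :
    IsIntegral (Algebra.adjoin k {j}) z := by
  refine isIntegral_of_linCubicCube (k := k) 3 9 27 3 1 1 (by norm_num) ?_
  rw [map_ofNat, map_ofNat, map_ofNat, pow_one, pow_one]
  exact h

/-- `z⁻¹` is integral over `k[j(q⁹)]` (`3` invertible). -/
theorem isIntegral_inv_of_jq9 (h3 : IsUnit (3 : k)) {s : E} (hzs : z * s = 1)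
    (h : j * (z * (z ^ 2 + 9 * z + 27)) = (z + 3) ^ 3 * (z ^ 3 + 9 * z ^ 2 + 27 * z + 3) ^ 3) :
    IsIntegral (Algebra.adjoin k {j}) s := by
  refine isIntegral_inv_of_linCubicCube (k := k) 3 9 27 3 1 1 (by norm_num) (by norm_num)
    h3 h3 hzs ?_
  rw [map_ofNat, map_ofNat, map_ofNat, pow_one, pow_one]
  exact h

/-- The algebraic identity behind `isIntegral_quad_inv_of_jq`. -/
theorem quad_inv_key1 {z j r w k1 h2 k2 : E} (hwr : w * r = 1)
    (h : j * (z ^ 9 * w) = (z + 9) ^ 3 * (z ^ 3 + 243 * z ^ 2 + 2187 * z + 6561) ^ 3)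
    (hw : w = z ^ 2 + 9 * z + 27) (hk1 : k1 = 3 * 27 ^ 2 - 3 * 27 * w + w ^ 2)
    (hh2 : h2 = 2 * z ^ 2 + 477 * z + 2214)
    (hk2 : k2 = h2 * (3 * 729 ^ 2 - 3 * 729 * (w * h2) + (w * h2) ^ 2)) :
    (3 : E) ^ 27 * r =
      (27 ^ 3 * k2 + 729 ^ 3 * k1 - w * k1 * k2) - (-z) ^ 3 * (2 * z + 9) ^ 3 * j * z ^ 9 := by
  subst hk2 hh2 hk1 hw
  linear_combination
    ((27 ^ 3 * (((2 * z ^ 2 + 477 * z + 2214)) * (3 * 729 ^ 2 - 3 * 729 * ((z ^ 2 + 9 * z + 27) *
      ((2 * z ^ 2 + 477 * z + 2214))) + ((z ^ 2 + 9 * z + 27) *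
      ((2 * z ^ 2 + 477 * z + 2214))) ^ 2)) + 729 ^ 3 * (3 * 27 ^ 2 - 3 * 27 *
      (z ^ 2 + 9 * z + 27) + (z ^ 2 + 9 * z + 27) ^ 2) - (z ^ 2 + 9 * z + 27) *
      (3 * 27 ^ 2 - 3 * 27 * (z ^ 2 + 9 * z + 27) + (z ^ 2 + 9 * z + 27) ^ 2) *
      (((2 * z ^ 2 + 477 * z + 2214)) * (3 * 729 ^ 2 - 3 * 729 * ((z ^ 2 + 9 * z + 27) *
      ((2 * z ^ 2 + 477 * z + 2214))) + ((z ^ 2 + 9 * z + 27) *
      ((2 * z ^ 2 + 477 * z + 2214))) ^ 2))) - (-z) ^ 3 * (2 * z + 9) ^ 3 * j * z ^ 9) * hwr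
      + ((-z) ^ 3 * (2 * z + 9) ^ 3 * r) * h

/-- Membership part of `isIntegral_quad_inv_of_jq`. -/
theorem quad_inv_mem1 {B : Type*} [CommRing B] [Algebra B E] (C : Subalgebra B E)
    {z j w k1 h2 k2 : E} (hz : z ∈ C) (hj : j ∈ C)
    (hw : w = z ^ 2 + 9 * z + 27) (hk1 : k1 = 3 * 27 ^ 2 - 3 * 27 * w + w ^ 2)
    (hh2 : h2 = 2 * z ^ 2 + 477 * z + 2214)
    (hk2 : k2 = h2 * (3 * 729 ^ 2 - 3 * 729 * (w * h2) + (w * h2) ^ 2)) :
    (27 ^ 3 * k2 + 729 ^ 3 * k1 - w * k1 * k2) - (-z) ^ 3 * (2 * z + 9) ^ 3 * j * z ^ 9 ∈ C := by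
  have h2' : (2 : E) ∈ C := ofNat_mem _ 2
  have h3' : (3 : E) ∈ C := ofNat_mem _ 3
  have h9' : (9 : E) ∈ C := ofNat_mem _ 9
  have h27' : (27 : E) ∈ C := ofNat_mem _ 27
  have h477' : (477 : E) ∈ C := ofNat_mem _ 477
  have h729' : (729 : E) ∈ C := ofNat_mem _ 729
  have h2214' : (2214 : E) ∈ C := ofNat_mem _ 2214
  have hwC : w ∈ C := by rw [hw]; aesop
  have hk1C : k1 ∈ C := by rw [hk1]; aesop
  have hh2C : h2 ∈ C := by rw [hh2]; aesop
  have hk2C : k2 ∈ C := by rw [hk2]; aesop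
  aesop

/-- `(z² + 9z + 27)⁻¹` is integral over `k[j]` (`3` invertible). -/
theorem isIntegral_quad_inv_of_jq (h3 : IsUnit (3 : k)) {r : E}
    (hwr : (z ^ 2 + 9 * z + 27) * r = 1)
    (h : j * (z ^ 9 * (z ^ 2 + 9 * z + 27)) =
      (z + 9) ^ 3 * (z ^ 3 + 243 * z ^ 2 + 2187 * z + 6561) ^ 3) :
    IsIntegral (Algebra.adjoin k {j}) r := by
  have hz : z ∈ integralClosure (Algebra.adjoin k {j}) E := isIntegral_of_jq h
  have hj : j ∈ integralClosure (Algebra.adjoin k {j}) E := isIntegral_adjoin_self j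
  have h327 : IsIntegral (Algebra.adjoin k {j}) ((3 : E) ^ 27 * r) := by
    rw [quad_inv_key1 hwr h rfl rfl rfl rfl]
    exact quad_inv_mem1 _ hz hj rfl rfl rfl rfl
  refine isIntegral_of_pow_mul h3 27 ?_
  rw [map_ofNat]
  exact h327

/-- The algebraic identity behind `isIntegral_quad_inv_of_jq3`. -/
theorem quad_inv_key3 {z j r w k1 k2 : E} (hwr : w * r = 1)
    (h : j * (z ^ 3 * w ^ 3) = (z + 3) ^ 3 * (z ^ 3 + 9 * z ^ 2 + 27 * z + 243) ^ 3)
    (hw : w = z ^ 2 + 9 * z + 27) (hk1 : k1 = 3 * 81 - 27 * w + w ^ 2)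
    (hk2 : k2 = z * (3 * 243 ^ 2 + 3 * 243 * (z * w) + (z * w) ^ 2)) :
    (3 : E) ^ 21 * r =
      (-(z + 6)) ^ 3 * j * z ^ 3 * w ^ 2 - (729 * k2 - 243 ^ 3 * k1 - w * k1 * k2) := by
  subst hk2 hk1 hw
  linear_combination
    (((-(z + 6)) ^ 3) * j * z ^ 3 * (z ^ 2 + 9 * z + 27) ^ 2 - (729 * (z * (3 * 243 ^ 2 + 3 *
    243 * (z * (z ^ 2 + 9 * z + 27)) + (z * (z ^ 2 + 9 * z + 27)) ^ 2)) - 243 ^ 3 * (3 * 81 -
    27 * (z ^ 2 + 9 * z + 27) + (z ^ 2 + 9 * z + 27) ^ 2) - (z ^ 2 + 9 * z + 27) * (3 * 81 - 27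
    * (z ^ 2 + 9 * z + 27) + (z ^ 2 + 9 * z + 27) ^ 2) * (z * (3 * 243 ^ 2 + 3 * 243 * (z * (z
    ^ 2 + 9 * z + 27)) + (z * (z ^ 2 + 9 * z + 27)) ^ 2)))) * hwr - (((-(z + 6)) ^ 3) * r) * h

/-- Membership part of `isIntegral_quad_inv_of_jq3`. -/
theorem quad_inv_mem3 {B : Type*} [CommRing B] [Algebra B E] (C : Subalgebra B E)
    {z j w k1 k2 : E} (hz : z ∈ C) (hj : j ∈ C)
    (hw : w = z ^ 2 + 9 * z + 27) (hk1 : k1 = 3 * 81 - 27 * w + w ^ 2)
    (hk2 : k2 = z * (3 * 243 ^ 2 + 3 * 243 * (z * w) + (z * w) ^ 2)) :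
    (-(z + 6)) ^ 3 * j * z ^ 3 * w ^ 2 - (729 * k2 - 243 ^ 3 * k1 - w * k1 * k2) ∈ C := by
  have h3' : (3 : E) ∈ C := ofNat_mem _ 3
  have h6' : (6 : E) ∈ C := ofNat_mem _ 6
  have h9' : (9 : E) ∈ C := ofNat_mem _ 9
  have h27' : (27 : E) ∈ C := ofNat_mem _ 27
  have h81' : (81 : E) ∈ C := ofNat_mem _ 81
  have h243' : (243 : E) ∈ C := ofNat_mem _ 243
  have h729' : (729 : E) ∈ C := ofNat_mem _ 729
  have hwC : w ∈ C := by rw [hw]; aesop
  have hk1C : k1 ∈ C := by rw [hk1]; aesop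
  have hk2C : k2 ∈ C := by rw [hk2]; aesop
  aesop

/-- `(z² + 9z + 27)⁻¹` is integral over `k[j(q³)]` (`3` invertible). -/
theorem isIntegral_quad_inv_of_jq3 (h3 : IsUnit (3 : k)) {r : E}
    (hwr : (z ^ 2 + 9 * z + 27) * r = 1)
    (h : j * (z ^ 3 * (z ^ 2 + 9 * z + 27) ^ 3) =
      (z + 3) ^ 3 * (z ^ 3 + 9 * z ^ 2 + 27 * z + 243) ^ 3) :
    IsIntegral (Algebra.adjoin k {j}) r := by
  have hz : z ∈ integralClosure (Algebra.adjoin k {j}) E := isIntegral_of_jq3 h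
  have hj : j ∈ integralClosure (Algebra.adjoin k {j}) E := isIntegral_adjoin_self j
  have h321 : IsIntegral (Algebra.adjoin k {j}) ((3 : E) ^ 21 * r) := by
    rw [quad_inv_key3 hwr h rfl rfl rfl]
    exact quad_inv_mem3 _ hz hj rfl rfl rfl
  refine isIntegral_of_pow_mul h3 21 ?_
  rw [map_ofNat]
  exact h321

/-- The algebraic identity behind `isIntegral_quad_inv_of_jq9`. -/
theorem quad_inv_key9 {z j r w k1 k2 : E} (hwr : w * r = 1)
    (h : j * (z * w) = (z + 3) ^ 3 * (z ^ 3 + 9 * z ^ 2 + 27 * z + 3) ^ 3)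
    (hw : w = z ^ 2 + 9 * z + 27) (hk1 : k1 = 3 * 81 - 27 * w + w ^ 2)
    (hk2 : k2 = z * (27 + 9 * (z * w) + (z * w) ^ 2)) :
    (3 : E) ^ 9 * r = (-(z + 6)) ^ 3 * j * z - (729 * k2 - 27 * k1 - w * k1 * k2) := by
  subst hk2 hk1 hw
  linear_combination
    (((-(z + 6)) ^ 3) * j * z - (729 * (z * (27 + 9 * (z * (z ^ 2 + 9 * z + 27)) + (z * (z ^ 2
    + 9 * z + 27)) ^ 2)) - 27 * (3 * 81 - 27 * (z ^ 2 + 9 * z + 27) + (z ^ 2 + 9 * z + 27) ^ 2)
    - (z ^ 2 + 9 * z + 27) * (3 * 81 - 27 * (z ^ 2 + 9 * z + 27) + (z ^ 2 + 9 * z + 27) ^ 2) *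
    (z * (27 + 9 * (z * (z ^ 2 + 9 * z + 27)) + (z * (z ^ 2 + 9 * z + 27)) ^ 2)))) * hwr -
    (((-(z + 6)) ^ 3) * r) * h

/-- Membership part of `isIntegral_quad_inv_of_jq9`. -/
theorem quad_inv_mem9 {B : Type*} [CommRing B] [Algebra B E] (C : Subalgebra B E)
    {z j w k1 k2 : E} (hz : z ∈ C) (hj : j ∈ C)
    (hw : w = z ^ 2 + 9 * z + 27) (hk1 : k1 = 3 * 81 - 27 * w + w ^ 2)
    (hk2 : k2 = z * (27 + 9 * (z * w) + (z * w) ^ 2)) :
    (-(z + 6)) ^ 3 * j * z - (729 * k2 - 27 * k1 - w * k1 * k2) ∈ C := by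
  have h3' : (3 : E) ∈ C := ofNat_mem _ 3
  have h6' : (6 : E) ∈ C := ofNat_mem _ 6
  have h9' : (9 : E) ∈ C := ofNat_mem _ 9
  have h27' : (27 : E) ∈ C := ofNat_mem _ 27
  have h81' : (81 : E) ∈ C := ofNat_mem _ 81
  have h729' : (729 : E) ∈ C := ofNat_mem _ 729
  have hwC : w ∈ C := by rw [hw]; aesop
  have hk1C : k1 ∈ C := by rw [hk1]; aesop
  have hk2C : k2 ∈ C := by rw [hk2]; aesop
  aesop

/-- `(z² + 9z + 27)⁻¹` is integral over `k[j(q⁹)]` (`3` invertible). -/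
theorem isIntegral_quad_inv_of_jq9 (h3 : IsUnit (3 : k)) {r : E}
    (hwr : (z ^ 2 + 9 * z + 27) * r = 1)
    (h : j * (z * (z ^ 2 + 9 * z + 27)) =
      (z + 3) ^ 3 * (z ^ 3 + 9 * z ^ 2 + 27 * z + 3) ^ 3) :
    IsIntegral (Algebra.adjoin k {j}) r := by
  have hz : z ∈ integralClosure (Algebra.adjoin k {j}) E := isIntegral_of_jq9 h
  have hj : j ∈ integralClosure (Algebra.adjoin k {j}) E := isIntegral_adjoin_self j
  have h39 : IsIntegral (Algebra.adjoin k {j}) ((3 : E) ^ 9 * r) := by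
    rw [quad_inv_key9 hwr h rfl rfl rfl]
    exact quad_inv_mem9 _ hz hj rfl rfl rfl
  refine isIntegral_of_pow_mul h3 9 ?_
  rw [map_ofNat]
  exact h39

end Abstract

end L9

/-! ### Level 4: the Hauptmodul `x₄` over a field -/

namespace L4

section Inst

variable (k : Type) [Field k]

/-- `x₄` is integral over `k[j]`. -/
theorem isIntegral_x4k : IsIntegral (Algebra.adjoin k {jqModC k}) (x4k k) :=
  isIntegral_of_jq (jq_x4k k)

/-- `x₄ - 16` is integral over `k[j]`. -/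
theorem isIntegral_x4k_sub : IsIntegral (Algebra.adjoin k {jqModC k}) (x4k k - 16) :=
  isIntegral_sub_of_jq (jq_x4k k)

/-- `x₄` is integral over `k[j(q²)]`. -/
theorem isIntegral_x4k_two : IsIntegral (Algebra.adjoin k {qExpand k 2 (jqModC k)}) (x4k k) :=
  isIntegral_of_jq2 (jq2_x4k k)

/-- `x₄` is integral over `k[j(q⁴)]`. -/
theorem isIntegral_x4k_four : IsIntegral (Algebra.adjoin k {qExpand k 4 (jqModC k)}) (x4k k) :=
  isIntegral_of_jq4 (jq4_x4k k)

variable {k}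

/-- `x₄⁻¹` is integral over `k[j]` (`2 ≠ 0`). -/
theorem isIntegral_x4k_inv (h2 : (2 : k) ≠ 0) :
    IsIntegral (Algebra.adjoin k {jqModC k}) (x4k k)⁻¹ :=
  isIntegral_inv_of_jq h2.isUnit (mul_inv_cancel₀ (x4k_ne_zero k)) (jq_x4k k)

/-- `(x₄ - 16)⁻¹` is integral over `k[j]` (`2 ≠ 0`). -/
theorem isIntegral_x4k_sub_inv (h2 : (2 : k) ≠ 0) :
    IsIntegral (Algebra.adjoin k {jqModC k}) (x4k k - 16)⁻¹ :=
  isIntegral_sub_inv_of_jq h2.isUnit (mul_inv_cancel₀ (x4k_sub_ne_zero k)) (jq_x4k k)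

/-- `x₄⁻¹` is integral over `k[j(q²)]` (`2 ≠ 0`). -/
theorem isIntegral_x4k_inv_two (h2 : (2 : k) ≠ 0) :
    IsIntegral (Algebra.adjoin k {qExpand k 2 (jqModC k)}) (x4k k)⁻¹ :=
  isIntegral_inv_of_jq2 h2.isUnit (mul_inv_cancel₀ (x4k_ne_zero k)) (jq2_x4k k)

/-- `(x₄ - 16)⁻¹` is integral over `k[j(q²)]` (`2 ≠ 0`). -/
theorem isIntegral_x4k_sub_inv_two (h2 : (2 : k) ≠ 0) :
    IsIntegral (Algebra.adjoin k {qExpand k 2 (jqModC k)}) (x4k k - 16)⁻¹ :=
  isIntegral_sub_inv_of_jq2 h2.isUnit (mul_inv_cancel₀ (x4k_sub_ne_zero k)) (jq2_x4k k)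

/-- `x₄⁻¹` is integral over `k[j(q⁴)]` (`2 ≠ 0`). -/
theorem isIntegral_x4k_inv_four (h2 : (2 : k) ≠ 0) :
    IsIntegral (Algebra.adjoin k {qExpand k 4 (jqModC k)}) (x4k k)⁻¹ :=
  isIntegral_inv_of_jq4 h2.isUnit (mul_inv_cancel₀ (x4k_ne_zero k)) (jq4_x4k k)

/-- `(x₄ - 16)⁻¹` is integral over `k[j(q⁴)]` (`2 ≠ 0`). -/
theorem isIntegral_x4k_sub_inv_four (h2 : (2 : k) ≠ 0) :
    IsIntegral (Algebra.adjoin k {qExpand k 4 (jqModC k)}) (x4k k - 16)⁻¹ :=
  isIntegral_sub_inv_of_jq4 h2.isUnit (mul_inv_cancel₀ (x4k_sub_ne_zero k)) (jq4_x4k k)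

/-! #### inside the function field `Fk k N` -/

variable [IsAlgClosed k] {N : ℕ} (h4N : 4 ∣ N) (hNk : (N : k) ≠ 0)

omit [IsAlgClosed k] in
theorem two_dvd_of_four_dvd {N : ℕ} (h : 4 ∣ N) : 2 ∣ N := Dvd.dvd.trans (by norm_num) h

omit [IsAlgClosed k] in
include h4N hNk in
theorem two_ne_zero_of_four_dvd : (2 : k) ≠ 0 := by
  obtain ⟨c, rfl⟩ := h4N
  intro h
  apply hNk
  have h4 : ((4 : ℕ) : k) = 2 * 2 := by norm_num
  rw [Nat.cast_mul, h4, h, zero_mul, zero_mul]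

theorem tFk_ne_zero : tFk h4N hNk ≠ 0 := by
  intro h
  exact x4k_ne_zero k (by rw [← coe_tFk h4N hNk, h]; rfl)

theorem tFk_sub_ne_zero : tFk h4N hNk - 16 ≠ 0 := by
  intro h
  apply x4k_sub_ne_zero k
  have := congrArg (fun f : Fk k N => (f : LaurentSeries k)) h
  push_cast at this
  exact this

/-- the relation between `j` and `x₄` in `Fk k N`. -/
theorem jq_tFk : jFk k N * (tFk h4N hNk * (tFk h4N hNk - 16) ^ 4) =
    (tFk h4N hNk ^ 2 + 224 * tFk h4N hNk + 256) ^ 3 := by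
  apply Subtype.ext
  push_cast
  exact jq_x4k k

/-- the relation between `j(q²)` and `x₄` in `Fk k N`. -/
theorem jq2_tFk : jdFk k N (d := 2) (two_dvd_of_four_dvd h4N) *
    (tFk h4N hNk ^ 2 * (tFk h4N hNk - 16) ^ 2) =
    (tFk h4N hNk ^ 2 - 16 * tFk h4N hNk + 256) ^ 3 := by
  apply Subtype.ext
  push_cast
  exact jq2_x4k k

/-- the relation between `j(q⁴)` and `x₄` in `Fk k N`. -/
theorem jq4_tFk : jdFk k N (d := 4) h4N * (tFk h4N hNk * (tFk h4N hNk - 16)) =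
    (tFk h4N hNk ^ 2 - 16 * tFk h4N hNk + 16) ^ 3 := by
  apply Subtype.ext
  push_cast
  exact jq4_x4k k

/-- `x₄`, `x₄⁻¹`, `x₄ - 16`, `(x₄ - 16)⁻¹` are integral over `k[j]` in `Fk k N`. -/
theorem isIntegral_tFk : IsIntegral (Algebra.adjoin k {jFk k N}) (tFk h4N hNk) :=
  isIntegral_of_jq (jq_tFk h4N hNk)

theorem isIntegral_tFk_inv : IsIntegral (Algebra.adjoin k {jFk k N}) (tFk h4N hNk)⁻¹ :=
  isIntegral_inv_of_jq (two_ne_zero_of_four_dvd h4N hNk).isUnit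
    (mul_inv_cancel₀ (tFk_ne_zero h4N hNk)) (jq_tFk h4N hNk)

theorem isIntegral_tFk_sub : IsIntegral (Algebra.adjoin k {jFk k N}) (tFk h4N hNk - 16) :=
  isIntegral_sub_of_jq (jq_tFk h4N hNk)

theorem isIntegral_tFk_sub_inv :
    IsIntegral (Algebra.adjoin k {jFk k N}) (tFk h4N hNk - 16)⁻¹ :=
  isIntegral_sub_inv_of_jq (two_ne_zero_of_four_dvd h4N hNk).isUnit
    (mul_inv_cancel₀ (tFk_sub_ne_zero h4N hNk)) (jq_tFk h4N hNk)

/-- the same over `k[j(q²)]`. -/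
theorem isIntegral_tFk_two :
    IsIntegral (Algebra.adjoin k {jdFk k N (d := 2) (two_dvd_of_four_dvd h4N)})
      (tFk h4N hNk) :=
  isIntegral_of_jq2 (jq2_tFk h4N hNk)

theorem isIntegral_tFk_inv_two :
    IsIntegral (Algebra.adjoin k {jdFk k N (d := 2) (two_dvd_of_four_dvd h4N)})
      (tFk h4N hNk)⁻¹ :=
  isIntegral_inv_of_jq2 (two_ne_zero_of_four_dvd h4N hNk).isUnit
    (mul_inv_cancel₀ (tFk_ne_zero h4N hNk)) (jq2_tFk h4N hNk)

theorem isIntegral_tFk_sub_inv_two :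
    IsIntegral (Algebra.adjoin k {jdFk k N (d := 2) (two_dvd_of_four_dvd h4N)})
      (tFk h4N hNk - 16)⁻¹ :=
  isIntegral_sub_inv_of_jq2 (two_ne_zero_of_four_dvd h4N hNk).isUnit
    (mul_inv_cancel₀ (tFk_sub_ne_zero h4N hNk)) (jq2_tFk h4N hNk)

/-- the same over `k[j(q⁴)]`. -/
theorem isIntegral_tFk_four :
    IsIntegral (Algebra.adjoin k {jdFk k N (d := 4) h4N}) (tFk h4N hNk) :=
  isIntegral_of_jq4 (jq4_tFk h4N hNk)

theorem isIntegral_tFk_inv_four :
    IsIntegral (Algebra.adjoin k {jdFk k N (d := 4) h4N}) (tFk h4N hNk)⁻¹ :=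
  isIntegral_inv_of_jq4 (two_ne_zero_of_four_dvd h4N hNk).isUnit
    (mul_inv_cancel₀ (tFk_ne_zero h4N hNk)) (jq4_tFk h4N hNk)

theorem isIntegral_tFk_sub_inv_four :
    IsIntegral (Algebra.adjoin k {jdFk k N (d := 4) h4N}) (tFk h4N hNk - 16)⁻¹ :=
  isIntegral_sub_inv_of_jq4 (two_ne_zero_of_four_dvd h4N hNk).isUnit
    (mul_inv_cancel₀ (tFk_sub_ne_zero h4N hNk)) (jq4_tFk h4N hNk)

end Inst

end L4

/-! ### Level 9: the shifted Hauptmodul `z₉` over a field -/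

namespace L9

section Inst

variable (k : Type) [Field k]

/-- `z₉` is integral over `k[j]`, `k[j(q³)]`, `k[j(q⁹)]`. -/
theorem isIntegral_z9k : IsIntegral (Algebra.adjoin k {jqModC k}) (z9k k) :=
  isIntegral_of_jq (jq_z9k k)

theorem isIntegral_z9k_three :
    IsIntegral (Algebra.adjoin k {qExpand k 3 (jqModC k)}) (z9k k) :=
  isIntegral_of_jq3 (jq3_z9k k)

theorem isIntegral_z9k_nine :
    IsIntegral (Algebra.adjoin k {qExpand k 9 (jqModC k)}) (z9k k) :=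
  isIntegral_of_jq9 (jq9_z9k k)

variable {k}

/-- `z₉⁻¹` and `(z₉² + 9 z₉ + 27)⁻¹` are integral over `k[j]` (`3 ≠ 0`). -/
theorem isIntegral_z9k_inv (h3 : (3 : k) ≠ 0) :
    IsIntegral (Algebra.adjoin k {jqModC k}) (z9k k)⁻¹ :=
  isIntegral_inv_of_jq h3.isUnit (mul_inv_cancel₀ (z9k_ne_zero k)) (jq_z9k k)

theorem isIntegral_z9k_quad_inv (h3 : (3 : k) ≠ 0) :
    IsIntegral (Algebra.adjoin k {jqModC k}) (z9k k ^ 2 + 9 * z9k k + 27)⁻¹ :=
  isIntegral_quad_inv_of_jq h3.isUnit (mul_inv_cancel₀ (z9k_quad_ne_zero k)) (jq_z9k k)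

/-- the same over `k[j(q³)]`. -/
theorem isIntegral_z9k_inv_three (h3 : (3 : k) ≠ 0) :
    IsIntegral (Algebra.adjoin k {qExpand k 3 (jqModC k)}) (z9k k)⁻¹ :=
  isIntegral_inv_of_jq3 h3.isUnit (mul_inv_cancel₀ (z9k_ne_zero k)) (jq3_z9k k)

theorem isIntegral_z9k_quad_inv_three (h3 : (3 : k) ≠ 0) :
    IsIntegral (Algebra.adjoin k {qExpand k 3 (jqModC k)}) (z9k k ^ 2 + 9 * z9k k + 27)⁻¹ :=
  isIntegral_quad_inv_of_jq3 h3.isUnit (mul_inv_cancel₀ (z9k_quad_ne_zero k)) (jq3_z9k k)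

/-- the same over `k[j(q⁹)]`. -/
theorem isIntegral_z9k_inv_nine (h3 : (3 : k) ≠ 0) :
    IsIntegral (Algebra.adjoin k {qExpand k 9 (jqModC k)}) (z9k k)⁻¹ :=
  isIntegral_inv_of_jq9 h3.isUnit (mul_inv_cancel₀ (z9k_ne_zero k)) (jq9_z9k k)

theorem isIntegral_z9k_quad_inv_nine (h3 : (3 : k) ≠ 0) :
    IsIntegral (Algebra.adjoin k {qExpand k 9 (jqModC k)}) (z9k k ^ 2 + 9 * z9k k + 27)⁻¹ :=
  isIntegral_quad_inv_of_jq9 h3.isUnit (mul_inv_cancel₀ (z9k_quad_ne_zero k)) (jq9_z9k k)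

/-! #### inside the function field `Fk k N` -/

variable [IsAlgClosed k] {N : ℕ} (h9N : 9 ∣ N) (hNk : (N : k) ≠ 0)

omit [IsAlgClosed k] in
theorem three_dvd_of_nine_dvd {N : ℕ} (h : 9 ∣ N) : 3 ∣ N := Dvd.dvd.trans (by norm_num) h

omit [IsAlgClosed k] in
include h9N hNk in
theorem three_ne_zero_of_nine_dvd : (3 : k) ≠ 0 := by
  obtain ⟨c, rfl⟩ := h9N
  intro h
  apply hNk
  have h9 : ((9 : ℕ) : k) = 3 * 3 := by norm_num
  rw [Nat.cast_mul, h9, h, zero_mul, zero_mul]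

theorem zFk_ne_zero : zFk h9N hNk ≠ 0 := by
  intro h
  exact z9k_ne_zero k (by rw [← coe_zFk h9N hNk, h]; rfl)

theorem zFk_quad_ne_zero : zFk h9N hNk ^ 2 + 9 * zFk h9N hNk + 27 ≠ 0 := by
  intro h
  apply z9k_quad_ne_zero k
  have := congrArg (fun f : Fk k N => (f : LaurentSeries k)) h
  push_cast at this
  exact this

/-- the relations between `j`, `j(q³)`, `j(q⁹)` and `z₉` in `Fk k N`. -/
theorem jq_zFk : jFk k N * (zFk h9N hNk ^ 9 * (zFk h9N hNk ^ 2 + 9 * zFk h9N hNk + 27)) =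
    (zFk h9N hNk + 9) ^ 3 *
      (zFk h9N hNk ^ 3 + 243 * zFk h9N hNk ^ 2 + 2187 * zFk h9N hNk + 6561) ^ 3 := by
  apply Subtype.ext
  push_cast
  exact jq_z9k k

theorem jq3_zFk : jdFk k N (d := 3) (three_dvd_of_nine_dvd h9N) *
    (zFk h9N hNk ^ 3 * (zFk h9N hNk ^ 2 + 9 * zFk h9N hNk + 27) ^ 3) =
    (zFk h9N hNk + 3) ^ 3 *
      (zFk h9N hNk ^ 3 + 9 * zFk h9N hNk ^ 2 + 27 * zFk h9N hNk + 243) ^ 3 := by
  apply Subtype.ext
  push_cast
  exact jq3_z9k k

theorem jq9_zFk : jdFk k N (d := 9) h9N *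
    (zFk h9N hNk * (zFk h9N hNk ^ 2 + 9 * zFk h9N hNk + 27)) =
    (zFk h9N hNk + 3) ^ 3 *
      (zFk h9N hNk ^ 3 + 9 * zFk h9N hNk ^ 2 + 27 * zFk h9N hNk + 3) ^ 3 := by
  apply Subtype.ext
  push_cast
  exact jq9_z9k k

/-- `z₉`, `z₉⁻¹`, `(z₉² + 9 z₉ + 27)⁻¹` are integral over `k[j]` in `Fk k N`. -/
theorem isIntegral_zFk : IsIntegral (Algebra.adjoin k {jFk k N}) (zFk h9N hNk) :=
  isIntegral_of_jq (jq_zFk h9N hNk)

theorem isIntegral_zFk_inv : IsIntegral (Algebra.adjoin k {jFk k N}) (zFk h9N hNk)⁻¹ :=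
  isIntegral_inv_of_jq (three_ne_zero_of_nine_dvd h9N hNk).isUnit
    (mul_inv_cancel₀ (zFk_ne_zero h9N hNk)) (jq_zFk h9N hNk)

theorem isIntegral_zFk_quad_inv :
    IsIntegral (Algebra.adjoin k {jFk k N}) (zFk h9N hNk ^ 2 + 9 * zFk h9N hNk + 27)⁻¹ :=
  isIntegral_quad_inv_of_jq (three_ne_zero_of_nine_dvd h9N hNk).isUnit
    (mul_inv_cancel₀ (zFk_quad_ne_zero h9N hNk)) (jq_zFk h9N hNk)

/-- the same over `k[j(q³)]`. -/
theorem isIntegral_zFk_three :
    IsIntegral (Algebra.adjoin k {jdFk k N (d := 3) (three_dvd_of_nine_dvd h9N)})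
      (zFk h9N hNk) :=
  isIntegral_of_jq3 (jq3_zFk h9N hNk)

theorem isIntegral_zFk_inv_three :
    IsIntegral (Algebra.adjoin k {jdFk k N (d := 3) (three_dvd_of_nine_dvd h9N)})
      (zFk h9N hNk)⁻¹ :=
  isIntegral_inv_of_jq3 (three_ne_zero_of_nine_dvd h9N hNk).isUnit
    (mul_inv_cancel₀ (zFk_ne_zero h9N hNk)) (jq3_zFk h9N hNk)

theorem isIntegral_zFk_quad_inv_three :
    IsIntegral (Algebra.adjoin k {jdFk k N (d := 3) (three_dvd_of_nine_dvd h9N)})
      (zFk h9N hNk ^ 2 + 9 * zFk h9N hNk + 27)⁻¹ :=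
  isIntegral_quad_inv_of_jq3 (three_ne_zero_of_nine_dvd h9N hNk).isUnit
    (mul_inv_cancel₀ (zFk_quad_ne_zero h9N hNk)) (jq3_zFk h9N hNk)

/-- the same over `k[j(q⁹)]`. -/
theorem isIntegral_zFk_nine :
    IsIntegral (Algebra.adjoin k {jdFk k N (d := 9) h9N}) (zFk h9N hNk) :=
  isIntegral_of_jq9 (jq9_zFk h9N hNk)

theorem isIntegral_zFk_inv_nine :
    IsIntegral (Algebra.adjoin k {jdFk k N (d := 9) h9N}) (zFk h9N hNk)⁻¹ :=
  isIntegral_inv_of_jq9 (three_ne_zero_of_nine_dvd h9N hNk).isUnit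
    (mul_inv_cancel₀ (zFk_ne_zero h9N hNk)) (jq9_zFk h9N hNk)

theorem isIntegral_zFk_quad_inv_nine :
    IsIntegral (Algebra.adjoin k {jdFk k N (d := 9) h9N})
      (zFk h9N hNk ^ 2 + 9 * zFk h9N hNk + 27)⁻¹ :=
  isIntegral_quad_inv_of_jq9 (three_ne_zero_of_nine_dvd h9N hNk).isUnit
    (mul_inv_cancel₀ (zFk_quad_ne_zero h9N hNk)) (jq9_zFk h9N hNk)

end Inst

end L9

end Fermat.Agent.Gateway.AuxLevel
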