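/-
The Hauptmodul of `X₀(9)` with its three relations to `j(q)`, `j(q³)`, `j(q⁹)`
(P-GATEWAY, auxiliary level package).

With `P = (E₄(q³) + 9 E₄(q⁹))/10`, `Q = (E₄(q³) - E₄(q⁹))/240`, `W = (E₄(q) - E₄(q³))/240`
(weight four forms on `Γ₀(9)`; in terms of the cubic theta functions `s = a(q³)`, `c = c(q³)/3`:
`P = s⁴`, `Q = s c³`, `W = s³c + 9 s²c² + 27 s c³ + 54 c⁴`) and
`f = P² + 9PW - 135PQ + 2916Q²`, `g = PW + 54PQ + 54QW - 1458Q²` (so `f = s h`, `g = c h`),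
the function `y = f/g = s/c = q⁻¹ + 5 q² - 7 q⁵ + ⋯ = (η(q)/η(q⁹))³ + 3` is a Hauptmodul of
`X₀(9)`, `y³ = P/Q`, and
`j(q) (y-3)⁸ (y³-27) = (y+6)³ (y³+234y²+756y+2160)³`, `j(q³) (y³-27)³ = y³ (y³+216)³`,
`j(q⁹) (y³-27) = y³ (y³-24)³`.
-/
import Mathlib
import Fermat.Agent.Gateway.AuxLevel.Level4

set_option autoImplicit false

namespace Fermat.Agent.Gateway.AuxLevel

open PowerSeries ModularCurve Fermat.Agent.S28 Fermat.Agent.S28.Trunc
open Fermat.Agent.S28.H2 (DeltaS deltaBridge)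

namespace L9

theorem three_ne_zero' : (3 : ℕ) ≠ 0 := by norm_num

theorem nine_ne_zero' : (9 : ℕ) ≠ 0 := by norm_num

/-! ### The weight four forms -/

/-- `P = (E₄(q³) + 9 E₄(q⁹))/10 = 1 + 24 σ(q³) + 216 σ(q⁹)`. -/
noncomputable def P : PowerSeries ℤ :=
  1 + C 24 * expand 3 three_ne_zero' sig3 + C 216 * expand 9 nine_ne_zero' sig3

/-- `Q = (E₄(q³) - E₄(q⁹))/240`. -/
noncomputable def Q : PowerSeries ℤ := expand 3 three_ne_zero' sig3 - expand 9 nine_ne_zero' sig3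

/-- `W = (E₄(q) - E₄(q³))/240`. -/
noncomputable def W : PowerSeries ℤ := sig3 - expand 3 three_ne_zero' sig3

/-- `E₄(q³)` -/
noncomputable def E4_3 : PowerSeries ℤ := expand 3 three_ne_zero' eisenstein4

/-- `E₄(q⁹)` -/
noncomputable def E4_9 : PowerSeries ℤ := expand 9 nine_ne_zero' eisenstein4

/-- `Δ(q³)` -/
noncomputable def Delta3 : PowerSeries ℤ := expand 3 three_ne_zero' DeltaS

/-- `Δ(q⁹)` -/
noncomputable def Delta9 : PowerSeries ℤ := expand 9 nine_ne_zero' DeltaS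

theorem isMFSeries_E4_1 : IsMFSeries 9 4 eisenstein4 := isMFSeries_E4 9

theorem isMFSeries_E4_3 : IsMFSeries 9 4 E4_3 :=
  isMFSeries_E4_expand_of_dvd (d := 3) (N := 9) ⟨3, rfl⟩

theorem isMFSeries_E4_9 : IsMFSeries 9 4 E4_9 :=
  isMFSeries_E4_expand_of_dvd (d := 9) (N := 9) dvd_rfl

theorem isMFSeries_Delta1 : IsMFSeries 9 12 DeltaS := isMFSeries_Delta deltaBridge 9

theorem isMFSeries_Delta3 : IsMFSeries 9 12 Delta3 :=
  isMFSeries_of_dvd (isMFSeries_Delta_expand deltaBridge 3) ⟨3, rfl⟩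

theorem isMFSeries_Delta9 : IsMFSeries 9 12 Delta9 := isMFSeries_Delta_expand deltaBridge 9

theorem isMFSeries_P : IsMFSeries 9 4 P := by
  have h := isMFSeries_E4_3.add (isMFSeries_E4_9.C_mul 9)
  rw [E4_3, E4_9, expand_eisenstein4, expand_eisenstein4] at h
  refine isMFSeries_of_C_mul (a := 10) (by norm_num) (h.of_eq rfl ?_)
  rw [P]
  have h10 : (C 10 : PowerSeries ℤ) = 1 + C 9 := by rw [← map_one C, ← map_add]; norm_num
  have h2400 : (C 9 : PowerSeries ℤ) * C 240 = C 10 * C 216 := by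
    rw [← map_mul, ← map_mul]; norm_num
  have h240 : (C 240 : PowerSeries ℤ) = C 10 * C 24 := by rw [← map_mul]; norm_num
  linear_combination (-1 : PowerSeries ℤ) * h10 +
    (expand 9 nine_ne_zero' sig3) * h2400 + (expand 3 three_ne_zero' sig3) * h240

theorem isMFSeries_Q : IsMFSeries 9 4 Q :=
  isMFSeries_sig3_sub (d := 3) (e := 9) (N := 9) ⟨3, rfl⟩ dvd_rfl

theorem isMFSeries_W : IsMFSeries 9 4 W :=
  isMFSeries_sig3_sub_one (e := 3) (N := 9) ⟨3, rfl⟩

/-! ### The weight eight forms `f = s h` and `g = c h` -/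

/-- `f = P² + 9PW - 135PQ + 2916Q²`. -/
noncomputable def f9 : PowerSeries ℤ := P * P + C 9 * (P * W) - C 135 * (P * Q) + C 2916 * (Q * Q)

/-- `g = PW + 54PQ + 54QW - 1458Q²`. -/
noncomputable def g9 : PowerSeries ℤ := P * W + C 54 * (P * Q) + C 54 * (Q * W) - C 1458 * (Q * Q)

theorem isMFSeries_f9 : IsMFSeries 9 8 f9 :=
  ((((isMFSeries_P.mul isMFSeries_P).add ((isMFSeries_P.mul isMFSeries_W).C_mul 9)).sub
    ((isMFSeries_P.mul isMFSeries_Q).C_mul 135)).add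
    ((isMFSeries_Q.mul isMFSeries_Q).C_mul 2916)).of_eq (by norm_num) rfl

theorem isMFSeries_g9 : IsMFSeries 9 8 g9 :=
  ((((isMFSeries_P.mul isMFSeries_W).add ((isMFSeries_P.mul isMFSeries_Q).C_mul 54)).add
    ((isMFSeries_Q.mul isMFSeries_W).C_mul 54)).sub
    ((isMFSeries_Q.mul isMFSeries_Q).C_mul 1458)).of_eq (by norm_num) rfl

/-! ### The identities as modular forms -/

/-- `E₄(q⁹)³ (P - 27Q) Q³ - Δ(q⁹) P (P - 24Q)³` (weight 28). -/
noncomputable def G9 : PowerSeries ℤ :=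
  E4_9 ^ 3 * ((P - C 27 * Q) * Q ^ 3) - Delta9 * (P * (P - C 24 * Q) ^ 3)

/-- `E₄(q³)³ (P - 27Q)³ Q - Δ(q³) P (P + 216Q)³` (weight 28). -/
noncomputable def G3 : PowerSeries ℤ :=
  E4_3 ^ 3 * ((P - C 27 * Q) ^ 3 * Q) - Delta3 * (P * (P + C 216 * Q) ^ 3)

/-- `f³ Q - g³ P` (weight 28). -/
noncomputable def Gy : PowerSeries ℤ := f9 ^ 3 * Q - g9 ^ 3 * P

/-- `E₄³ (f-3g)⁸ (f³-27g³) g - Δ (f+6g)³ (f³+234f²g+756fg²+2160g³)³` (weight 108). -/
noncomputable def G1 : PowerSeries ℤ :=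
  eisenstein4 ^ 3 * ((f9 - C 3 * g9) ^ 8 * (f9 ^ 3 - C 27 * g9 ^ 3) * g9) -
    DeltaS * ((f9 + C 6 * g9) ^ 3 *
      (f9 ^ 3 + C 234 * (f9 ^ 2 * g9) + C 756 * (f9 * g9 ^ 2) + C 2160 * g9 ^ 3) ^ 3)

theorem isMFSeries_G9 : IsMFSeries 9 28 G9 := by
  unfold G9
  refine IsMFSeries.sub ?_ ?_
  · exact ((isMFSeries_E4_9.pow 3).mul (((isMFSeries_P.sub (isMFSeries_Q.C_mul 27))).mul
      (isMFSeries_Q.pow 3))).of_eq (by norm_num) rfl
  · exact (isMFSeries_Delta9.mul (isMFSeries_P.mul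
      ((isMFSeries_P.sub (isMFSeries_Q.C_mul 24)).pow 3))).of_eq (by norm_num) rfl

theorem isMFSeries_G3 : IsMFSeries 9 28 G3 := by
  unfold G3
  refine IsMFSeries.sub ?_ ?_
  · exact ((isMFSeries_E4_3.pow 3).mul ((((isMFSeries_P.sub (isMFSeries_Q.C_mul 27))).pow 3).mul
      isMFSeries_Q)).of_eq (by norm_num) rfl
  · exact (isMFSeries_Delta3.mul (isMFSeries_P.mul
      ((isMFSeries_P.add (isMFSeries_Q.C_mul 216)).pow 3))).of_eq (by norm_num) rfl

theorem isMFSeries_Gy : IsMFSeries 9 28 Gy := by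
  unfold Gy
  refine IsMFSeries.sub ?_ ?_
  · exact ((isMFSeries_f9.pow 3).mul isMFSeries_Q).of_eq (by norm_num) rfl
  · exact ((isMFSeries_g9.pow 3).mul isMFSeries_P).of_eq (by norm_num) rfl

theorem isMFSeries_G1 : IsMFSeries 9 108 G1 := by
  unfold G1
  refine IsMFSeries.sub ?_ ?_
  · exact ((isMFSeries_E4_1.pow 3).mul ((((isMFSeries_f9.sub (isMFSeries_g9.C_mul 3)).pow 8).mul
      (((isMFSeries_f9.pow 3).sub ((isMFSeries_g9.pow 3).C_mul 27)))).mul isMFSeries_g9)).of_eq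
      (by norm_num) rfl
  · have hc : IsMFSeries 9 24
        (f9 ^ 3 + C 234 * (f9 ^ 2 * g9) + C 756 * (f9 * g9 ^ 2) + C 2160 * g9 ^ 3) :=
      ((((isMFSeries_f9.pow 3).add ((((isMFSeries_f9.pow 2).mul isMFSeries_g9).of_eq
        (by norm_num) rfl).C_mul 234)).add (((isMFSeries_f9.mul (isMFSeries_g9.pow 2)).of_eq
        (by norm_num) rfl).C_mul 756)).add ((isMFSeries_g9.pow 3).C_mul 2160))
    exact (isMFSeries_Delta1.mul (((isMFSeries_f9.add (isMFSeries_g9.C_mul 6)).pow 3).mul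
      (hc.pow 3))).of_eq (by norm_num) rfl

/-! ### Coefficient computations -/

/-- coefficient list of `P` -/
def PL (N : ℕ) : List ℤ :=
  addL N (addL N [1] (smulL N 24 (expandL N 3 (sig3L N)))) (smulL N 216 (expandL N 9 (sig3L N)))

/-- coefficient list of `Q` -/
def QL (N : ℕ) : List ℤ := subL N (expandL N 3 (sig3L N)) (expandL N 9 (sig3L N))

/-- coefficient list of `W` -/
def WL (N : ℕ) : List ℤ := subL N (sig3L N) (expandL N 3 (sig3L N))

theorem approx_P (N : ℕ) : Approx N P (PL N) :=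
  (Approx.one.add (((approx_sig3 N).expand 3 three_ne_zero').C_mul 24)).add
    (((approx_sig3 N).expand 9 nine_ne_zero').C_mul 216)

theorem approx_Q (N : ℕ) : Approx N Q (QL N) :=
  ((approx_sig3 N).expand 3 three_ne_zero').sub ((approx_sig3 N).expand 9 nine_ne_zero')

theorem approx_W (N : ℕ) : Approx N W (WL N) :=
  (approx_sig3 N).sub ((approx_sig3 N).expand 3 three_ne_zero')

/-- coefficient list of `f9` -/
def fL (N : ℕ) : List ℤ :=
  addL N (subL N (addL N (mulK N (PL N) (PL N)) (smulL N 9 (mulK N (PL N) (WL N))))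
    (smulL N 135 (mulK N (PL N) (QL N)))) (smulL N 2916 (mulK N (QL N) (QL N)))

/-- coefficient list of `g9` -/
def gL (N : ℕ) : List ℤ :=
  subL N (addL N (addL N (mulK N (PL N) (WL N)) (smulL N 54 (mulK N (PL N) (QL N))))
    (smulL N 54 (mulK N (QL N) (WL N)))) (smulL N 1458 (mulK N (QL N) (QL N)))

theorem approx_f9 (N : ℕ) : Approx N f9 (fL N) :=
  (((Approx.mulK (approx_P N) (approx_P N)).add
    ((Approx.mulK (approx_P N) (approx_W N)).C_mul 9)).sub
    ((Approx.mulK (approx_P N) (approx_Q N)).C_mul 135)).add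
    ((Approx.mulK (approx_Q N) (approx_Q N)).C_mul 2916)

theorem approx_g9 (N : ℕ) : Approx N g9 (gL N) :=
  (((Approx.mulK (approx_P N) (approx_W N)).add
    ((Approx.mulK (approx_P N) (approx_Q N)).C_mul 54)).add
    ((Approx.mulK (approx_Q N) (approx_W N)).C_mul 54)).sub
    ((Approx.mulK (approx_Q N) (approx_Q N)).C_mul 1458)

set_option maxRecDepth 100000 in
theorem coeff_G9 {n : ℕ} (hn : n ≤ 28) : coeff n G9 = 0 := by
  have h : Approx 28 G9 _ :=
    (Approx.mulK (Approx.powK ((approx_eisenstein4 28).expand 9 nine_ne_zero') 3)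
      (Approx.mulK ((approx_P 28).sub ((approx_Q 28).C_mul 27)) (Approx.powK (approx_Q 28) 3))).sub
    (Approx.mulK ((approx_DeltaS 28).expand 9 nine_ne_zero')
      (Approx.mulK (approx_P 28) (Approx.powK ((approx_P 28).sub ((approx_Q 28).C_mul 24)) 3)))
  exact h.eq_zero (by decide +kernel) n hn

set_option maxRecDepth 100000 in
theorem coeff_G3 {n : ℕ} (hn : n ≤ 28) : coeff n G3 = 0 := by
  have h : Approx 28 G3 _ :=
    (Approx.mulK (Approx.powK ((approx_eisenstein4 28).expand 3 three_ne_zero') 3)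
      (Approx.mulK (Approx.powK ((approx_P 28).sub ((approx_Q 28).C_mul 27)) 3) (approx_Q 28))).sub
    (Approx.mulK ((approx_DeltaS 28).expand 3 three_ne_zero')
      (Approx.mulK (approx_P 28) (Approx.powK ((approx_P 28).add ((approx_Q 28).C_mul 216)) 3)))
  exact h.eq_zero (by decide +kernel) n hn

set_option maxRecDepth 100000 in
theorem coeff_Gy {n : ℕ} (hn : n ≤ 28) : coeff n Gy = 0 := by
  have h : Approx 28 Gy _ :=
    (Approx.mulK (Approx.powK (approx_f9 28) 3) (approx_Q 28)).sub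
      (Approx.mulK (Approx.powK (approx_g9 28) 3) (approx_P 28))
  exact h.eq_zero (by decide +kernel) n hn

/-! ### The Sturm bound -/

theorem sturm_nine {G : PowerSeries ℤ} {k : ℕ} (h : IsMFSeries 9 k G)
    (hc : ∀ n : ℕ, n ≤ k → coeff n G = 0) : G = 0 := by
  apply isMFSeries_eq_zero_of_index h dedekindPsi_nine
  intro n hn
  refine hc n (hn.trans ?_)
  have : ((k : ℤ) * ((12 : ℕ) : ℤ)).toNat = k * 12 := by
    rw [← Nat.cast_mul, Int.toNat_natCast]
  rw [this, Nat.mul_div_cancel _ (by norm_num)]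

theorem G9_eq_zero : G9 = 0 := sturm_nine (k := 28) isMFSeries_G9 fun _ hn => coeff_G9 hn

theorem G3_eq_zero : G3 = 0 := sturm_nine (k := 28) isMFSeries_G3 fun _ hn => coeff_G3 hn

theorem Gy_eq_zero : Gy = 0 := sturm_nine (k := 28) isMFSeries_Gy fun _ hn => coeff_Gy hn

end L9

end Fermat.Agent.Gateway.AuxLevel
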