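/-
The weight 108 identity on `Γ₀(9)` relating `j(q)` and the Hauptmodul `y = f/g`
(P-GATEWAY, auxiliary level package): 109 coefficients, checked by the kernel.
-/
import Mathlib
import Fermat.Agent.Gateway.AuxLevel.Level9

set_option autoImplicit false

namespace Fermat.Agent.Gateway.AuxLevel

open PowerSeries ModularCurve Fermat.Agent.S28 Fermat.Agent.S28.Trunc
open Fermat.Agent.S28.H2 (DeltaS deltaBridge)

namespace L9

set_option maxRecDepth 100000 in
theorem coeff_G1 {n : ℕ} (hn : n ≤ 108) : coeff n G1 = 0 := by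
  have hf := approx_f9 108
  have hg := approx_g9 108
  have hc : Approx 108
      (f9 ^ 3 + C 234 * (f9 ^ 2 * g9) + C 756 * (f9 * g9 ^ 2) + C 2160 * g9 ^ 3) _ :=
    (((Approx.powK hf 3).add ((Approx.mulK (Approx.powK hf 2) hg).C_mul 234)).add
      ((Approx.mulK hf (Approx.powK hg 2)).C_mul 756)).add ((Approx.powK hg 3).C_mul 2160)
  have h : Approx 108 G1 _ :=
    (Approx.mulK (Approx.powK (approx_eisenstein4 108) 3)
      (Approx.mulK (Approx.mulK (Approx.powK (hf.sub (hg.C_mul 3)) 8)
        ((Approx.powK hf 3).sub ((Approx.powK hg 3).C_mul 27))) hg)).sub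
    (Approx.mulK (approx_DeltaS 108)
      (Approx.mulK (Approx.powK (hf.add (hg.C_mul 6)) 3) (Approx.powK hc 3)))
  exact h.eq_zero (by decide +kernel) n hn

theorem G1_eq_zero : G1 = 0 := sturm_nine (k := 108) isMFSeries_G1 fun _ hn => coeff_G1 hn

end L9

end Fermat.Agent.Gateway.AuxLevel
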