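/-
The Hauptmodul `y₉ = q⁻¹ u₉` of `X₀(9)` as a Laurent series with integer coefficients and its
relations to `j(q)`, `j(q³)`, `j(q⁹)` (P-GATEWAY, auxiliary level package).
-/
import Mathlib
import Fermat.Agent.Gateway.AuxLevel.Level9Big
import Fermat.Agent.Gateway.AuxLevel.Level4Haupt

set_option autoImplicit false

namespace Fermat.Agent.Gateway.AuxLevel

open PowerSeries ModularCurve Fermat.Agent.S28 Fermat.Agent.S28.Trunc
open Fermat.Agent.S28.H2 (DeltaS qInv qInv_mul_X jqModC_int qInv_mul_add)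

namespace L9

/-! ### The unit `u₉` -/

theorem coeff_zero_g9 : coeff 0 g9 = 0 := by
  rw [approx_g9 1 0 (by norm_num)]; decide +kernel

theorem coeff_one_g9 : coeff 1 g9 = 1 := by
  rw [approx_g9 1 1 (by norm_num)]; decide +kernel

theorem coeff_zero_W : coeff 0 W = 0 := by
  rw [approx_W 1 0 (by norm_num)]; decide +kernel

theorem coeff_one_W : coeff 1 W = 1 := by
  rw [approx_W 1 1 (by norm_num)]; decide +kernel

/-- `g = q g₁`. -/
noncomputable def g1 : PowerSeries ℤ := divX g9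

theorem g9_eq : g9 = X * g1 := (X_mul_divX coeff_zero_g9).symm

theorem constantCoeff_g1 : constantCoeff g1 = 1 := by
  rw [g1, constantCoeff_divX, coeff_one_g9]

/-- `Q = q³ Q₁`. -/
noncomputable def Q1 : PowerSeries ℤ := expand 3 three_ne_zero' (divX W)

theorem Q_eq : Q = X ^ 3 * Q1 := by
  have h : Q = expand 3 three_ne_zero' W := by
    have h9 : expand 9 nine_ne_zero' sig3 =
        expand 3 three_ne_zero' (expand 3 three_ne_zero' sig3) :=
      expand_mul 3 three_ne_zero' 3 three_ne_zero' sig3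
    rw [Q, W, map_sub, h9]
  rw [h, ← X_mul_divX coeff_zero_W, map_mul, expand_X, Q1]

theorem constantCoeff_Q1 : constantCoeff Q1 = 1 := by
  rw [Q1, constantCoeff_expand, constantCoeff_divX, coeff_one_W]

/-- The inverse of `g₁`. -/
noncomputable def w9 : PowerSeries ℤ := g1.invOfUnit 1

theorem g1_mul_w9 : g1 * w9 = 1 :=
  PowerSeries.mul_invOfUnit _ _ (by rw [constantCoeff_g1]; rfl)

/-- The unit part of the Hauptmodul: `y₉ = q⁻¹ u₉`, `u₉ = 1 + 5 q³ - 7 q⁶ + ⋯`. -/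
noncomputable def u9 : PowerSeries ℤ := f9 * w9

theorem u9_mul_g1 : u9 * g1 = f9 := by
  rw [u9, mul_assoc, mul_comm w9, g1_mul_w9, mul_one]

theorem constantCoeff_f9 : constantCoeff f9 = 1 := by
  rw [← coeff_zero_eq_constantCoeff_apply, approx_f9 1 0 (by norm_num)]; decide +kernel

theorem constantCoeff_u9 : constantCoeff u9 = 1 := by
  have h := congrArg constantCoeff u9_mul_g1
  rwa [map_mul, constantCoeff_g1, mul_one, constantCoeff_f9] at h

/-! ### The relations in power series form -/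

open L4 (unit_ne_zero constantCoeff_expand_eta)

/-- `y³ = P/Q`. -/
theorem P_eq : P = u9 ^ 3 * Q1 := by
  have h := Gy_eq_zero
  rw [Gy, sub_eq_zero, ← u9_mul_g1, g9_eq, Q_eq] at h
  have hne : X ^ 3 * g1 ^ 3 ≠ (0 : PowerSeries ℤ) :=
    mul_ne_zero (pow_ne_zero _ X_ne_zero) (pow_ne_zero _ (unit_ne_zero constantCoeff_g1))
  apply mul_left_cancel₀ hne
  linear_combination -h

theorem Delta3_eq : Delta3 = X ^ 3 * expand 3 three_ne_zero' dedekindEtaUnit := by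
  rw [Delta3, DeltaS, map_mul, expand_X]

theorem Delta9_eq : Delta9 = X ^ 9 * expand 9 nine_ne_zero' dedekindEtaUnit := by
  rw [Delta9, DeltaS, map_mul, expand_X]

theorem eta9_mul_jNum : expand 9 nine_ne_zero' dedekindEtaUnit * expand 9 nine_ne_zero' jNum =
    E4_9 ^ 3 := by
  rw [mul_comm, expand_jNum_eq, E4_9]

theorem eta3_mul_jNum : expand 3 three_ne_zero' dedekindEtaUnit * expand 3 three_ne_zero' jNum =
    E4_3 ^ 3 := by
  rw [mul_comm, expand_jNum_eq, E4_3]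

/-- `j(q⁹) (y³ - 27) = y³ (y³ - 24)³` in power series form (`y = q⁻¹ u`). -/
theorem jNum9_u9 : expand 9 nine_ne_zero' jNum * (u9 ^ 3 - C 27 * X ^ 3) =
    u9 ^ 3 * (u9 ^ 3 - C 24 * X ^ 3) ^ 3 := by
  have h := G9_eq_zero
  rw [G9, sub_eq_zero, P_eq, Q_eq, Delta9_eq] at h
  have hj := eta9_mul_jNum
  have hne : expand 9 nine_ne_zero' dedekindEtaUnit * (X ^ 9 * Q1 ^ 4) ≠ 0 :=
    mul_ne_zero (unit_ne_zero (constantCoeff_expand_eta 9 nine_ne_zero'))
      (mul_ne_zero (pow_ne_zero _ X_ne_zero) (pow_ne_zero _ (unit_ne_zero constantCoeff_Q1)))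
  apply mul_left_cancel₀ hne
  linear_combination h + (X ^ 9 * Q1 ^ 4 * (u9 ^ 3 - C 27 * X ^ 3)) * hj

/-- `j(q³) (y³ - 27)³ = y³ (y³ + 216)³` in power series form. -/
theorem jNum3_u9 : expand 3 three_ne_zero' jNum * (u9 ^ 3 - C 27 * X ^ 3) ^ 3 =
    u9 ^ 3 * (u9 ^ 3 + C 216 * X ^ 3) ^ 3 := by
  have h := G3_eq_zero
  rw [G3, sub_eq_zero, P_eq, Q_eq, Delta3_eq] at h
  have hj := eta3_mul_jNum
  have hne : expand 3 three_ne_zero' dedekindEtaUnit * (X ^ 3 * Q1 ^ 4) ≠ 0 :=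
    mul_ne_zero (unit_ne_zero (constantCoeff_expand_eta 3 three_ne_zero'))
      (mul_ne_zero (pow_ne_zero _ X_ne_zero) (pow_ne_zero _ (unit_ne_zero constantCoeff_Q1)))
  apply mul_left_cancel₀ hne
  linear_combination h + (X ^ 3 * Q1 ^ 4 * (u9 ^ 3 - C 27 * X ^ 3) ^ 3) * hj

/-- `j(q) (y - 3)⁸ (y³ - 27) = (y + 6)³ (y³ + 234 y² + 756 y + 2160)³` in power series form. -/
theorem jNum_u9 : jNum * ((u9 - C 3 * X) ^ 8 * (u9 ^ 3 - C 27 * X ^ 3)) =
    (u9 + C 6 * X) ^ 3 *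
      (u9 ^ 3 + C 234 * X * u9 ^ 2 + C 756 * X ^ 2 * u9 + C 2160 * X ^ 3) ^ 3 := by
  have h := G1_eq_zero
  rw [G1, sub_eq_zero, ← u9_mul_g1, g9_eq, DeltaS] at h
  have hj := L4.eta_mul_jNum
  have hne : dedekindEtaUnit * (X * g1 ^ 12) ≠ 0 :=
    mul_ne_zero (unit_ne_zero constantCoeff_dedekindEtaUnit)
      (mul_ne_zero X_ne_zero (pow_ne_zero _ (unit_ne_zero constantCoeff_g1)))
  apply mul_left_cancel₀ hne
  linear_combination h +
    (X * g1 ^ 12 * ((u9 - C 3 * X) ^ 8 * (u9 ^ 3 - C 27 * X ^ 3))) * hj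

end L9

/-! ### Laurent series forms -/

theorem qInv_cube_mul_cubic (u : PowerSeries ℤ) (a b c : ℤ) :
    qInv ^ 3 * ι (u ^ 3 + C a * X * u ^ 2 + C b * X ^ 2 * u + C c * X ^ 3) =
      (qInv * ι u) ^ 3 + HahnSeries.C a * (qInv * ι u) ^ 2 + HahnSeries.C b * (qInv * ι u) +
        HahnSeries.C c := by
  have hX := qInv_mul_X
  simp only [map_add, map_mul, map_pow, HahnSeries.ofPowerSeries_C]
  linear_combination (HahnSeries.C a * qInv ^ 2 * ι u ^ 2 +
    HahnSeries.C b * qInv * ι u * (qInv * ι X + 1) +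
    HahnSeries.C c * ((qInv * ι X) ^ 2 + qInv * ι X + 1)) * hX

theorem qInv_cube_mul_sub (u : PowerSeries ℤ) (c : ℤ) :
    qInv ^ 3 * ι (u ^ 3 - C c * X ^ 3) = (qInv * ι u) ^ 3 - HahnSeries.C c := by
  have hX := qInv_mul_X
  simp only [map_sub, map_mul, map_pow, HahnSeries.ofPowerSeries_C]
  linear_combination (-(HahnSeries.C c * ((qInv * ι X) ^ 2 + qInv * ι X + 1))) * hX

theorem qInv_cube_mul_add (u : PowerSeries ℤ) (c : ℤ) :
    qInv ^ 3 * ι (u ^ 3 + C c * X ^ 3) = (qInv * ι u) ^ 3 + HahnSeries.C c := by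
  have hX := qInv_mul_X
  simp only [map_add, map_mul, map_pow, HahnSeries.ofPowerSeries_C]
  linear_combination (HahnSeries.C c * ((qInv * ι X) ^ 2 + qInv * ι X + 1)) * hX

namespace L9

/-- The Hauptmodul `y₉ = q⁻¹ + 5 q² - 7 q⁵ + ⋯` of `X₀(9)`. -/
noncomputable def y9 : LaurentSeries ℤ := qInv * ι u9

/-- `j(q⁹) (y³ - 27) = y³ (y³ - 24)³`. -/
theorem jq9_y9 : qExpand ℤ 9 (jqModC ℤ) * (y9 ^ 3 - HahnSeries.C 27) =
    y9 ^ 3 * (y9 ^ 3 - HahnSeries.C 24) ^ 3 := by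
  have h := congrArg (fun w => qInv ^ 12 * ι w) jNum9_u9
  simp only [map_mul, map_pow] at h
  rw [y9, ← qInv_cube_mul_sub, ← qInv_cube_mul_sub, qExpand_jqModC_int]
  linear_combination h

/-- `j(q³) (y³ - 27)³ = y³ (y³ + 216)³`. -/
theorem jq3_y9 : qExpand ℤ 3 (jqModC ℤ) * (y9 ^ 3 - HahnSeries.C 27) ^ 3 =
    y9 ^ 3 * (y9 ^ 3 + HahnSeries.C 216) ^ 3 := by
  have h := congrArg (fun w => qInv ^ 12 * ι w) jNum3_u9
  simp only [map_mul, map_pow] at h
  rw [y9, ← qInv_cube_mul_sub, ← qInv_cube_mul_add, qExpand_jqModC_int]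
  linear_combination h

/-- `j(q) (y - 3)⁸ (y³ - 27) = (y + 6)³ (y³ + 234 y² + 756 y + 2160)³`. -/
theorem jq_y9 : jqModC ℤ * ((y9 - HahnSeries.C 3) ^ 8 * (y9 ^ 3 - HahnSeries.C 27)) =
    (y9 + HahnSeries.C 6) ^ 3 *
      (y9 ^ 3 + HahnSeries.C 234 * y9 ^ 2 + HahnSeries.C 756 * y9 + HahnSeries.C 2160) ^ 3 := by
  have h := congrArg (fun w => qInv ^ 12 * ι w) jNum_u9
  simp only [map_mul, map_pow] at h
  rw [y9, ← qInv_mul_sub, ← qInv_cube_mul_sub, ← qInv_mul_add, ← qInv_cube_mul_cubic, jqModC_int]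
  linear_combination h

end L9

end Fermat.Agent.Gateway.AuxLevel
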