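/-
The formal weight two form `G = q dt/dq` of a Hauptmodul `t = q⁻¹ (1 + O(q))` has lowest
coefficient `-1` (P-GATEWAY, auxiliary level package; input `hu` of `GoodRed.Forms.exists_forms`).
-/
import Mathlib
import Fermat.Agent.Gateway.AuxLevel.Level9Haupt
import Fermat.Agent.Lib.Residue.Basic

set_option autoImplicit false

namespace Fermat.Agent.Gateway.AuxLevel

open PowerSeries
open Fermat.Agent.S28.H2 (qInv)

namespace LeadCoeff

/-- Coefficients of `q⁻¹ u`. -/
theorem coeff_qInv_mul (u : PowerSeries ℤ) (m : ℤ) :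
    (qInv * ι u).coeff m = (ι u).coeff (m + 1) := by
  rw [qInv, Fermat.Agent.Lib.Residue.coeff_single_mul', one_mul, sub_neg_eq_add]

/-- Coefficients of `q d/dq (q⁻¹ u)`. -/
theorem coeff_q_D (u : PowerSeries ℤ) (m : ℤ) :
    (HahnSeries.single (1 : ℤ) (1 : ℤ) * Fermat.Agent.Lib.Residue.D (qInv * ι u)).coeff m =
      m * (ι u).coeff (m + 1) := by
  rw [Fermat.Agent.Lib.Residue.coeff_single_mul', one_mul, Fermat.Agent.Lib.Residue.D_coeff,
    sub_add_cancel, coeff_qInv_mul, Int.cast_id]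

theorem coeff_q_D_of_lt (u : PowerSeries ℤ) {m : ℤ} (hm : m < -1) :
    (HahnSeries.single (1 : ℤ) (1 : ℤ) * Fermat.Agent.Lib.Residue.D (qInv * ι u)).coeff m = 0 := by
  rw [coeff_q_D]
  have h : (ι u).coeff (m + 1) = 0 := by
    change ((u : PowerSeries ℤ) : LaurentSeries ℤ).coeff (m + 1) = 0
    rw [PowerSeries.coeff_coe, if_pos (by omega)]
  rw [h, mul_zero]

theorem coeff_q_D_neg_one (u : PowerSeries ℤ) (hu : constantCoeff u = 1) :
    (HahnSeries.single (1 : ℤ) (1 : ℤ) * Fermat.Agent.Lib.Residue.D (qInv * ι u)).coeff (-1) =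
      -1 := by
  rw [coeff_q_D]
  have h : (ι u).coeff (-1 + 1) = 1 := by
    change ((u : PowerSeries ℤ) : LaurentSeries ℤ).coeff (-1 + 1) = 1
    rw [PowerSeries.coeff_coe, if_neg (by omega)]
    simpa using hu
  rw [h, mul_one]

/-- The lowest coefficient of `q d/dq (q⁻¹ u)` is `-1` when `u = 1 + O(q)`. -/
theorem leadingCoeff_q_D (u : PowerSeries ℤ) (hu : constantCoeff u = 1) :
    (HahnSeries.single (1 : ℤ) (1 : ℤ) *
      Fermat.Agent.Lib.Residue.D (qInv * ι u)).leadingCoeff = -1 := by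
  set G : LaurentSeries ℤ :=
    HahnSeries.single (1 : ℤ) (1 : ℤ) * Fermat.Agent.Lib.Residue.D (qInv * ι u) with hG
  have h1 : G.coeff (-1) = -1 := coeff_q_D_neg_one u hu
  have hne : G ≠ 0 := by
    intro h0
    rw [h0, HahnSeries.coeff_zero] at h1
    exact absurd h1 (by norm_num)
  have hle : G.order ≤ -1 := HahnSeries.order_le_of_coeff_ne_zero (by rw [h1]; norm_num)
  have hge : -1 ≤ G.order := by
    by_contra hlt
    rw [not_le] at hlt
    exact HahnSeries.coeff_order_eq_zero.not.mpr hne (coeff_q_D_of_lt u hlt)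
  rw [HahnSeries.leadingCoeff_eq, le_antisymm hle hge, h1]

theorem isUnit_leadingCoeff_q_D (u : PowerSeries ℤ) (hu : constantCoeff u = 1) :
    IsUnit (HahnSeries.single (1 : ℤ) (1 : ℤ) *
      Fermat.Agent.Lib.Residue.D (qInv * ι u)).leadingCoeff := by
  rw [leadingCoeff_q_D u hu]
  exact isUnit_one.neg

end LeadCoeff

/-- Input `hu` of `GoodRed.Forms.exists_forms` for the Hauptmodul `x4` of `X₀(4)`. -/
theorem L4.isUnit_leadingCoeff_x4 :
    IsUnit (HahnSeries.single (1 : ℤ) (1 : ℤ) *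
      Fermat.Agent.Lib.Residue.D L4.x4).leadingCoeff :=
  LeadCoeff.isUnit_leadingCoeff_q_D L4.u4 L4.constantCoeff_u4

theorem L4.leadingCoeff_x4 :
    (HahnSeries.single (1 : ℤ) (1 : ℤ) * Fermat.Agent.Lib.Residue.D L4.x4).leadingCoeff = -1 :=
  LeadCoeff.leadingCoeff_q_D L4.u4 L4.constantCoeff_u4

/-- Input `hu` of `GoodRed.Forms.exists_forms` for the Hauptmodul `y9` of `X₀(9)`. -/
theorem L9.isUnit_leadingCoeff_y9 :
    IsUnit (HahnSeries.single (1 : ℤ) (1 : ℤ) *
      Fermat.Agent.Lib.Residue.D L9.y9).leadingCoeff :=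
  LeadCoeff.isUnit_leadingCoeff_q_D L9.u9 L9.constantCoeff_u9

theorem L9.leadingCoeff_y9 :
    (HahnSeries.single (1 : ℤ) (1 : ℤ) * Fermat.Agent.Lib.Residue.D L9.y9).leadingCoeff = -1 :=
  LeadCoeff.leadingCoeff_q_D L9.u9 L9.constantCoeff_u9

end Fermat.Agent.Gateway.AuxLevel
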