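/-
The Hauptmoduln `x₄`, `y₉`, `z₉ = y₉ - 3` as elements of the level-`N` function field
`FBar L N = laurentBaseChange L (modularFunctionFieldFull N)` (`= HK1.FL L N` as a type) over an
arbitrary algebraically closed field `L` of characteristic zero (P-GATEWAY, auxiliary level
package; consumer: P-S34 WP3-inst).  Deduced from `MembershipFk` through
`GoodRed.FBar_eq_fullC`.
-/
import Mathlib
import Fermat.Agent.Gateway.AuxLevel.IntegralHaupt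
import Fermat.Agent.Gateway.GoodRed.ConjFamily.FBarEq
import Fermat.Agent.Gateway.HK1.Modular

set_option autoImplicit false

open ModularCurve
open Fermat.Agent.Gateway.GoodRed (FBar mem_FBar_iff_mem_fullC)
open Fermat.Agent.Gateway.GoodRed.ConjFamily (Fk jFk jdFk)

namespace Fermat.Agent.Gateway.AuxLevel

section

variable (L : Type) [Field L] [Algebra ℚ L] [IsAlgClosed L] {N : ℕ} [NeZero N]

omit [IsAlgClosed L] in
theorem natCast_ne_zero_of_algebraRat : ((N : ℕ) : L) ≠ 0 := by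
  have : CharZero L := algebraRat.charZero L
  exact Nat.cast_ne_zero.mpr (NeZero.ne N)

omit [IsAlgClosed L] in
theorem ofNat_ne_zero_of_algebraRat (n : ℕ) [n.AtLeastTwo] : (OfNat.ofNat n : L) ≠ 0 := by
  have : CharZero L := algebraRat.charZero L
  exact OfNat.ofNat_ne_zero n

omit [IsAlgClosed L] in
theorem coe_genF {d : ℕ} [NeZero d] (hd : d ∣ N) :
    ((HK1.genF L N hd : HK1.FL L N) : LaurentSeries L) = qExpand L d (jqModC L) := by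
  show Fermat.Agent.S28.Conjugates.expd d (jqModC L) = _
  rw [Fermat.Agent.S28.Conjugates.expd_eq]

omit [IsAlgClosed L] in
theorem coe_jL : ((HK1.jL L N : HK1.FL L N) : LaurentSeries L) = jqModC L := rfl

namespace L4

/-- `x₄ ∈ FBar L N` for `4 ∣ N`. -/
theorem x4k_mem_FBar (h4 : 4 ∣ N) : x4k L ∈ FBar L N :=
  mem_FBar_iff_mem_fullC.mpr (x4k_mem h4 (natCast_ne_zero_of_algebraRat L))

/-- the Hauptmodul `x₄` as an element of `HK1.FL L N = ↥(FBar L N)`. -/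
noncomputable def tFL (h4 : 4 ∣ N) : HK1.FL L N := ⟨x4k L, x4k_mem_FBar L h4⟩

theorem coe_tFL (h4 : 4 ∣ N) : ((tFL L h4 : HK1.FL L N) : LaurentSeries L) = x4k L := rfl

theorem tFL_ne_zero (h4 : 4 ∣ N) : tFL L h4 ≠ 0 := by
  intro h
  exact x4k_ne_zero L (by rw [← coe_tFL L h4, h]; rfl)

theorem tFL_sub_ne_zero (h4 : 4 ∣ N) : tFL L h4 - 16 ≠ 0 := by
  intro h
  apply x4k_sub_ne_zero L
  have := congrArg (fun f : HK1.FL L N => (f : LaurentSeries L)) h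
  push_cast at this
  exact this

/-- the relations between `j`, `j(q²)`, `j(q⁴)` and `x₄` in `HK1.FL L N`. -/
theorem jq_tFL (h4 : 4 ∣ N) : HK1.jL L N * (tFL L h4 * (tFL L h4 - 16) ^ 4) =
    (tFL L h4 ^ 2 + 224 * tFL L h4 + 256) ^ 3 := by
  apply Subtype.ext
  push_cast
  exact jq_x4k L

theorem jq2_tFL (h4 : 4 ∣ N) : HK1.genF L N (two_dvd_of_four_dvd h4) *
    (tFL L h4 ^ 2 * (tFL L h4 - 16) ^ 2) = (tFL L h4 ^ 2 - 16 * tFL L h4 + 256) ^ 3 := by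
  apply Subtype.ext
  push_cast
  rw [coe_genF]
  exact jq2_x4k L

theorem jq4_tFL (h4 : 4 ∣ N) : HK1.genF L N h4 * (tFL L h4 * (tFL L h4 - 16)) =
    (tFL L h4 ^ 2 - 16 * tFL L h4 + 16) ^ 3 := by
  apply Subtype.ext
  push_cast
  rw [coe_genF]
  exact jq4_x4k L

/-- `x₄`, `x₄⁻¹`, `x₄ - 16`, `(x₄ - 16)⁻¹` are integral over `L[j]` in `HK1.FL L N`. -/
theorem isIntegral_tFL (h4 : 4 ∣ N) : IsIntegral (Algebra.adjoin L {HK1.jL L N}) (tFL L h4) :=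
  isIntegral_of_jq (jq_tFL L h4)

theorem isIntegral_tFL_inv (h4 : 4 ∣ N) :
    IsIntegral (Algebra.adjoin L {HK1.jL L N}) (tFL L h4)⁻¹ :=
  isIntegral_inv_of_jq (ofNat_ne_zero_of_algebraRat L 2).isUnit
    (mul_inv_cancel₀ (tFL_ne_zero L h4)) (jq_tFL L h4)

theorem isIntegral_tFL_sub (h4 : 4 ∣ N) :
    IsIntegral (Algebra.adjoin L {HK1.jL L N}) (tFL L h4 - 16) :=
  isIntegral_sub_of_jq (jq_tFL L h4)

theorem isIntegral_tFL_sub_inv (h4 : 4 ∣ N) :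
    IsIntegral (Algebra.adjoin L {HK1.jL L N}) (tFL L h4 - 16)⁻¹ :=
  isIntegral_sub_inv_of_jq (ofNat_ne_zero_of_algebraRat L 2).isUnit
    (mul_inv_cancel₀ (tFL_sub_ne_zero L h4)) (jq_tFL L h4)

end L4

namespace L9

/-- `y₉ ∈ FBar L N` for `9 ∣ N`. -/
theorem y9k_mem_FBar (h9 : 9 ∣ N) : y9k L ∈ FBar L N :=
  mem_FBar_iff_mem_fullC.mpr (y9k_mem h9 (natCast_ne_zero_of_algebraRat L))

/-- `z₉ = y₉ - 3 ∈ FBar L N` for `9 ∣ N`. -/
theorem z9k_mem_FBar (h9 : 9 ∣ N) : z9k L ∈ FBar L N :=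
  mem_FBar_iff_mem_fullC.mpr (z9k_mem h9 (natCast_ne_zero_of_algebraRat L))

/-- the shifted Hauptmodul `z₉` as an element of `HK1.FL L N = ↥(FBar L N)`. -/
noncomputable def zFL (h9 : 9 ∣ N) : HK1.FL L N := ⟨z9k L, z9k_mem_FBar L h9⟩

theorem coe_zFL (h9 : 9 ∣ N) : ((zFL L h9 : HK1.FL L N) : LaurentSeries L) = z9k L := rfl

theorem zFL_ne_zero (h9 : 9 ∣ N) : zFL L h9 ≠ 0 := by
  intro h
  exact z9k_ne_zero L (by rw [← coe_zFL L h9, h]; rfl)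

theorem zFL_quad_ne_zero (h9 : 9 ∣ N) : zFL L h9 ^ 2 + 9 * zFL L h9 + 27 ≠ 0 := by
  intro h
  apply z9k_quad_ne_zero L
  have := congrArg (fun f : HK1.FL L N => (f : LaurentSeries L)) h
  push_cast at this
  exact this

/-- the relations between `j`, `j(q³)`, `j(q⁹)` and `z₉` in `HK1.FL L N`. -/
theorem jq_zFL (h9 : 9 ∣ N) :
    HK1.jL L N * (zFL L h9 ^ 9 * (zFL L h9 ^ 2 + 9 * zFL L h9 + 27)) =
    (zFL L h9 + 9) ^ 3 * (zFL L h9 ^ 3 + 243 * zFL L h9 ^ 2 + 2187 * zFL L h9 + 6561) ^ 3 := by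
  apply Subtype.ext
  push_cast
  exact jq_z9k L

theorem jq3_zFL (h9 : 9 ∣ N) : HK1.genF L N (three_dvd_of_nine_dvd h9) *
    (zFL L h9 ^ 3 * (zFL L h9 ^ 2 + 9 * zFL L h9 + 27) ^ 3) =
    (zFL L h9 + 3) ^ 3 * (zFL L h9 ^ 3 + 9 * zFL L h9 ^ 2 + 27 * zFL L h9 + 243) ^ 3 := by
  apply Subtype.ext
  push_cast
  rw [coe_genF]
  exact jq3_z9k L

theorem jq9_zFL (h9 : 9 ∣ N) : HK1.genF L N h9 *
    (zFL L h9 * (zFL L h9 ^ 2 + 9 * zFL L h9 + 27)) =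
    (zFL L h9 + 3) ^ 3 * (zFL L h9 ^ 3 + 9 * zFL L h9 ^ 2 + 27 * zFL L h9 + 3) ^ 3 := by
  apply Subtype.ext
  push_cast
  rw [coe_genF]
  exact jq9_z9k L

/-- `z₉`, `z₉⁻¹`, `(z₉² + 9 z₉ + 27)⁻¹` are integral over `L[j]` in `HK1.FL L N`. -/
theorem isIntegral_zFL (h9 : 9 ∣ N) : IsIntegral (Algebra.adjoin L {HK1.jL L N}) (zFL L h9) :=
  isIntegral_of_jq (jq_zFL L h9)

theorem isIntegral_zFL_inv (h9 : 9 ∣ N) :
    IsIntegral (Algebra.adjoin L {HK1.jL L N}) (zFL L h9)⁻¹ :=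
  isIntegral_inv_of_jq (ofNat_ne_zero_of_algebraRat L 3).isUnit
    (mul_inv_cancel₀ (zFL_ne_zero L h9)) (jq_zFL L h9)

theorem isIntegral_zFL_quad_inv (h9 : 9 ∣ N) :
    IsIntegral (Algebra.adjoin L {HK1.jL L N}) (zFL L h9 ^ 2 + 9 * zFL L h9 + 27)⁻¹ :=
  isIntegral_quad_inv_of_jq (ofNat_ne_zero_of_algebraRat L 3).isUnit
    (mul_inv_cancel₀ (zFL_quad_ne_zero L h9)) (jq_zFL L h9)

end L9

end

end Fermat.Agent.Gateway.AuxLevel
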