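/-
The Hauptmoduln `x₄`, `y₉`, reduced to an algebraically closed field `k` in which the level is
invertible, lie in the function fields `Fk k N = modularFunctionFieldFullC k N` (`4 ∣ N` resp.
`9 ∣ N`): same degree count as in `Membership.lean`, with the degree `[Fk : k(j)] = ψ(N)` in all
characteristics prime to `N` from `GoodRed/ConjFamily` (P-GATEWAY, auxiliary level package).
-/
import Mathlib
import Fermat.Agent.Gateway.GoodRed.ConjFamily.Degree
import Fermat.Agent.Gateway.AuxLevel.Level9Cusps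

set_option autoImplicit false

open ModularCurve IntermediateField Polynomial
open Fermat.Agent.Gateway.GoodRed.ConjFamily (Fk jFk finrank_Fk_eq_dedekindPsi)

namespace Fermat.Agent.Gateway.AuxLevel

/-! ### Non-vanishing over an arbitrary nontrivial ring -/

section NonVanishing

variable (R : Type*) [CommRing R]

theorem coeffMap_ι (u : PowerSeries ℤ) :
    coeffMap (Int.castRingHom R) (ι u) = ιR R (u.map (Int.castRingHom R)) :=
  coeffMap_ofPowerSeries _ _

/-- `q⁻ᵏ u` with `u(0) = 1` stays nonzero over any nontrivial ring. -/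
theorem coeffMap_qInv_pow_mul_ne_zero [Nontrivial R] (n : ℕ) {u : PowerSeries ℤ}
    (hu : PowerSeries.constantCoeff u = 1) :
    coeffMap (Int.castRingHom R) (Fermat.Agent.S28.H2.qInv ^ n * ι u) ≠ 0 := by
  intro h
  rw [map_mul, map_pow, coeffMap_qInv, coeffMap_ι] at h
  have h2 := congrArg (fun w => (ιR R PowerSeries.X) ^ n * w) h
  simp only [mul_zero] at h2
  rw [← mul_assoc, ← mul_pow, mul_comm (ιR R PowerSeries.X), qInvR_mul_X, one_pow, one_mul] at h2
  have h3 : u.map (Int.castRingHom R) = 0 := by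
    apply HahnSeries.ofPowerSeries_injective (Γ := ℤ) (R := R)
    rw [map_zero]; exact h2
  have h4 := congrArg PowerSeries.constantCoeff h3
  rw [← PowerSeries.coeff_zero_eq_constantCoeff_apply, PowerSeries.coeff_map,
    PowerSeries.coeff_zero_eq_constantCoeff_apply, hu, map_one, map_zero] at h4
  exact one_ne_zero h4

end NonVanishing

/-! ### The criterion over a general field -/

section Criterion

variable {k : Type} [Field k] (N : ℕ)

set_option synthInstance.maxHeartbeats 400000 in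
set_option maxHeartbeats 1000000 in
/-- **Membership criterion** over a field `k`: if `[Fk : k(j)] = n`, `j · Q(x) = P(x)` with
`deg Q < deg P ≤ n`, and all the generators `j(q^d)`, `d ∣ N`, lie in `k(x)`, then `x ∈ Fk`. -/
theorem mem_Fk_of_relation (n : ℕ) (hfr : Module.finrank k⟮jFk k N⟯ (Fk k N) = n)
    (x : LaurentSeries k) (P Q : k[X])
    (hPQ : Q.natDegree < P.natDegree) (hP : P.natDegree ≤ n)
    (hj : jqModC k * aeval x Q = aeval x P)
    (hgens : ∀ (d : ℕ) [NeZero d], d ∣ N → qExpand k d (jqModC k) ∈ k⟮x⟯) :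
    x ∈ Fk k N := by
  set E := k⟮jFk k N⟯ with hE
  let jE : E := ⟨jFk k N, mem_adjoin_simple_self k (jFk k N)⟩
  let p : E[X] := P.map (algebraMap k E) - C jE * Q.map (algebraMap k E)
  have hinj : Function.Injective (algebraMap k E) := (algebraMap k E).injective
  have hdQ : (C jE * Q.map (algebraMap k E)).natDegree < P.natDegree :=
    lt_of_le_of_lt (natDegree_C_mul_le _ _) (by rwa [natDegree_map_eq_of_injective hinj])
  have hp_deg : p.natDegree = P.natDegree := by
    rw [natDegree_sub_eq_left_of_natDegree_lt, natDegree_map_eq_of_injective hinj]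
    rwa [natDegree_map_eq_of_injective hinj]
  have hp_ne : p ≠ 0 := by
    intro h0
    rw [h0, natDegree_zero] at hp_deg
    omega
  have hp_root : aeval x p = 0 := by
    have h1 : aeval x (P.map (algebraMap k E)) = aeval x P := aeval_map_algebraMap _ _ _
    have h2 : aeval x (Q.map (algebraMap k E)) = aeval x Q := aeval_map_algebraMap _ _ _
    have h3 : aeval x (C jE) = jqModC k := by
      rw [aeval_C]; rfl
    rw [map_sub, map_mul, h1, h2, h3, hj, sub_self]
  have hint : IsIntegral E x := IsAlgebraic.isIntegral ⟨p, hp_ne, hp_root⟩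
  have hfin : Module.finrank E E⟮x⟯ ≤ n := by
    rw [adjoin.finrank hint]
    exact le_trans (natDegree_le_natDegree (minpoly.degree_le_of_ne_zero E x hp_ne hp_root))
      (hp_deg ▸ hP)
  have : FiniteDimensional E E⟮x⟯ := adjoin.finiteDimensional hint
  have hst := IsScalarTower.of_algebraMap_eq (R := k) (S := E) (A := LaurentSeries k)
    (fun _ => rfl)
  have h1 : k⟮x⟯ ≤ (E⟮x⟯).restrictScalars k := by
    rw [adjoin_le_iff]
    rintro y hy
    rw [Set.mem_singleton_iff] at hy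
    rw [hy]
    exact mem_adjoin_simple_self E x
  have h2 : Fk k N ≤ k⟮x⟯ := by
    rw [Fk, modularFunctionFieldFullC, adjoin_le_iff]
    rintro y ⟨d, hd0, hd, rfl⟩
    exact hgens d hd
  have hsub : ∀ f : Fk k N, ((f : Fk k N) : LaurentSeries k) ∈ E⟮x⟯ := fun f => h1 (h2 f.2)
  let φ : Fk k N →ₗ[E] LaurentSeries k :=
    (IsScalarTower.toAlgHom E (Fk k N) (LaurentSeries k)).toLinearMap
  have hφ_inj : Function.Injective φ := fun a b hab => Subtype.ext hab
  have hR : Module.finrank E (LinearMap.range φ) = n := by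
    rw [LinearMap.finrank_range_of_inj hφ_inj, hfr]
  have hle : LinearMap.range φ ≤ (E⟮x⟯).toSubalgebra.toSubmodule := by
    rintro y ⟨f, rfl⟩
    exact hsub f
  have heq := Submodule.eq_of_le_of_finrank_le hle (by rw [hR]; exact hfin)
  have hx : x ∈ LinearMap.range φ := by
    rw [heq]; exact mem_adjoin_simple_self E x
  obtain ⟨f, hf⟩ := hx
  rw [← hf]
  exact f.2

/-- The function fields are monotone in the level. -/
theorem Fk_mono {M : ℕ} (h : N ∣ M) : Fk k N ≤ Fk k M := by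
  rw [Fk, modularFunctionFieldFullC, adjoin_le_iff]
  rintro y ⟨d, hd0, hd, rfl⟩
  exact jqModCd_mem_full k M (hd.trans h)

/-- A quotient `n/d` of elements of `k(x)` satisfying `g · d = n`, `d ≠ 0`, lies in `k(x)`. -/
theorem mem_adjoin_of_mul_eq' {x g n d : LaurentSeries k} (hn : n ∈ k⟮x⟯) (hd : d ∈ k⟮x⟯)
    (hd0 : d ≠ 0) (h : g * d = n) : g ∈ k⟮x⟯ := by
  have : g = n / d := by rw [eq_div_iff hd0, h]
  rw [this]
  exact div_mem hn hd

theorem ofNat_mem_adjoin' (x : LaurentSeries k) (n : ℕ) [n.AtLeastTwo] :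
    (OfNat.ofNat n : LaurentSeries k) ∈ k⟮x⟯ := by
  rw [← map_ofNat (algebraMap k (LaurentSeries k)) n]
  exact IntermediateField.algebraMap_mem _ _

end Criterion

/-! ### Level 4 -/

namespace L4

variable (k : Type) [Field k]

/-- The Hauptmodul `x₄` with coefficients in `k` (`= GoodRed.TLine4.x4k k`). -/
noncomputable def x4k : LaurentSeries k := coeffMap (Int.castRingHom k) x4

theorem jq_x4k : jqModC k * (x4k k * (x4k k - 16) ^ 4) = (x4k k ^ 2 + 224 * x4k k + 256) ^ 3 := by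
  have h := congrArg (coeffMap (Int.castRingHom k)) jq_x4'
  simpa only [map_mul, map_pow, map_sub, map_add, map_ofNat, coeffMap_jqModC, x4k] using h

theorem jq2_x4k : qExpand k 2 (jqModC k) * (x4k k ^ 2 * (x4k k - 16) ^ 2) =
    (x4k k ^ 2 - 16 * x4k k + 256) ^ 3 := by
  have h := congrArg (coeffMap (Int.castRingHom k)) jq2_x4'
  simpa only [map_mul, map_pow, map_sub, map_add, map_ofNat, coeffMap_jqModC, coeffMap_qExpand,
    x4k] using h

theorem jq4_x4k : qExpand k 4 (jqModC k) * (x4k k * (x4k k - 16)) =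
    (x4k k ^ 2 - 16 * x4k k + 16) ^ 3 := by
  have h := congrArg (coeffMap (Int.castRingHom k)) jq4_x4'
  simpa only [map_mul, map_pow, map_sub, map_add, map_ofNat, coeffMap_jqModC, coeffMap_qExpand,
    x4k] using h

theorem x4k_ne_zero : x4k k ≠ 0 := by
  have h := coeffMap_qInv_pow_mul_ne_zero k 1 constantCoeff_u4
  rwa [pow_one] at h

theorem x4k_sub_ne_zero : x4k k - 16 ≠ 0 := by
  have h := coeffMap_qInv_pow_mul_ne_zero k 1 constantCoeff_u4_sub
  rwa [pow_one, ← x4_sub_eq, map_sub, map_ofNat] at h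

/-- The numerator of `j` as a function of `x₄`. -/
noncomputable def P4k : k[X] := (X ^ 2 + C 224 * X + C 256) ^ 3

/-- The denominator of `j` as a function of `x₄` (the cusp polynomial). -/
noncomputable def Q4k : k[X] := X * (X - C 16) ^ 4

theorem natDegree_P4k : (P4k k).natDegree = 6 := by
  rw [P4k]; compute_degree!

theorem natDegree_Q4k_le : (Q4k k).natDegree ≤ 5 := by
  rw [Q4k]; compute_degree

theorem aeval_P4k (x : LaurentSeries k) : aeval x (P4k k) = (x ^ 2 + 224 * x + 256) ^ 3 := by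
  have h1 : (algebraMap k (LaurentSeries k)) 224 = 224 := map_ofNat _ 224
  have h2 : (algebraMap k (LaurentSeries k)) 256 = 256 := map_ofNat _ 256
  simp only [P4k, map_pow, map_add, map_mul, aeval_X, aeval_C, h1, h2]

theorem aeval_Q4k (x : LaurentSeries k) : aeval x (Q4k k) = x * (x - 16) ^ 4 := by
  have h1 : (algebraMap k (LaurentSeries k)) 16 = 16 := map_ofNat _ 16
  simp only [Q4k, map_pow, map_sub, map_mul, aeval_X, aeval_C, h1]

theorem gens_x4k (d : ℕ) [NeZero d] (hd : d ∣ 4) : qExpand k d (jqModC k) ∈ k⟮x4k k⟯ := by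
  have hx : x4k k ∈ k⟮x4k k⟯ := mem_adjoin_simple_self k (x4k k)
  have h16 := ofNat_mem_adjoin' (x4k k) 16
  have h224 := ofNat_mem_adjoin' (x4k k) 224
  have h256 := ofNat_mem_adjoin' (x4k k) 256
  have hd' : d ∈ Nat.divisors 4 := Nat.mem_divisors.mpr ⟨hd, by norm_num⟩
  have hdiv : Nat.divisors 4 = {1, 2, 4} := by decide
  rw [hdiv] at hd'
  simp only [Finset.mem_insert, Finset.mem_singleton] at hd'
  rcases hd' with rfl | rfl | rfl
  · rw [qExpand_one_apply]
    exact mem_adjoin_of_mul_eq'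
      (pow_mem (add_mem (add_mem (pow_mem hx 2) (mul_mem h224 hx)) h256) 3)
      (mul_mem hx (pow_mem (sub_mem hx h16) 4))
      (mul_ne_zero (x4k_ne_zero k) (pow_ne_zero _ (x4k_sub_ne_zero k))) (jq_x4k k)
  · exact mem_adjoin_of_mul_eq'
      (pow_mem (add_mem (sub_mem (pow_mem hx 2) (mul_mem h16 hx)) h256) 3)
      (mul_mem (pow_mem hx 2) (pow_mem (sub_mem hx h16) 2))
      (mul_ne_zero (pow_ne_zero _ (x4k_ne_zero k)) (pow_ne_zero _ (x4k_sub_ne_zero k)))
      (jq2_x4k k)
  · exact mem_adjoin_of_mul_eq'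
      (pow_mem (add_mem (sub_mem (pow_mem hx 2) (mul_mem h16 hx)) h16) 3)
      (mul_mem hx (sub_mem hx h16))
      (mul_ne_zero (x4k_ne_zero k) (x4k_sub_ne_zero k)) (jq4_x4k k)

theorem rel_x4k : jqModC k * aeval (x4k k) (Q4k k) = aeval (x4k k) (P4k k) := by
  rw [aeval_P4k, aeval_Q4k, jq_x4k]

variable {k}
variable [IsAlgClosed k]

/-- **`x₄` lies in the function field of `X₀(4)` over `k`** (`2` invertible in `k`). -/
theorem x4k_mem_four (h4 : ((4 : ℕ) : k) ≠ 0) : x4k k ∈ Fk k 4 :=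
  mem_Fk_of_relation 4 6 (by rw [finrank_Fk_eq_dedekindPsi h4, dedekindPsi_four]) (x4k k) (P4k k)
    (Q4k k) (by rw [natDegree_P4k]; exact lt_of_le_of_lt (natDegree_Q4k_le k) (by norm_num))
    (by rw [natDegree_P4k]) (rel_x4k k) (fun d _ hd => gens_x4k k d hd)

/-- **`x₄ ∈ Fk k N` for `4 ∣ N`, `N` invertible in `k`.** -/
theorem x4k_mem {N : ℕ} (h4N : 4 ∣ N) (hNk : (N : k) ≠ 0) : x4k k ∈ Fk k N := by
  have h4 : ((4 : ℕ) : k) ≠ 0 := by
    obtain ⟨c, rfl⟩ := h4N
    intro h
    apply hNk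
    rw [Nat.cast_mul, h, zero_mul]
  exact Fk_mono 4 h4N (x4k_mem_four h4)

/-- The Hauptmodul as an element of `Fk k N`. -/
noncomputable def tFk {N : ℕ} (h4N : 4 ∣ N) (hNk : (N : k) ≠ 0) : Fk k N :=
  ⟨x4k k, x4k_mem h4N hNk⟩

theorem coe_tFk {N : ℕ} (h4N : 4 ∣ N) (hNk : (N : k) ≠ 0) :
    ((tFk h4N hNk : Fk k N) : LaurentSeries k) = x4k k := rfl

end L4

/-! ### Level 9 -/

namespace L9

variable (k : Type) [Field k]

/-- The Hauptmodul `y₉` with coefficients in `k` (`= y9R k`). -/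
noncomputable def y9k : LaurentSeries k := coeffMap (Int.castRingHom k) y9

theorem y9k_eq : y9k k = y9R k := rfl

theorem jq_y9k : jqModC k * ((y9k k - 3) ^ 8 * (y9k k ^ 3 - 27)) =
    (y9k k + 6) ^ 3 * (y9k k ^ 3 + 234 * y9k k ^ 2 + 756 * y9k k + 2160) ^ 3 :=
  jq_y9R k

theorem jq3_y9k : qExpand k 3 (jqModC k) * (y9k k ^ 3 - 27) ^ 3 =
    y9k k ^ 3 * (y9k k ^ 3 + 216) ^ 3 := by
  have h := congrArg (coeffMap (Int.castRingHom k)) jq3_y9'
  simpa only [map_mul, map_pow, map_sub, map_add, map_ofNat, coeffMap_jqModC, coeffMap_qExpand,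
    y9k] using h

theorem jq9_y9k : qExpand k 9 (jqModC k) * (y9k k ^ 3 - 27) =
    y9k k ^ 3 * (y9k k ^ 3 - 24) ^ 3 := by
  have h := congrArg (coeffMap (Int.castRingHom k)) jq9_y9'
  simpa only [map_mul, map_pow, map_sub, map_add, map_ofNat, coeffMap_jqModC, coeffMap_qExpand,
    y9k] using h

theorem y9k_sub_ne_zero : y9k k - 3 ≠ 0 := by
  have h := coeffMap_qInv_pow_mul_ne_zero k 1 constantCoeff_u9_sub
  rwa [pow_one, ← y9_sub_eq, map_sub, map_ofNat] at h

theorem y9k_cube_sub_ne_zero : y9k k ^ 3 - 27 ≠ 0 := by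
  have hc : PowerSeries.constantCoeff (u9 ^ 3 - PowerSeries.C 27 * PowerSeries.X ^ 3) = 1 := by
    rw [map_sub, map_pow, constantCoeff_u9, one_pow, map_mul, map_pow, PowerSeries.constantCoeff_X,
      zero_pow (by norm_num), mul_zero, sub_zero]
  have h := coeffMap_qInv_pow_mul_ne_zero k 3 hc
  have h2 := qInv_cube_mul_sub u9 27
  rw [C_ofNat_eq] at h2
  rwa [h2, ← y9, map_sub, map_pow, map_ofNat] at h

/-- The numerator of `j` as a function of `y₉`. -/
noncomputable def P9k : k[X] :=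
  (X + C 6) ^ 3 * (X ^ 3 + C 234 * X ^ 2 + C 756 * X + C 2160) ^ 3

/-- The denominator of `j` as a function of `y₉` (the cusp polynomial). -/
noncomputable def Q9k : k[X] := (X - C 3) ^ 8 * (X ^ 3 - C 27)

theorem natDegree_P9k : (P9k k).natDegree = 12 := by
  rw [P9k]; compute_degree!

theorem natDegree_Q9k_le : (Q9k k).natDegree ≤ 11 := by
  rw [Q9k]; compute_degree

theorem aeval_P9k (x : LaurentSeries k) :
    aeval x (P9k k) = (x + 6) ^ 3 * (x ^ 3 + 234 * x ^ 2 + 756 * x + 2160) ^ 3 := by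
  have h1 : (algebraMap k (LaurentSeries k)) 6 = 6 := map_ofNat _ 6
  have h2 : (algebraMap k (LaurentSeries k)) 234 = 234 := map_ofNat _ 234
  have h3 : (algebraMap k (LaurentSeries k)) 756 = 756 := map_ofNat _ 756
  have h4 : (algebraMap k (LaurentSeries k)) 2160 = 2160 := map_ofNat _ 2160
  simp only [P9k, map_pow, map_add, map_mul, aeval_X, aeval_C, h1, h2, h3, h4]

theorem aeval_Q9k (x : LaurentSeries k) : aeval x (Q9k k) = (x - 3) ^ 8 * (x ^ 3 - 27) := by
  have h1 : (algebraMap k (LaurentSeries k)) 3 = 3 := map_ofNat _ 3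
  have h2 : (algebraMap k (LaurentSeries k)) 27 = 27 := map_ofNat _ 27
  simp only [Q9k, map_pow, map_sub, map_mul, aeval_X, aeval_C, h1, h2]

theorem gens_y9k (d : ℕ) [NeZero d] (hd : d ∣ 9) : qExpand k d (jqModC k) ∈ k⟮y9k k⟯ := by
  have hx : y9k k ∈ k⟮y9k k⟯ := mem_adjoin_simple_self k (y9k k)
  have h3 := ofNat_mem_adjoin' (y9k k) 3
  have h6 := ofNat_mem_adjoin' (y9k k) 6
  have h24 := ofNat_mem_adjoin' (y9k k) 24
  have h27 := ofNat_mem_adjoin' (y9k k) 27
  have h216 := ofNat_mem_adjoin' (y9k k) 216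
  have h234 := ofNat_mem_adjoin' (y9k k) 234
  have h756 := ofNat_mem_adjoin' (y9k k) 756
  have h2160 := ofNat_mem_adjoin' (y9k k) 2160
  have hd' : d ∈ Nat.divisors 9 := Nat.mem_divisors.mpr ⟨hd, by norm_num⟩
  have hdiv : Nat.divisors 9 = {1, 3, 9} := by decide
  rw [hdiv] at hd'
  simp only [Finset.mem_insert, Finset.mem_singleton] at hd'
  rcases hd' with rfl | rfl | rfl
  · rw [qExpand_one_apply]
    exact mem_adjoin_of_mul_eq'
      (mul_mem (pow_mem (add_mem hx h6) 3)
        (pow_mem (add_mem (add_mem (add_mem (pow_mem hx 3) (mul_mem h234 (pow_mem hx 2)))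
          (mul_mem h756 hx)) h2160) 3))
      (mul_mem (pow_mem (sub_mem hx h3) 8) (sub_mem (pow_mem hx 3) h27))
      (mul_ne_zero (pow_ne_zero _ (y9k_sub_ne_zero k)) (y9k_cube_sub_ne_zero k)) (jq_y9k k)
  · exact mem_adjoin_of_mul_eq'
      (mul_mem (pow_mem hx 3) (pow_mem (add_mem (pow_mem hx 3) h216) 3))
      (pow_mem (sub_mem (pow_mem hx 3) h27) 3)
      (pow_ne_zero _ (y9k_cube_sub_ne_zero k)) (jq3_y9k k)
  · exact mem_adjoin_of_mul_eq'
      (mul_mem (pow_mem hx 3) (pow_mem (sub_mem (pow_mem hx 3) h24) 3))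
      (sub_mem (pow_mem hx 3) h27)
      (y9k_cube_sub_ne_zero k) (jq9_y9k k)

theorem rel_y9k : jqModC k * aeval (y9k k) (Q9k k) = aeval (y9k k) (P9k k) := by
  rw [aeval_P9k, aeval_Q9k, jq_y9k]

variable {k}
variable [IsAlgClosed k]

/-- **`y₉` lies in the function field of `X₀(9)` over `k`** (`3` invertible in `k`). -/
theorem y9k_mem_nine (h9 : ((9 : ℕ) : k) ≠ 0) : y9k k ∈ Fk k 9 :=
  mem_Fk_of_relation 9 12 (by rw [finrank_Fk_eq_dedekindPsi h9, dedekindPsi_nine]) (y9k k) (P9k k)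
    (Q9k k) (by rw [natDegree_P9k]; exact lt_of_le_of_lt (natDegree_Q9k_le k) (by norm_num))
    (by rw [natDegree_P9k]) (rel_y9k k) (fun d _ hd => gens_y9k k d hd)

/-- **`y₉ ∈ Fk k N` for `9 ∣ N`, `N` invertible in `k`.** -/
theorem y9k_mem {N : ℕ} (h9N : 9 ∣ N) (hNk : (N : k) ≠ 0) : y9k k ∈ Fk k N := by
  have h9 : ((9 : ℕ) : k) ≠ 0 := by
    obtain ⟨c, rfl⟩ := h9N
    intro h
    apply hNk
    rw [Nat.cast_mul, h, zero_mul]
  exact Fk_mono 9 h9N (y9k_mem_nine h9)

/-- The Hauptmodul as an element of `Fk k N`. -/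
noncomputable def tFk {N : ℕ} (h9N : 9 ∣ N) (hNk : (N : k) ≠ 0) : Fk k N :=
  ⟨y9k k, y9k_mem h9N hNk⟩

theorem coe_tFk {N : ℕ} (h9N : 9 ∣ N) (hNk : (N : k) ≠ 0) :
    ((tFk h9N hNk : Fk k N) : LaurentSeries k) = y9k k := rfl

end L9

end Fermat.Agent.Gateway.AuxLevel
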