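/-
The shifted level-9 Hauptmodul `z₉ = y₉ - 3` in the Gauss valuation ring of `FBar ℚ̄ N` and its
reduction (companion of `GoodRed/Instantiate/HauptRed.lean`; requested by P-S34 WP3-inst).
-/
import Fermat.Agent.Gateway.GoodRed.Instantiate.HauptRed
import Fermat.Agent.Gateway.AuxLevel.Shifted9

set_option autoImplicit false
set_option linter.unusedSectionVars false

noncomputable section

open ModularCurve IntermediateField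

namespace Fermat.Agent.Gateway.GoodRed.HauptRed

open Fermat.Agent.Gateway.GoodRed Fermat.Agent.Gateway.Red Fermat.Agent.Gateway.AuxLevel
  Fermat.Agent.S24 Fermat.Agent.S24.Setup

variable (A : ValuationSubring Kbar) {k : Type} [Field k] (π : A →+* k) (N : ℕ)
  [IsAlgClosed k] (ℓ : ℕ) [Fact ℓ.Prime] [CharP k ℓ] [NeZero N]

/-- `z₉ = y₉ - 3` as an element of `FBar Kbar N`, `9 ∣ N`. -/
def z9F (h9 : 9 ∣ N) : FBar Kbar N := ⟨L9.z9K, L9.z9K_mem_of_dvd h9⟩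

theorem coe_z9F (h9 : 9 ∣ N) : ((z9F N h9 : FBar Kbar N) : LaurentSeries Kbar) = L9.z9K := rfl

theorem z9F_eq (h9 : 9 ∣ N) : z9F N h9 = y9F N h9 - 3 := by
  apply Subtype.ext
  rw [coe_z9F, L9.z9K_eq_y9K_sub]
  rfl

theorem z9F_mem_OvVal (hπ : Function.Surjective π) (hℓN : ¬ ℓ ∣ N) (h9 : 9 ∣ N) :
    z9F N h9 ∈ OvVal A π N ℓ hπ hℓN :=
  int_mem_OvVal A π N ℓ hπ hℓN L9.z9 (L9.z9K_mem_of_dvd h9)

/-- **`z9k k ∈ Fk k N`** for `9 ∣ N`, `ℓ ∤ N`. -/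
theorem z9k_mem_Fk (hπ : Function.Surjective π) (hℓN : ¬ ℓ ∣ N) (h9 : 9 ∣ N) :
    L9.z9k k ∈ modularFunctionFieldFullC k N :=
  int_mem_Fk A π N ℓ hπ hℓN L9.z9 (L9.z9K_mem_of_dvd h9)

/-- the reduced shifted level-9 Hauptmodul as an element of `Fk k N`. -/
def tz9 (hπ : Function.Surjective π) (hℓN : ¬ ℓ ∣ N) (h9 : 9 ∣ N) :
    modularFunctionFieldFullC k N :=
  ⟨L9.z9k k, z9k_mem_Fk A π N ℓ hπ hℓN h9⟩

theorem coe_tz9 (hπ : Function.Surjective π) (hℓN : ¬ ℓ ∣ N) (h9 : 9 ∣ N) :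
    ((tz9 A π N ℓ hπ hℓN h9 : modularFunctionFieldFullC k N) : LaurentSeries k) = L9.z9k k := rfl

/-- `resFk z₉ = tz9`. -/
theorem resFk_z9F (hπ : Function.Surjective π) (hℓN : ¬ ℓ ∣ N) (h9 : 9 ∣ N) :
    resFk A π N ℓ hπ hℓN ⟨z9F N h9, z9F_mem_OvVal A π N ℓ hπ hℓN h9⟩ = tz9 A π N ℓ hπ hℓN h9 :=
  Subtype.ext (coe_resFk_int A π N ℓ hπ hℓN L9.z9 (L9.z9K_mem_of_dvd h9))

theorem tz9_eq (hπ : Function.Surjective π) (hℓN : ¬ ℓ ∣ N) (h9 : 9 ∣ N) :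
    tz9 A π N ℓ hπ hℓN h9 = t9 A π N ℓ hπ hℓN h9 - 3 := by
  apply Subtype.ext
  rw [coe_tz9, L9.z9k_eq_y9k_sub]
  rfl

end Fermat.Agent.Gateway.GoodRed.HauptRed
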